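import Fermat.Agent.CFT.EC.InfPlaces
import Fermat.Agent.CFT.PT.Euler
import Fermat.Agent.CFT.D2.LocBound

/-!
# The Euler characteristic function `e(ρ) = h⁰ − h¹ + h² + dim V − dim V^c`

* `eul`, `ee` : the Euler characteristic and its corrected version;
* `eul_le` : subadditivity on short exact sequences;
* `dualSES` : the twisted dual of a short exact sequence;
* `ee_dual` : `ee (dtw ρ χ) = - ee ρ`;
* `ee_add` : additivity;
* `ee_congr` : invariance under isomorphisms.
-/

set_option autoImplicit false
set_option linter.unusedSectionVars false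

namespace Fermat.Agent.CFT.EC

open Fermat.Agent.CFT.LC Fermat.Agent.CFT.PT Module

section Defs

variable {k : Type} [Field k] {G : Type} [Group G] {V : Type} [AddCommGroup V] [Module k V]

/-- the Euler characteristic -/
noncomputable def eul (ρ : Representation k G V) (L : Lvl G) : ℤ :=
  (finrank k (LC.H0 ρ) : ℤ) - finrank k (LC.H1 ρ L) + finrank k (LC.H2 ρ L)

/-- the corrected Euler characteristic -/
noncomputable def ee (c : G) (ρ : Representation k G V) (L : Lvl G) : ℤ :=
  eul ρ L + finrank k V - finrank k (LinearMap.ker (ρ c - 1))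

end Defs

section SESs

variable {k : Type} [Field k] {G : Type} [Group G] {L : Lvl G} {A B C : Type}
  [AddCommGroup A] [Module k A] [AddCommGroup B] [Module k B] [AddCommGroup C] [Module k C]
  {ρA : Representation k G A} {ρB : Representation k G B} {ρC : Representation k G C}

/-- subadditivity of the Euler characteristic -/
theorem eul_le (s : SES L ρA ρB ρC) [FiniteDimensional k A] [FiniteDimensional k C]
    (fA1 : FiniteDimensional k (LC.H1 ρA L)) (fC1 : FiniteDimensional k (LC.H1 ρC L))
    (fA2 : FiniteDimensional k (LC.H2 ρA L)) (fC2 : FiniteDimensional k (LC.H2 ρC L)) :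
    eul ρB L ≤ eul ρA L + eul ρC L := by
  obtain ⟨fB1, fB2, hle⟩ := finrank_les s.H0_injective s.exact_H0 s.exact_H0_δ0 s.exact_δ0_H1
      s.exact_H1 s.exact_H1_δ1 s.exact_δ1_H2 s.exact_H2 inferInstance inferInstance fA1 fC1 fA2 fC2
  rw [eul, eul, eul]
  omega

theorem finrank_ses (s : SES L ρA ρB ρC) [FiniteDimensional k A] [FiniteDimensional k B]
    [FiniteDimensional k C] : finrank k B = finrank k A + finrank k C := by
  have h1 := s.q.finrank_range_add_finrank_ker
  rw [LinearMap.range_eq_top.mpr s.surj, finrank_top] at h1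
  have h2 : LinearMap.ker s.q = LinearMap.range s.i := by
    ext b
    rw [LinearMap.mem_ker, LinearMap.mem_range]
    exact ⟨s.exact b, by rintro ⟨a, rfl⟩; exact s.q_i a⟩
  rw [h2, LinearMap.finrank_range_of_inj s.inj] at h1
  omega

/-- taking invariants of an involution is exact in odd characteristic -/
theorem finrank_ker_ses (h2 : (2 : k) ≠ 0) {c : G} (hc : c * c = 1) (s : SES L ρA ρB ρC)
    [FiniteDimensional k A] [FiniteDimensional k B] [FiniteDimensional k C] :
    finrank k (LinearMap.ker (ρB c - 1)) =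
      finrank k (LinearMap.ker (ρA c - 1)) + finrank k (LinearMap.ker (ρC c - 1)) := by
  let i' : LinearMap.ker (ρA c - 1) →ₗ[k] LinearMap.ker (ρB c - 1) :=
    s.i.restrict fun a ha => by
      rw [LinearMap.mem_ker, LinearMap.sub_apply, Module.End.one_apply, sub_eq_zero] at ha ⊢
      rw [← s.i_comm, ha]
  let q' : LinearMap.ker (ρB c - 1) →ₗ[k] LinearMap.ker (ρC c - 1) :=
    s.q.restrict fun a ha => by
      rw [LinearMap.mem_ker, LinearMap.sub_apply, Module.End.one_apply, sub_eq_zero] at ha ⊢
      rw [← s.q_comm, ha]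
  have hi : Function.Injective i' := by
    intro a b hab
    exact Subtype.ext (s.inj (congrArg Subtype.val hab))
  have hq : Function.Surjective q' := by
    rintro ⟨v, hv⟩
    rw [LinearMap.mem_ker, LinearMap.sub_apply, Module.End.one_apply, sub_eq_zero] at hv
    obtain ⟨u, hu⟩ := s.surj ((2 : k)⁻¹ • v)
    refine ⟨⟨ρB c u + u, ?_⟩, Subtype.ext ?_⟩
    · rw [LinearMap.mem_ker, LinearMap.sub_apply, Module.End.one_apply, map_add,
        ← Module.End.mul_apply, ← map_mul, hc, map_one, Module.End.one_apply]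
      abel
    · show s.q (ρB c u + u) = v
      rw [map_add, s.q_comm, hu, map_smul, hv, ← two_smul k, smul_smul, mul_inv_cancel₀ h2,
        one_smul]
  have hex : LinearMap.ker q' = LinearMap.range i' := by
    ext ⟨b, hb⟩
    rw [LinearMap.mem_ker, LinearMap.mem_range]
    constructor
    · intro h
      obtain ⟨a, rfl⟩ := s.exact b (congrArg Subtype.val h)
      refine ⟨⟨a, ?_⟩, rfl⟩
      rw [LinearMap.mem_ker, LinearMap.sub_apply, Module.End.one_apply, sub_eq_zero] at hb ⊢
      rw [← s.i_comm] at hb
      exact s.inj hb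
    · rintro ⟨a, ha⟩
      rw [← ha]
      exact Subtype.ext (s.q_i a.1)
  have h1 := q'.finrank_range_add_finrank_ker
  rw [LinearMap.range_eq_top.mpr hq, finrank_top, hex, LinearMap.finrank_range_of_inj hi] at h1
  omega

theorem ee_le (h2 : (2 : k) ≠ 0) {c : G} (hc : c * c = 1) (s : SES L ρA ρB ρC)
    [FiniteDimensional k A] [FiniteDimensional k B] [FiniteDimensional k C]
    (fA1 : FiniteDimensional k (LC.H1 ρA L)) (fC1 : FiniteDimensional k (LC.H1 ρC L))
    (fA2 : FiniteDimensional k (LC.H2 ρA L)) (fC2 : FiniteDimensional k (LC.H2 ρC L)) :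
    ee c ρB L ≤ ee c ρA L + ee c ρC L := by
  have e1 := eul_le s fA1 fC1 fA2 fC2
  have e2 := finrank_ses s
  have e3 := finrank_ker_ses h2 hc s
  rw [ee, ee, ee]
  omega

/-- The twisted dual of a short exact sequence. -/
noncomputable def dualSES (s : SES L ρA ρB ρC) [FiniteDimensional k B] {χ : G →* kˣ}
    (hχ : ContChar L χ) : SES L (dtw ρC χ) (dtw ρB χ) (dtw ρA χ) where
  i := s.q.dualMap
  q := s.i.dualMap
  i_comm g φ := by
    refine LinearMap.ext fun v => ?_
    rw [LinearMap.dualMap_apply, dtw_apply_apply, dtw_apply_apply, LinearMap.dualMap_apply,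
      s.q_comm]
  q_comm g φ := by
    refine LinearMap.ext fun v => ?_
    rw [LinearMap.dualMap_apply, dtw_apply_apply, dtw_apply_apply, LinearMap.dualMap_apply,
      s.i_comm]
  inj := LinearMap.dualMap_injective_of_surjective s.surj
  surj := LinearMap.dualMap_surjective_of_injective s.inj
  exact φ hφ := by
    have h1 : φ ∈ (LinearMap.ker s.q).dualAnnihilator := by
      rw [Submodule.mem_dualAnnihilator]
      intro b hb
      obtain ⟨a, rfl⟩ := s.exact b hb
      exact LinearMap.congr_fun hφ a
    rw [← LinearMap.range_dualMap_eq_dualAnnihilator_ker] at h1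
    exact h1
  q_i φ := by
    refine LinearMap.ext fun v => ?_
    rw [LinearMap.dualMap_apply, LinearMap.dualMap_apply, s.q_i, map_zero]
    rfl
  smooth := smooth_dtw s.smooth hχ

end SESs

section Dual

variable {k : Type} [Field k] {G : Type} [Group G] {L : Lvl G} {V W : Type} [AddCommGroup V]
  [Module k V] [AddCommGroup W] [Module k W]

theorem finrank_ker_dtw [FiniteDimensional k V] (h2 : (2 : k) ≠ 0) (ρ : Representation k G V)
    (χ : G →* kˣ) (c : G) (hc : c * c = 1) (hχ : (χ c : k) = -1) :
    finrank k (LinearMap.ker (dtw ρ χ c - 1)) + finrank k (LinearMap.ker (ρ c - 1)) =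
      finrank k V := by
  have hinv : c⁻¹ = c := inv_eq_of_mul_eq_one_right hc
  have hAA : ρ c * ρ c = 1 := by rw [← map_mul, hc, map_one]
  rw [finrank_involution h2 (ρ c) hAA]
  have h3 : LinearMap.ker (dtw ρ χ c - 1) = (LinearMap.range (ρ c + 1)).dualAnnihilator := by
    ext φ
    rw [LinearMap.mem_ker, LinearMap.sub_apply, Module.End.one_apply, sub_eq_zero,
      Submodule.mem_dualAnnihilator]
    constructor
    · rintro h _ ⟨v, rfl⟩
      have h4 := LinearMap.congr_fun h v
      rw [dtw_apply_apply, hχ, hinv] at h4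
      rw [LinearMap.add_apply, Module.End.one_apply, map_add, ← h4]
      ring
    · intro h
      refine LinearMap.ext fun v => ?_
      have h4 := h _ ⟨v, rfl⟩
      rw [LinearMap.add_apply, Module.End.one_apply, map_add] at h4
      rw [dtw_apply_apply, hχ, hinv]
      linear_combination -h4
  rw [h3, add_comm, Subspace.finrank_add_finrank_dualAnnihilator_eq]

theorem ee_dual [FiniteDimensional k V] (h2 : (2 : k) ≠ 0) (ρ : Representation k G V)
    (χ : G →* kˣ) (c : G) (hc : c * c = 1) (hχ : (χ c : k) = -1)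
    (hsum : eul ρ L + eul (dtw ρ χ) L = -(finrank k V : ℤ)) :
    ee c (dtw ρ χ) L = - ee c ρ L := by
  have h1 := finrank_ker_dtw h2 ρ χ c hc hχ
  have h3 : finrank k (Dual k V) = finrank k V := Subspace.dual_finrank_eq
  rw [ee, ee, h3]
  omega

theorem ee_congr (c : G) {ρ : Representation k G V} {σ : Representation k G W} (e : V ≃ₗ[k] W)
    (he : ∀ g v, e (ρ g v) = σ g (e v)) : ee c ρ L = ee c σ L := by
  let m : MorIso ρ L σ L := MorIso.coeff L e he
  have h0 : finrank k (LC.H0 ρ) = finrank k (LC.H0 σ) := m.H0.finrank_eq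
  have h1 : finrank k (LC.H1 ρ L) = finrank k (LC.H1 σ L) := m.H1.finrank_eq
  have h2 : finrank k (LC.H2 ρ L) = finrank k (LC.H2 σ L) := m.H2.finrank_eq
  have h3 : finrank k V = finrank k W := e.finrank_eq
  have h4 : finrank k (LinearMap.ker (ρ c - 1)) = finrank k (LinearMap.ker (σ c - 1)) := by
    refine LinearEquiv.finrank_eq (LinearEquiv.ofSubmodules e _ _ ?_)
    ext w
    rw [Submodule.mem_map]
    constructor
    · rintro ⟨v, hv, rfl⟩
      rw [LinearMap.mem_ker, LinearMap.sub_apply, Module.End.one_apply, sub_eq_zero] at hv ⊢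
      rw [LinearEquiv.coe_coe, ← he, hv]
    · intro hw
      refine ⟨e.symm w, ?_, e.apply_symm_apply w⟩
      rw [LinearMap.mem_ker, LinearMap.sub_apply, Module.End.one_apply, sub_eq_zero] at hw ⊢
      apply e.injective
      rw [he, e.apply_symm_apply, hw]
  rw [ee, ee, eul, eul, h0, h1, h2, h3, h4]

end Dual

section Add

variable {k : Type} [Field k] {G : Type} [Group G] {L : Lvl G} {χ : G →* kˣ} {c : G}

/-- finiteness of the cohomology -/
def Fin12 (k : Type) [Field k] {G : Type} [Group G] (L : Lvl G) : Prop :=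
  ∀ {V : Type} [AddCommGroup V] [Module k V] [FiniteDimensional k V] (ρ : Representation k G V),
    Smooth L ρ → FiniteDimensional k (LC.H1 ρ L) ∧ FiniteDimensional k (LC.H2 ρ L)

/-- the sum of the Euler characteristics of `ρ` and its twisted dual -/
def EulSum (L : Lvl G) (χ : G →* kˣ) : Prop :=
  ∀ {V : Type} [AddCommGroup V] [Module k V] [FiniteDimensional k V] (ρ : Representation k G V),
    Smooth L ρ → eul ρ L + eul (dtw ρ χ) L = -(finrank k V : ℤ)

/-- **Additivity.** -/
theorem ee_add (h2 : (2 : k) ≠ 0) (hc : c * c = 1) (hχc : (χ c : k) = -1)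
    (hχ : ContChar L χ) (hfin : Fin12 k L) (hsum : EulSum L χ)
    {A B C : Type} [AddCommGroup A] [Module k A] [AddCommGroup B] [Module k B] [AddCommGroup C]
    [Module k C] [FiniteDimensional k A] [FiniteDimensional k B] [FiniteDimensional k C]
    {ρA : Representation k G A} {ρB : Representation k G B} {ρC : Representation k G C}
    (s : SES L ρA ρB ρC) : ee c ρB L = ee c ρA L + ee c ρC L := by
  have hA := hfin ρA s.smoothA
  have hC := hfin ρC s.smoothC
  have h1 := ee_le h2 hc s hA.1 hC.1 hA.2 hC.2
  have s' := dualSES s hχ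
  have hA' := hfin (dtw ρA χ) s'.smoothC
  have hC' := hfin (dtw ρC χ) s'.smoothA
  have h3 := ee_le h2 hc s' hC'.1 hA'.1 hC'.2 hA'.2
  rw [ee_dual h2 ρA χ c hc hχc (hsum ρA s.smoothA),
    ee_dual h2 ρB χ c hc hχc (hsum ρB s.smooth),
    ee_dual h2 ρC χ c hc hχc (hsum ρC s.smoothC)] at h3
  omega

end Add

end Fermat.Agent.CFT.EC
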