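import Mathlib

/-!
# Counting equivariant homomorphisms

`Δ` a finite group, `p` a prime not dividing `|Δ|`, `P` a `Δ`-module killed by `p`.
`EHom ρP ρA` is the group of equivariant additive maps `P →+ A`.
We show that `X ↦ |EHom(P, X)|` is multiplicative in short exact sequences of `Δ`-modules killed
by `p`, and that `A ↦ |EHom(P, A/p)| / |EHom(P, A[p])|` is multiplicative in arbitrary short exact
sequences and trivial on finite modules.
-/

set_option autoImplicit false

namespace Fermat.Agent.CFT.EC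

variable {Δ : Type*} [Group Δ] {P A B C : Type*} [AddCommGroup P] [AddCommGroup A]
  [AddCommGroup B] [AddCommGroup C]

/-- equivariant additive maps -/
def EHom (ρP : Δ →* AddMonoid.End P) (ρA : Δ →* AddMonoid.End A) : AddSubgroup (P →+ A) where
  carrier := {f | ∀ g x, f (ρP g x) = ρA g (f x)}
  zero_mem' := fun g x => by simp
  add_mem' := fun {f f'} hf hf' g x => by
    rw [AddMonoidHom.add_apply, AddMonoidHom.add_apply, hf, hf', map_add]
  neg_mem' := fun {f} hf g x => by
    rw [AddMonoidHom.neg_apply, AddMonoidHom.neg_apply, hf, map_neg]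

theorem mem_EHom {ρP : Δ →* AddMonoid.End P} {ρA : Δ →* AddMonoid.End A} {f : P →+ A} :
    f ∈ EHom ρP ρA ↔ ∀ g x, f (ρP g x) = ρA g (f x) := Iff.rfl

/-- the induced action on a stable subgroup -/
def subAct (ρA : Δ →* AddMonoid.End A) (H : AddSubgroup A) (hH : ∀ g, ∀ x ∈ H, ρA g x ∈ H) :
    Δ →* AddMonoid.End H where
  toFun g := ((ρA g : A →+ A).comp H.subtype).codRestrict H (fun x => hH g x x.2)
  map_one' := by
    refine AddMonoidHom.ext fun x => Subtype.ext ?_
    show ρA 1 (x : A) = x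
    rw [map_one]; rfl
  map_mul' g h := by
    refine AddMonoidHom.ext fun x => Subtype.ext ?_
    show ρA (g * h) (x : A) = ρA g (ρA h x)
    rw [map_mul]; rfl

@[simp] theorem coe_subAct (ρA : Δ →* AddMonoid.End A) (H : AddSubgroup A)
    (hH : ∀ g, ∀ x ∈ H, ρA g x ∈ H) (g : Δ) (x : H) :
    ((subAct ρA H hH g x : H) : A) = ρA g x := rfl

/-- the induced action on the quotient by a stable subgroup -/
def quoAct (ρA : Δ →* AddMonoid.End A) (H : AddSubgroup A) (hH : ∀ g, ∀ x ∈ H, ρA g x ∈ H) :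
    Δ →* AddMonoid.End (A ⧸ H) where
  toFun g := QuotientAddGroup.map H H (ρA g : A →+ A) (fun x hx => hH g x hx)
  map_one' := by
    refine AddMonoidHom.ext fun x => ?_
    induction x using QuotientAddGroup.induction_on with
    | H x =>
      show ((ρA 1 x : A) : A ⧸ H) = x
      rw [map_one]; rfl
  map_mul' g h := by
    refine AddMonoidHom.ext fun x => ?_
    induction x using QuotientAddGroup.induction_on with
    | H x =>
      show ((ρA (g * h) x : A) : A ⧸ H) = ((ρA g (ρA h x) : A) : A ⧸ H)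
      rw [map_mul]; rfl

@[simp] theorem quoAct_mk (ρA : Δ →* AddMonoid.End A) (H : AddSubgroup A)
    (hH : ∀ g, ∀ x ∈ H, ρA g x ∈ H) (g : Δ) (x : A) :
    quoAct ρA H hH g (x : A ⧸ H) = ((ρA g x : A) : A ⧸ H) := rfl

/-- postcomposition with an equivariant map -/
def EHom.postcomp (ρP : Δ →* AddMonoid.End P) {ρA : Δ →* AddMonoid.End A}
    {ρB : Δ →* AddMonoid.End B} (φ : A →+ B) (hφ : ∀ g x, φ (ρA g x) = ρB g (φ x)) :
    EHom ρP ρA →+ EHom ρP ρB where
  toFun f := ⟨φ.comp f.1, fun g x => by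
    rw [AddMonoidHom.comp_apply, AddMonoidHom.comp_apply, f.2, hφ]⟩
  map_zero' := by ext; simp
  map_add' f f' := by ext; simp

@[simp] theorem EHom.postcomp_apply (ρP : Δ →* AddMonoid.End P) {ρA : Δ →* AddMonoid.End A}
    {ρB : Δ →* AddMonoid.End B} (φ : A →+ B) (hφ : ∀ g x, φ (ρA g x) = ρB g (φ x))
    (f : EHom ρP ρA) (x : P) : (EHom.postcomp ρP φ hφ f).1 x = φ (f.1 x) := rfl

/-- `|EHom(P, A)| = |EHom(P, B)|` for isomorphic modules. -/
theorem card_EHom_congr (ρP : Δ →* AddMonoid.End P) {ρA : Δ →* AddMonoid.End A}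
    {ρB : Δ →* AddMonoid.End B} (φ : A →+ B) (hb : Function.Bijective φ)
    (hφ : ∀ g x, φ (ρA g x) = ρB g (φ x)) :
    Nat.card (EHom ρP ρA) = Nat.card (EHom ρP ρB) := by
  refine Nat.card_congr (Equiv.ofBijective (EHom.postcomp ρP φ hφ) ⟨?_, ?_⟩)
  · intro f f' h
    ext x
    have := congrArg (fun F : EHom ρP ρB => F.1 x) h
    exact hb.1 this
  · intro f
    let e : A ≃+ B := AddEquiv.ofBijective φ hb
    have he : ∀ x, φ (e.symm x) = x := fun x => e.apply_symm_apply x
    refine ⟨⟨(e.symm : B →+ A).comp f.1, fun g x => ?_⟩, ?_⟩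
    · apply hb.1
      show φ (e.symm (f.1 (ρP g x))) = φ (ρA g (e.symm (f.1 x)))
      rw [he, hφ, he, f.2]
    · ext x
      exact he _

theorem card_EHom_subsingleton [Subsingleton A] (ρP : Δ →* AddMonoid.End P)
    (ρA : Δ →* AddMonoid.End A) : Nat.card (EHom ρP ρA) = 1 := by
  rw [AddSubgroup.card_eq_one, eq_bot_iff]
  intro f _
  rw [AddSubgroup.mem_bot]
  ext x
  exact Subsingleton.elim _ _

/-- Lifting of equivariant maps along surjections of modules killed by `p`. -/
theorem EHom.exists_lift [Finite Δ] {p : ℕ} [hp : Fact p.Prime] (hpΔ : ¬ p ∣ Nat.card Δ)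
    {ρP : Δ →* AddMonoid.End P} {ρA : Δ →* AddMonoid.End A} {ρB : Δ →* AddMonoid.End B}
    (hA : ∀ x : A, p • x = 0) (hB : ∀ x : B, p • x = 0)
    (φ : A →+ B) (hs : Function.Surjective φ)
    (hφ : ∀ g x, φ (ρA g x) = ρB g (φ x)) (f : EHom ρP ρB) :
    ∃ f' : EHom ρP ρA, ∀ x, φ (f'.1 x) = f.1 x := by
  classical
  have := Fintype.ofFinite Δ
  -- additive section
  obtain ⟨s, hsec⟩ : ∃ s : B →+ A, ∀ x, φ (s x) = x := by
    have key : ∀ (mA : Module (ZMod p) A) (mB : Module (ZMod p) B),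
        ∃ s : B →+ A, ∀ x, φ (s x) = x := by
      intro mA mB
      obtain ⟨s, hs'⟩ := Module.projective_lifting_property
        (AddMonoidHom.toZModLinearMap p φ) (LinearMap.id : B →ₗ[ZMod p] B) hs
      exact ⟨s.toAddMonoidHom, fun x => DFunLike.congr_fun hs' x⟩
    exact key (AddCommGroup.zmodModule hA) (AddCommGroup.zmodModule hB)
  -- an inverse of `|Δ|` modulo `p`
  obtain ⟨m, hm⟩ : ∃ m : ℕ, m * Nat.card Δ ≡ 1 [MOD p] := by
    have hcop : Nat.Coprime (Nat.card Δ) p := (Nat.Prime.coprime_iff_not_dvd hp.out).2 hpΔ |>.symm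
    obtain ⟨m, -, hm⟩ := Nat.exists_mul_mod_eq_one_of_coprime hcop hp.out.one_lt
    refine ⟨m, ?_⟩
    rw [Nat.ModEq, mul_comm, hm, Nat.mod_eq_of_lt hp.out.one_lt]
  have hmB : ∀ x : B, (m * Nat.card Δ) • x = x := by
    intro x
    have h1 := hm
    obtain ⟨k, hk⟩ : ∃ k, m * Nat.card Δ = 1 + p * k := by
      have hle : 1 ≤ m * Nat.card Δ := by
        by_contra h
        have h0 : m * Nat.card Δ = 0 := by omega
        rw [h0] at h1
        have := (Nat.modEq_zero_iff_dvd.1 h1.symm)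
        exact hp.out.one_lt.ne' (Nat.dvd_one.1 this)
      obtain ⟨k, hk⟩ := (Nat.modEq_iff_dvd' hle).1 h1.symm
      exact ⟨k, by omega⟩
    rw [hk, add_nsmul, one_nsmul, mul_comm p k, mul_nsmul', hB, smul_zero, add_zero]
  let F : P →+ A := m • ∑ g : Δ, (ρA g : A →+ A).comp (s.comp (f.1.comp (ρP g⁻¹ : P →+ P)))
  have hF : ∀ x, F x = m • ∑ g : Δ, ρA g (s (f.1 (ρP g⁻¹ x))) := by
    intro x
    show (m • ∑ g : Δ, (ρA g : A →+ A).comp (s.comp (f.1.comp (ρP g⁻¹ : P →+ P)))) x = _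
    rw [AddMonoidHom.nsmul_apply, AddMonoidHom.finsetSum_apply]
    rfl
  refine ⟨⟨F, ?_⟩, ?_⟩
  · intro h x
    rw [hF, hF, map_nsmul, map_sum]
    congr 1
    rw [← Fintype.sum_bijective (fun g => h * g) (Group.mulLeft_bijective h)
      (fun g => ρA (h * g) (s (f.1 (ρP (h * g)⁻¹ (ρP h x))))) _ (fun g => rfl)]
    refine Finset.sum_congr rfl fun g _ => ?_
    have e1 : ρP (h * g)⁻¹ (ρP h x) = ρP g⁻¹ x := by
      have : (ρP (h * g)⁻¹ * ρP h) x = ρP g⁻¹ x := by
        rw [← map_mul]; congr 2; group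
      exact this
    rw [e1, map_mul]; rfl
  · intro x
    show φ (F x) = f.1 x
    rw [hF, map_nsmul, map_sum]
    have : ∀ g : Δ, φ (ρA g (s (f.1 (ρP g⁻¹ x)))) = f.1 x := by
      intro g
      rw [hφ, hsec, ← f.2]
      have : (ρP g * ρP g⁻¹) x = x := by
        rw [← map_mul, mul_inv_cancel, map_one]; rfl
      exact congrArg f.1 this
    rw [Finset.sum_congr rfl fun g _ => this g, Finset.sum_const, Finset.card_univ,
      ← Nat.card_eq_fintype_card, ← mul_nsmul', hmB]

/-- Multiplicativity of `|EHom(P, -)|` on short exact sequences of modules killed by `p`. -/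
theorem card_EHom_exact [Finite Δ] {p : ℕ} [hp : Fact p.Prime] (hpΔ : ¬ p ∣ Nat.card Δ)
    {ρP : Δ →* AddMonoid.End P} {ρA : Δ →* AddMonoid.End A} {ρB : Δ →* AddMonoid.End B}
    {ρC : Δ →* AddMonoid.End C}
    (hB : ∀ x : B, p • x = 0)
    (i : A →+ B) (hi : Function.Injective i) (hiρ : ∀ g x, i (ρA g x) = ρB g (i x))
    (q : B →+ C) (hq : Function.Surjective q) (hqρ : ∀ g x, q (ρB g x) = ρC g (q x))
    (hex : ∀ x, q x = 0 ↔ x ∈ i.range) :
    Nat.card (EHom ρP ρB) = Nat.card (EHom ρP ρA) * Nat.card (EHom ρP ρC) := by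
  have hC : ∀ x : C, p • x = 0 := by
    intro x
    obtain ⟨y, rfl⟩ := hq x
    rw [← map_nsmul, hB, map_zero]
  let Q := EHom.postcomp ρP q hqρ
  let I := EHom.postcomp ρP i hiρ
  have hQs : Function.Surjective Q := by
    intro f
    obtain ⟨f', hf'⟩ := EHom.exists_lift hpΔ hB hC q hq hqρ f
    exact ⟨f', by ext x; exact hf' x⟩
  have hIi : Function.Injective I := by
    intro f f' h
    ext x
    have := congrArg (fun F : EHom ρP ρB => F.1 x) h
    exact hi this
  have hIQ : I.range = Q.ker := by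
    ext f
    constructor
    · rintro ⟨f, rfl⟩
      rw [AddMonoidHom.mem_ker]
      ext x
      exact (hex _).2 ⟨_, rfl⟩
    · intro hf
      rw [AddMonoidHom.mem_ker] at hf
      have h1 : ∀ x, ∃ y, i y = f.1 x := fun x =>
        (hex _).1 (congrArg (fun F : EHom ρP ρC => F.1 x) hf)
      choose y hy using h1
      refine ⟨⟨AddMonoidHom.mk' y (fun a b => hi (by rw [map_add, hy, hy, hy, map_add])),
        fun g x => hi ?_⟩, ?_⟩
      · show i (y (ρP g x)) = i (ρA g (y x))
        rw [hy, hiρ, hy, f.2]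
      · ext x
        exact hy x
  have h1 : Nat.card Q.ker * Nat.card Q.range = Nat.card (EHom ρP ρB) := by
    rw [← AddSubgroup.index_ker, AddSubgroup.card_mul_index]
  rw [← h1, AddMonoidHom.range_eq_top.2 hQs, AddSubgroup.card_top, ← hIQ]
  congr 1
  exact (Nat.card_congr (AddMonoidHom.ofInjective hIi).toEquiv).symm

/-! ### Kernels, ranges, exact sequences -/

theorem card_EHom_subAct_congr (ρP : Δ →* AddMonoid.End P) (ρA : Δ →* AddMonoid.End A)
    {H H' : AddSubgroup A} (e : H = H') (hH : ∀ g, ∀ x ∈ H, ρA g x ∈ H)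
    (hH' : ∀ g, ∀ x ∈ H', ρA g x ∈ H') :
    Nat.card (EHom ρP (subAct ρA H hH)) = Nat.card (EHom ρP (subAct ρA H' hH')) := by
  subst e
  rfl

theorem ker_stable {ρA : Δ →* AddMonoid.End A} {ρB : Δ →* AddMonoid.End B} {φ : A →+ B}
    (hφ : ∀ g x, φ (ρA g x) = ρB g (φ x)) (g : Δ) (x : A) (hx : x ∈ φ.ker) :
    ρA g x ∈ φ.ker := by
  rw [AddMonoidHom.mem_ker] at hx ⊢
  rw [hφ, hx, map_zero]

theorem range_stable {ρA : Δ →* AddMonoid.End A} {ρB : Δ →* AddMonoid.End B} {φ : A →+ B}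
    (hφ : ∀ g x, φ (ρA g x) = ρB g (φ x)) (g : Δ) (x : B) (hx : x ∈ φ.range) :
    ρB g x ∈ φ.range := by
  obtain ⟨y, rfl⟩ := hx
  exact ⟨ρA g y, hφ g y⟩

theorem card_EHom_ker_range [Finite Δ] {p : ℕ} [hp : Fact p.Prime] (hpΔ : ¬ p ∣ Nat.card Δ)
    (ρP : Δ →* AddMonoid.End P) {ρA : Δ →* AddMonoid.End A} {ρB : Δ →* AddMonoid.End B}
    (hA : ∀ x : A, p • x = 0) (φ : A →+ B) (hφ : ∀ g x, φ (ρA g x) = ρB g (φ x)) :
    Nat.card (EHom ρP ρA) = Nat.card (EHom ρP (subAct ρA φ.ker (ker_stable hφ))) *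
      Nat.card (EHom ρP (subAct ρB φ.range (range_stable hφ))) := by
  refine card_EHom_exact hpΔ hA φ.ker.subtype Subtype.val_injective (fun g x => rfl)
    φ.rangeRestrict φ.rangeRestrict_surjective (fun g x => Subtype.ext (hφ g x)) ?_
  intro x
  rw [AddSubgroup.range_subtype, AddMonoidHom.mem_ker, Subtype.ext_iff]
  rfl

theorem card_EHom_range_of_injective (ρP : Δ →* AddMonoid.End P) {ρA : Δ →* AddMonoid.End A}
    {ρB : Δ →* AddMonoid.End B} (φ : A →+ B) (hφ : ∀ g x, φ (ρA g x) = ρB g (φ x))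
    (hi : Function.Injective φ) :
    Nat.card (EHom ρP (subAct ρB φ.range (range_stable hφ))) = Nat.card (EHom ρP ρA) := by
  symm
  refine card_EHom_congr ρP φ.rangeRestrict ⟨?_, φ.rangeRestrict_surjective⟩
    (fun g x => Subtype.ext (hφ g x))
  intro x y h
  exact hi (congrArg Subtype.val h)

theorem card_EHom_range_of_surjective (ρP : Δ →* AddMonoid.End P) {ρA : Δ →* AddMonoid.End A}
    {ρB : Δ →* AddMonoid.End B} (φ : A →+ B) (hφ : ∀ g x, φ (ρA g x) = ρB g (φ x))
    (hs : Function.Surjective φ) :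
    Nat.card (EHom ρP (subAct ρB φ.range (range_stable hφ))) = Nat.card (EHom ρP ρB) := by
  refine card_EHom_congr ρP φ.range.subtype ⟨Subtype.val_injective, ?_⟩ (fun g x => rfl)
  intro y
  obtain ⟨x, rfl⟩ := hs y
  exact ⟨⟨_, ⟨x, rfl⟩⟩, rfl⟩

/-- `p`-torsion -/
def tor (p : ℕ) (A : Type*) [AddCommGroup A] : AddSubgroup A :=
  (nsmulAddMonoidHom p : A →+ A).ker

/-- multiples of `p` -/
def mulp (p : ℕ) (A : Type*) [AddCommGroup A] : AddSubgroup A :=
  (nsmulAddMonoidHom p : A →+ A).range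

theorem mem_tor {p : ℕ} {x : A} : x ∈ tor p A ↔ p • x = 0 := Iff.rfl

theorem mem_mulp {p : ℕ} {x : A} : x ∈ mulp p A ↔ ∃ y, p • y = x := Iff.rfl

theorem tor_stable {ρA : Δ →* AddMonoid.End A} {p : ℕ} (g : Δ) (x : A) (hx : x ∈ tor p A) :
    ρA g x ∈ tor p A := by
  rw [mem_tor] at hx ⊢
  rw [← map_nsmul, hx, map_zero]

theorem mulp_stable {ρA : Δ →* AddMonoid.End A} {p : ℕ} (g : Δ) (x : A) (hx : x ∈ mulp p A) :
    ρA g x ∈ mulp p A := by
  rw [mem_mulp] at hx ⊢
  obtain ⟨y, rfl⟩ := hx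
  exact ⟨ρA g y, by rw [map_nsmul]⟩

/-- action on `A[p]` -/
def torAct (p : ℕ) (ρA : Δ →* AddMonoid.End A) : Δ →* AddMonoid.End (tor p A) :=
  subAct ρA (tor p A) tor_stable

/-- action on `A/p` -/
def modAct (p : ℕ) (ρA : Δ →* AddMonoid.End A) : Δ →* AddMonoid.End (A ⧸ mulp p A) :=
  quoAct ρA (mulp p A) mulp_stable

@[simp] theorem coe_torAct (p : ℕ) (ρA : Δ →* AddMonoid.End A) (g : Δ) (x : tor p A) :
    ((torAct p ρA g x : tor p A) : A) = ρA g x := rfl

@[simp] theorem modAct_mk (p : ℕ) (ρA : Δ →* AddMonoid.End A) (g : Δ) (x : A) :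
    modAct p ρA g (x : A ⧸ mulp p A) = ((ρA g x : A) : A ⧸ mulp p A) := rfl

/-- the map on `p`-torsion -/
def torMap (p : ℕ) (φ : A →+ B) : tor p A →+ tor p B :=
  (φ.comp (tor p A).subtype).codRestrict (tor p B) (fun x => by
    rw [mem_tor]
    show p • φ (x : A) = 0
    rw [← map_nsmul, mem_tor.1 x.2, map_zero])

/-- the map mod `p` -/
def modMap (p : ℕ) (φ : A →+ B) : (A ⧸ mulp p A) →+ (B ⧸ mulp p B) :=
  QuotientAddGroup.map _ _ φ (fun x hx => by
    obtain ⟨y, rfl⟩ := hx
    exact ⟨φ y, by simp⟩)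

@[simp] theorem coe_torMap (p : ℕ) (φ : A →+ B) (x : tor p A) :
    ((torMap p φ x : tor p B) : B) = φ x := rfl

@[simp] theorem modMap_mk (p : ℕ) (φ : A →+ B) (x : A) :
    modMap p φ (x : A ⧸ mulp p A) = ((φ x : B) : B ⧸ mulp p B) := rfl

theorem nsmul_tor (p : ℕ) (x : tor p A) : p • x = 0 := Subtype.ext x.2

theorem nsmul_mod (p : ℕ) (x : A ⧸ mulp p A) : p • x = 0 := by
  induction x using QuotientAddGroup.induction_on with
  | H x =>
    rw [← QuotientAddGroup.mk_nsmul, QuotientAddGroup.eq_zero_iff]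
    exact ⟨x, rfl⟩

section Snake

variable (p : ℕ) (i : A →+ B) (hi : Function.Injective i) (q : B →+ C)
  (hq : Function.Surjective q) (hex : ∀ x, q x = 0 ↔ x ∈ i.range)

include hi hq hex

omit hi in
theorem snake_exists (c : tor p C) :
    ∃ α : A ⧸ mulp p A, ∃ b : B, ∃ a : A, q b = c ∧ i a = p • b ∧ (a : A ⧸ mulp p A) = α := by
  obtain ⟨b, hb⟩ := hq c
  have : p • b ∈ i.range := by
    rw [← hex, map_nsmul, hb]
    exact c.2
  obtain ⟨a, ha⟩ := this
  exact ⟨a, b, a, hb, ha, rfl⟩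

omit hq in
theorem snake_unique {b b' : B} {a a' : A} (h : q b = q b') (ha : i a = p • b)
    (ha' : i a' = p • b') : (a : A ⧸ mulp p A) = a' := by
  rw [QuotientAddGroup.eq, mem_mulp]
  have : b' - b ∈ i.range := by rw [← hex, map_sub, h, sub_self]
  obtain ⟨d, hd⟩ := this
  refine ⟨d, hi ?_⟩
  rw [map_nsmul, hd, map_add, map_neg, ha, ha', smul_sub]
  abel

theorem snake_hom : ∃ δ : tor p C →+ A ⧸ mulp p A,
    ∀ (c : tor p C) (b : B) (a : A), q b = c → i a = p • b → δ c = (a : A ⧸ mulp p A) := by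
  choose δ b a h1 h2 h3 using snake_exists p i q hq hex
  have key : ∀ (c : tor p C) (b : B) (a : A), q b = c → i a = p • b →
      δ c = (a : A ⧸ mulp p A) := by
    intro c b' a' hb ha
    rw [← h3 c]
    exact snake_unique p i hi q hex (by rw [h1, hb]) (h2 c) ha
  refine ⟨AddMonoidHom.mk' δ ?_, key⟩
  intro c c'
  rw [key (c + c') (b c + b c') (a c + a c') (by rw [map_add, h1, h1]; rfl)
    (by rw [map_add, h2, h2, smul_add]), QuotientAddGroup.mk_add, h3, h3]

/-- The six-term (snake) sequence, equivariantly counted. -/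
theorem snake_count [Finite Δ] [hp : Fact p.Prime] (hpΔ : ¬ p ∣ Nat.card Δ)
    (ρP : Δ →* AddMonoid.End P) {ρA : Δ →* AddMonoid.End A} {ρB : Δ →* AddMonoid.End B}
    {ρC : Δ →* AddMonoid.End C} (hiρ : ∀ g x, i (ρA g x) = ρB g (i x))
    (hqρ : ∀ g x, q (ρB g x) = ρC g (q x)) :
    Nat.card (EHom ρP (modAct p ρA)) * Nat.card (EHom ρP (modAct p ρC)) *
      Nat.card (EHom ρP (torAct p ρB)) =
    Nat.card (EHom ρP (torAct p ρA)) * Nat.card (EHom ρP (torAct p ρC)) *
      Nat.card (EHom ρP (modAct p ρB)) ∧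
    (Finite (A ⧸ mulp p A) → Finite (tor p B) → Finite (tor p C)) := by
  obtain ⟨δ, hδ⟩ := snake_hom p i hi q hq hex
  have hex' : ∀ x, q (i x) = 0 := fun x => (hex _).2 ⟨x, rfl⟩
  -- equivariance
  have e1 : ∀ g x, torMap p i (torAct p ρA g x) = torAct p ρB g (torMap p i x) := by
    intro g x; exact Subtype.ext (hiρ g x)
  have e2 : ∀ g x, torMap p q (torAct p ρB g x) = torAct p ρC g (torMap p q x) := by
    intro g x; exact Subtype.ext (hqρ g x)
  have e3 : ∀ g x, δ (torAct p ρC g x) = modAct p ρA g (δ x) := by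
    intro g x
    obtain ⟨-, b, a, hb, ha, -⟩ := snake_exists p i q hq hex x
    rw [hδ x b a hb ha, modAct_mk, hδ _ (ρB g b) (ρA g a)]
    · rw [hqρ, hb]; rfl
    · rw [hiρ, ha, map_nsmul]
  have e4 : ∀ g x, modMap p i (modAct p ρA g x) = modAct p ρB g (modMap p i x) := by
    intro g x
    induction x using QuotientAddGroup.induction_on with
    | H x => rw [modAct_mk, modMap_mk, modMap_mk, modAct_mk, hiρ]
  have e5 : ∀ g x, modMap p q (modAct p ρB g x) = modAct p ρC g (modMap p q x) := by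
    intro g x
    induction x using QuotientAddGroup.induction_on with
    | H x => rw [modAct_mk, modMap_mk, modMap_mk, modAct_mk, hqρ]
  -- exactness
  have x1 : Function.Injective (torMap p i) := by
    intro x y h
    exact Subtype.ext (hi (congrArg Subtype.val h))
  have x2 : (torMap p i).range = (torMap p q).ker := by
    ext x
    rw [AddMonoidHom.mem_ker, Subtype.ext_iff]
    show _ ↔ q (x : B) = 0
    rw [hex]
    constructor
    · rintro ⟨y, rfl⟩
      exact ⟨_, rfl⟩
    · rintro ⟨y, hy⟩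
      refine ⟨⟨y, ?_⟩, Subtype.ext hy⟩
      rw [mem_tor]
      apply hi
      rw [map_nsmul, hy, map_zero]
      exact x.2
  have x3 : (torMap p q).range = δ.ker := by
    ext x
    rw [AddMonoidHom.mem_ker]
    constructor
    · rintro ⟨y, rfl⟩
      rw [hδ _ (y : B) 0 rfl]
      · rfl
      · rw [map_zero]; exact y.2.symm
    · intro h
      obtain ⟨-, b, a, hb, ha, -⟩ := snake_exists p i q hq hex x
      rw [hδ x b a hb ha, QuotientAddGroup.eq_zero_iff] at h
      obtain ⟨a', ha'⟩ := h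
      refine ⟨⟨b - i a', ?_⟩, Subtype.ext ?_⟩
      · rw [mem_tor, smul_sub, ← ha, ← map_nsmul, sub_eq_zero]
        exact congrArg i ha'.symm
      · show q (b - i a') = x
        rw [map_sub, hex', sub_zero, hb]
  have x4 : δ.range = (modMap p i).ker := by
    ext x
    rw [AddMonoidHom.mem_ker]
    constructor
    · rintro ⟨y, rfl⟩
      obtain ⟨-, b, a, hb, ha, -⟩ := snake_exists p i q hq hex y
      rw [hδ y b a hb ha, modMap_mk, QuotientAddGroup.eq_zero_iff]
      exact ⟨b, ha.symm⟩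
    · induction x using QuotientAddGroup.induction_on with
      | H x =>
        intro h
        rw [modMap_mk, QuotientAddGroup.eq_zero_iff] at h
        obtain ⟨b, hb⟩ := h
        refine ⟨⟨q b, ?_⟩, ?_⟩
        · rw [mem_tor, ← map_nsmul]
          exact (congrArg q hb).trans (hex' x)
        · exact hδ _ b x rfl hb.symm
  have x5 : (modMap p i).range = (modMap p q).ker := by
    ext x
    rw [AddMonoidHom.mem_ker]
    constructor
    · rintro ⟨y, rfl⟩
      induction y using QuotientAddGroup.induction_on with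
      | H y => rw [modMap_mk, modMap_mk, hex']; rfl
    · induction x using QuotientAddGroup.induction_on with
      | H x =>
        intro h
        rw [modMap_mk, QuotientAddGroup.eq_zero_iff] at h
        obtain ⟨c, hc⟩ := h
        obtain ⟨b, rfl⟩ := hq c
        have h0 : x - p • b ∈ i.range := by
          rw [← hex, map_sub, map_nsmul, sub_eq_zero]
          exact hc.symm
        obtain ⟨a, ha⟩ := h0
        refine ⟨(a : A ⧸ mulp p A), ?_⟩
        rw [modMap_mk, ha, QuotientAddGroup.eq]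
        exact ⟨b, by simp⟩
  have x6 : Function.Surjective (modMap p q) := by
    intro x
    induction x using QuotientAddGroup.induction_on with
    | H x =>
      obtain ⟨b, rfl⟩ := hq x
      exact ⟨(b : B ⧸ mulp p B), rfl⟩
  constructor
  · have c1 := card_EHom_range_of_injective ρP _ e1 x1
    have c2 := card_EHom_ker_range hpΔ ρP (nsmul_tor p) _ e2
    have c3 := card_EHom_ker_range hpΔ ρP (nsmul_tor p) _ e3
    have c4 := card_EHom_ker_range hpΔ ρP (nsmul_mod p) _ e4
    have c5 := card_EHom_ker_range hpΔ ρP (nsmul_mod p) _ e5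
    have c6 := card_EHom_range_of_surjective ρP _ e5 x6
    rw [card_EHom_subAct_congr ρP _ x2.symm _ (range_stable e1), c1] at c2
    rw [card_EHom_subAct_congr ρP _ x3.symm _ (range_stable e2)] at c3
    rw [card_EHom_subAct_congr ρP _ x4.symm _ (range_stable e3)] at c4
    rw [card_EHom_subAct_congr ρP _ x5.symm _ (range_stable e4), c6] at c5
    rw [c2, c3, c4, c5]
    ring
  · intro f1 f2
    have f3 : Finite δ.ker := by
      rw [← x3]
      exact Finite.of_surjective _ (torMap p q).rangeRestrict_surjective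
    have f4 : Finite δ.range := inferInstance
    have : Finite (tor p C ⧸ δ.ker) :=
      Finite.of_equiv _ (QuotientAddGroup.quotientKerEquivRange δ).symm.toEquiv
    exact Finite.of_addSubgroup_quotient δ.ker

end Snake

/-! ### The multiplicative Euler characteristic `χ(A) = |EHom(P, A/p)| / |EHom(P, A[p])|` -/

/-- `A/p` and `A[p]` are finite -/
def Good (p : ℕ) (A : Type*) [AddCommGroup A] : Prop :=
  Finite (A ⧸ mulp p A) ∧ Finite (tor p A)

/-- `|EHom(P, A/p)| / |EHom(P, A[p])|` -/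
noncomputable def chi (p : ℕ) (ρP : Δ →* AddMonoid.End P) (ρA : Δ →* AddMonoid.End A) : ℚ :=
  (Nat.card (EHom ρP (modAct p ρA)) : ℚ) / Nat.card (EHom ρP (torAct p ρA))

instance finite_EHom [Finite P] [Finite A] (ρP : Δ →* AddMonoid.End P)
    (ρA : Δ →* AddMonoid.End A) : Finite (EHom ρP ρA) := by
  have : Finite (P →+ A) := DFunLike.finite _
  infer_instance

theorem card_EHom_ne_zero [Finite P] [Finite A] (ρP : Δ →* AddMonoid.End P)
    (ρA : Δ →* AddMonoid.End A) : (Nat.card (EHom ρP ρA) : ℚ) ≠ 0 := by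
  rw [Nat.cast_ne_zero]
  exact Nat.card_ne_zero.2 ⟨inferInstance, inferInstance⟩

theorem chi_ne_zero [Finite P] {p : ℕ} (hA : Good p A) (ρP : Δ →* AddMonoid.End P)
    (ρA : Δ →* AddMonoid.End A) : chi p ρP ρA ≠ 0 := by
  have := hA.1
  have := hA.2
  exact div_ne_zero (card_EHom_ne_zero _ _) (card_EHom_ne_zero _ _)

theorem chi_eq_iff [Finite P] {p : ℕ} (hA : Good p A) (hB : Good p B)
    (ρP : Δ →* AddMonoid.End P) (ρA : Δ →* AddMonoid.End A) (ρB : Δ →* AddMonoid.End B) :
    chi p ρP ρA = chi p ρP ρB ↔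
      Nat.card (EHom ρP (modAct p ρA)) * Nat.card (EHom ρP (torAct p ρB)) =
      Nat.card (EHom ρP (modAct p ρB)) * Nat.card (EHom ρP (torAct p ρA)) := by
  have := hA.2
  have := hB.2
  rw [chi, chi, div_eq_div_iff (card_EHom_ne_zero _ _) (card_EHom_ne_zero _ _)]
  norm_cast

theorem good_of_finite (p : ℕ) [Finite A] : Good p A :=
  ⟨inferInstance, inferInstance⟩

theorem good_of_fg {p : ℕ} (hp : p ≠ 0) [Module.Finite ℤ A] : Good p A := by
  constructor
  · have h1 : Module.Finite ℤ (A ⧸ mulp p A) :=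
      Module.Finite.of_surjective (QuotientAddGroup.mk' (mulp p A)).toIntLinearMap
        (QuotientAddGroup.mk'_surjective _)
    have h2 : Module.IsTorsion ℤ (A ⧸ mulp p A) := by
      intro x
      refine ⟨⟨(p : ℤ), mem_nonZeroDivisors_of_ne_zero (by exact_mod_cast hp)⟩, ?_⟩
      show (p : ℤ) • x = 0
      rw [natCast_zsmul]
      exact nsmul_mod p x
    exact Module.finite_of_fg_torsion _ h2
  · have h1 : Module.Finite ℤ (tor p A) :=
      Module.Finite.of_injective (tor p A).subtype.toIntLinearMap Subtype.val_injective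
    have h2 : Module.IsTorsion ℤ (tor p A) := by
      intro x
      refine ⟨⟨(p : ℤ), mem_nonZeroDivisors_of_ne_zero (by exact_mod_cast hp)⟩, ?_⟩
      show (p : ℤ) • x = 0
      rw [natCast_zsmul]
      exact nsmul_tor p x
    exact Module.finite_of_fg_torsion _ h2

theorem good_sub_of_exact {p : ℕ} (i : A →+ B) (hi : Function.Injective i) (q : B →+ C)
    (hq : Function.Surjective q) (hA : Good p A) (hB : Good p B)
    (hex : ∀ x, q x = 0 ↔ x ∈ i.range) [hp : Fact p.Prime] : Good p C := by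
  have f1 := hA.1
  have f2 := hB.2
  have f3 := hB.1
  constructor
  · refine Finite.of_surjective (modMap p q) ?_
    intro x
    induction x using QuotientAddGroup.induction_on with
    | H x =>
      obtain ⟨b, rfl⟩ := hq x
      exact ⟨(b : B ⧸ mulp p B), rfl⟩
  · have hΔ : ¬ p ∣ Nat.card (Unit) := by
      rw [Nat.card_unique]
      exact hp.out.one_lt.ne' ∘ Nat.dvd_one.1
    exact (snake_count (Δ := Multiplicative Unit) p i hi q hq hex hΔ
      (ρA := 1) (ρB := 1) (ρC := 1) (P := A) 1 (fun _ _ => rfl) (fun _ _ => rfl)).2 f1 f2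

theorem chi_congr (p : ℕ) (ρP : Δ →* AddMonoid.End P) {ρA : Δ →* AddMonoid.End A}
    {ρB : Δ →* AddMonoid.End B} (φ : A →+ B) (hb : Function.Bijective φ)
    (hφ : ∀ g x, φ (ρA g x) = ρB g (φ x)) : chi p ρP ρA = chi p ρP ρB := by
  have h1 : Nat.card (EHom ρP (modAct p ρA)) = Nat.card (EHom ρP (modAct p ρB)) := by
    refine card_EHom_congr ρP (modMap p φ) ⟨?_, ?_⟩ ?_
    · rw [injective_iff_map_eq_zero]
      intro x
      induction x using QuotientAddGroup.induction_on with
      | H x =>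
        rw [modMap_mk, QuotientAddGroup.eq_zero_iff, QuotientAddGroup.eq_zero_iff]
        rintro ⟨y, hy⟩
        obtain ⟨z, rfl⟩ := hb.2 y
        exact ⟨z, hb.1 ((map_nsmul φ p z).trans hy)⟩
    · intro x
      induction x using QuotientAddGroup.induction_on with
      | H x =>
        obtain ⟨b, rfl⟩ := hb.2 x
        exact ⟨(b : A ⧸ mulp p A), rfl⟩
    · intro g x
      induction x using QuotientAddGroup.induction_on with
      | H x => rw [modAct_mk, modMap_mk, modMap_mk, modAct_mk, hφ]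
  have h2 : Nat.card (EHom ρP (torAct p ρA)) = Nat.card (EHom ρP (torAct p ρB)) := by
    refine card_EHom_congr ρP (torMap p φ) ⟨?_, ?_⟩ ?_
    · intro x y h
      exact Subtype.ext (hb.1 (congrArg Subtype.val h))
    · rintro ⟨x, hx⟩
      obtain ⟨z, rfl⟩ := hb.2 x
      refine ⟨⟨z, ?_⟩, rfl⟩
      rw [mem_tor] at hx ⊢
      rw [← map_nsmul] at hx
      exact (map_eq_zero_iff φ hb.1).1 hx
    · intro g x; exact Subtype.ext (hφ g x)
  rw [chi, chi, h1, h2]

variable [Finite Δ] [Finite P] {p : ℕ} [hp : Fact p.Prime]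

theorem chi_exact (hpΔ : ¬ p ∣ Nat.card Δ)
    (ρP : Δ →* AddMonoid.End P) {ρA : Δ →* AddMonoid.End A} {ρB : Δ →* AddMonoid.End B}
    {ρC : Δ →* AddMonoid.End C} (hA : Good p A) (hB : Good p B)
    (i : A →+ B) (hi : Function.Injective i) (hiρ : ∀ g x, i (ρA g x) = ρB g (i x))
    (q : B →+ C) (hq : Function.Surjective q) (hqρ : ∀ g x, q (ρB g x) = ρC g (q x))
    (hex : ∀ x, q x = 0 ↔ x ∈ i.range) :
    Good p C ∧ chi p ρP ρB = chi p ρP ρA * chi p ρP ρC := by
  have hC := good_sub_of_exact i hi q hq hA hB hex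
  have := hA.2
  have := hB.2
  have := hC.2
  refine ⟨hC, ?_⟩
  have key := (snake_count p i hi q hq hex hpΔ ρP hiρ hqρ).1
  have key' : (Nat.card (EHom ρP (modAct p ρA)) : ℚ) * Nat.card (EHom ρP (modAct p ρC)) *
      Nat.card (EHom ρP (torAct p ρB)) =
    Nat.card (EHom ρP (torAct p ρA)) * Nat.card (EHom ρP (torAct p ρC)) *
      Nat.card (EHom ρP (modAct p ρB)) := by exact_mod_cast key
  rw [chi, chi, chi, div_mul_div_comm, div_eq_div_iff (card_EHom_ne_zero _ _)
    (mul_ne_zero (card_EHom_ne_zero _ _) (card_EHom_ne_zero _ _)), key']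
  ring

theorem chi_ker_range (hpΔ : ¬ p ∣ Nat.card Δ)
    (ρP : Δ →* AddMonoid.End P) {ρA : Δ →* AddMonoid.End A} {ρB : Δ →* AddMonoid.End B}
    (φ : A →+ B) (hφ : ∀ g x, φ (ρA g x) = ρB g (φ x)) (hA : Good p A) (hK : Good p φ.ker) :
    Good p φ.range ∧ chi p ρP ρA = chi p ρP (subAct ρA φ.ker (ker_stable hφ)) *
      chi p ρP (subAct ρB φ.range (range_stable hφ)) := by
  refine chi_exact hpΔ ρP hK hA φ.ker.subtype Subtype.val_injective (fun g x => rfl)
    φ.rangeRestrict φ.rangeRestrict_surjective (fun g x => Subtype.ext (hφ g x)) ?_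
  intro x
  rw [AddSubgroup.range_subtype, AddMonoidHom.mem_ker, Subtype.ext_iff]
  rfl

theorem chi_sub_quo (hpΔ : ¬ p ∣ Nat.card Δ)
    (ρP : Δ →* AddMonoid.End P) {ρA : Δ →* AddMonoid.End A} (H : AddSubgroup A)
    (hH : ∀ g, ∀ x ∈ H, ρA g x ∈ H) (hA : Good p A) (hK : Good p H) :
    Good p (A ⧸ H) ∧ chi p ρP ρA = chi p ρP (subAct ρA H hH) * chi p ρP (quoAct ρA H hH) := by
  refine chi_exact hpΔ ρP hK hA H.subtype Subtype.val_injective (fun g x => rfl)
    (QuotientAddGroup.mk' H) (QuotientAddGroup.mk'_surjective H) (fun g x => rfl) ?_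
  intro x
  rw [AddSubgroup.range_subtype]
  exact QuotientAddGroup.eq_zero_iff x

omit [Finite Δ] hp in
/-- value one on modules killed by `p` -/
theorem chi_killed (ρP : Δ →* AddMonoid.End P) (ρA : Δ →* AddMonoid.End A)
    (hA : ∀ x : A, p • x = 0) [Finite A] : chi p ρP ρA = 1 := by
  have h1 : Nat.card (EHom ρP (modAct p ρA)) = Nat.card (EHom ρP ρA) := by
    symm
    refine card_EHom_congr ρP (QuotientAddGroup.mk' (mulp p A)) ⟨?_, ?_⟩ (fun _ _ => rfl)
    · rw [injective_iff_map_eq_zero]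
      intro x hx
      obtain ⟨y, hy⟩ := (QuotientAddGroup.eq_zero_iff x).1 hx
      rw [← hy]
      exact hA y
    · exact QuotientAddGroup.mk'_surjective _
  have h2 : Nat.card (EHom ρP (torAct p ρA)) = Nat.card (EHom ρP ρA) := by
    refine card_EHom_congr ρP (tor p A).subtype ⟨Subtype.val_injective, ?_⟩ (fun _ _ => rfl)
    intro x
    exact ⟨⟨x, hA x⟩, rfl⟩
  rw [chi, h1, h2, div_self (card_EHom_ne_zero _ _)]

/-- value one on finite modules -/
theorem chi_finite (hpΔ : ¬ p ∣ Nat.card Δ) (ρP : Δ →* AddMonoid.End P) :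
    ∀ (n : ℕ) (A : Type*) [AddCommGroup A] [Finite A] (ρA : Δ →* AddMonoid.End A),
      Nat.card A ≤ n → chi p ρP ρA = 1 := by
  intro n
  induction n with
  | zero =>
    intro A _ _ ρA h
    exact absurd (Nat.le_zero.1 h) Nat.card_pos.ne'
  | succ n ih =>
    intro A _ _ ρA h
    by_cases htop : mulp p A = ⊤
    · have hs : Function.Surjective (nsmulAddMonoidHom p : A →+ A) :=
        AddMonoidHom.range_eq_top.1 htop
      have hi : Function.Injective (nsmulAddMonoidHom p : A →+ A) :=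
        Finite.injective_iff_surjective.2 hs
      have s1 : Subsingleton (A ⧸ mulp p A) := by
        rw [htop]; exact QuotientAddGroup.subsingleton_quotient_top
      have s2 : Subsingleton (tor p A) := by
        have : tor p A = ⊥ := (AddMonoidHom.ker_eq_bot_iff _).2 hi
        rw [this]; infer_instance
      rw [chi, card_EHom_subsingleton, card_EHom_subsingleton]
      norm_num
    · obtain ⟨-, h2⟩ := chi_sub_quo hpΔ ρP (mulp p A) (ρA := ρA) mulp_stable
        (good_of_finite p) (good_of_finite p)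
      rw [h2, chi_killed ρP (quoAct ρA (mulp p A) mulp_stable) (nsmul_mod p), mul_one]
      apply ih
      have h3 : Nat.card (mulp p A) < Nat.card A := by
        refine lt_of_le_of_ne (Nat.card_le_card_of_injective _ (Subtype.val_injective)) ?_
        intro h4
        exact htop (AddSubgroup.eq_top_of_card_eq _ h4)
      omega

/-- invariance under equivariant maps with finite kernel and cokernel -/
theorem chi_eq_of_finite (hpΔ : ¬ p ∣ Nat.card Δ)
    (ρP : Δ →* AddMonoid.End P) {ρA : Δ →* AddMonoid.End A} {ρB : Δ →* AddMonoid.End B}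
    (φ : A →+ B) (hφ : ∀ g x, φ (ρA g x) = ρB g (φ x)) (hA : Good p A) (hB : Good p B)
    [Finite φ.ker] [Finite (B ⧸ φ.range)] : chi p ρP ρA = chi p ρP ρB := by
  obtain ⟨h1, h2⟩ := chi_ker_range hpΔ ρP φ hφ hA (good_of_finite p)
  obtain ⟨h3, h4⟩ := chi_sub_quo hpΔ ρP φ.range (range_stable hφ) hB h1
  rw [h2, h4, chi_finite hpΔ ρP _ _ (subAct ρA φ.ker (ker_stable hφ)) le_rfl,
    chi_finite hpΔ ρP _ _ (quoAct ρB φ.range (range_stable hφ)) le_rfl, one_mul, mul_one]

/-- The same, as an identity of natural numbers. -/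
theorem card_EHom_of_finite (hpΔ : ¬ p ∣ Nat.card Δ)
    (ρP : Δ →* AddMonoid.End P) {ρA : Δ →* AddMonoid.End A} {ρB : Δ →* AddMonoid.End B}
    (φ : A →+ B) (hφ : ∀ g x, φ (ρA g x) = ρB g (φ x)) (hA : Good p A) (hB : Good p B)
    [Finite φ.ker] [Finite (B ⧸ φ.range)] :
    Nat.card (EHom ρP (modAct p ρA)) * Nat.card (EHom ρP (torAct p ρB)) =
      Nat.card (EHom ρP (modAct p ρB)) * Nat.card (EHom ρP (torAct p ρA)) :=
  (chi_eq_iff hA hB ρP ρA ρB).1 (chi_eq_of_finite hpΔ ρP φ hφ hA hB)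

end Fermat.Agent.CFT.EC
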