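import Mathlib
import Fermat.Agent.CFT.SUnits
import Fermat.Agent.CFT.SUnitsHerbrand
import Fermat.Agent.CFT.EC.EHom

/-!
# Equivariant structure of `S`-units

For a finite group `Δ` acting on a number field `E`, a prime `p` not dividing `|Δ|`, a finite
`Δ`-module `P` and a finite `Δ`-stable set `T` of finite places of `E`, we compute
`|Hom_Δ(P, E_T/p)| / |Hom_Δ(P, E_T[p])|` in terms of permutation modules.
-/

set_option autoImplicit false

open NumberField IsDedekindDomain Module

namespace Fermat.Agent.CFT.EC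

open Fermat.Agent.CFT.SUnits Fermat.Agent.CFT.SUH

/-! ### Permutation modules -/

section perm

variable {Δ : Type*} [Group Δ] {X : Type*}

/-- the permutation module `X → M`, `(g f)(x) = f (g⁻¹ x)` -/
def permAct (s : Δ →* Equiv.Perm X) (M : Type*) [AddCommGroup M] :
    Δ →* AddMonoid.End (X → M) where
  toFun g :=
    { toFun := fun f x => f ((s g).symm x)
      map_zero' := rfl
      map_add' := fun _ _ => rfl }
  map_one' := by
    refine AddMonoidHom.ext fun f => funext fun x => ?_
    show f ((s 1).symm x) = f x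
    rw [map_one]; rfl
  map_mul' g h := by
    refine AddMonoidHom.ext fun f => funext fun x => ?_
    show f ((s (g * h)).symm x) = f ((s h).symm ((s g).symm x))
    rw [map_mul]; rfl

@[simp] theorem permAct_apply (s : Δ →* Equiv.Perm X) (M : Type*) [AddCommGroup M] (g : Δ)
    (f : X → M) (x : X) : permAct s M g f x = f ((s g).symm x) := rfl

variable {P A B : Type*} [AddCommGroup P] [AddCommGroup A] [AddCommGroup B]

theorem chi_of_torsionFree {p : ℕ} (ρP : Δ →* AddMonoid.End P) {ρA : Δ →* AddMonoid.End A}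
    {ρB : Δ →* AddMonoid.End B} (π : A →+ B) (hs : Function.Surjective π)
    (hπ : ∀ g x, π (ρA g x) = ρB g (π x)) (hk : ∀ x, π x = 0 ↔ x ∈ mulp p A)
    (ht : ∀ x : A, p • x = 0 → x = 0) : chi p ρP ρA = Nat.card (EHom ρP ρB) := by
  have h1 : Nat.card (EHom ρP (modAct p ρA)) = Nat.card (EHom ρP ρB) := by
    refine card_EHom_congr ρP (QuotientAddGroup.lift (mulp p A) π (fun x hx => (hk x).2 hx))
      ⟨?_, ?_⟩ ?_
    · rw [injective_iff_map_eq_zero]
      intro x
      induction x using QuotientAddGroup.induction_on with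
      | H x =>
        intro h
        rw [QuotientAddGroup.eq_zero_iff, ← hk]
        exact h
    · intro y
      obtain ⟨x, rfl⟩ := hs y
      exact ⟨(x : A ⧸ mulp p A), rfl⟩
    · intro g x
      induction x using QuotientAddGroup.induction_on with
      | H x => exact hπ g x
  have h2 : Subsingleton (tor p A) := by
    refine ⟨fun x y => Subtype.ext ?_⟩
    rw [ht x x.2, ht y y.2]
  have h3 : Nat.card (EHom ρP (torAct p ρA)) = 1 := card_EHom_subsingleton ρP (torAct p ρA)
  rw [chi, h1, h3, Nat.cast_one, div_one]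

theorem intCast_eq_zero_iff {p : ℕ} (x : ℤ) : ((x : ZMod p) = 0) ↔ ∃ y, p • y = x := by
  rw [ZMod.intCast_zmod_eq_zero_iff_dvd]
  constructor
  · rintro ⟨c, rfl⟩
    exact ⟨c, by simp⟩
  · rintro ⟨y, rfl⟩
    exact ⟨y, by simp⟩

theorem chi_int {p : ℕ} (hp : p ≠ 0) (ρP : Δ →* AddMonoid.End P) :
    chi p ρP (1 : Δ →* AddMonoid.End ℤ) =
      Nat.card (EHom ρP (1 : Δ →* AddMonoid.End (ZMod p))) := by
  refine chi_of_torsionFree ρP (Int.castAddHom (ZMod p)) ZMod.intCast_surjective
    (fun g x => rfl) (fun x => intCast_eq_zero_iff x) ?_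
  intro x hx
  rw [nsmul_eq_mul] at hx
  exact (mul_eq_zero.1 hx).resolve_left (by exact_mod_cast hp)

theorem chi_perm {p : ℕ} (hp : p ≠ 0) (ρP : Δ →* AddMonoid.End P) (s : Δ →* Equiv.Perm X) :
    chi p ρP (permAct s ℤ) = Nat.card (EHom ρP (permAct s (ZMod p))) := by
  refine chi_of_torsionFree ρP ((Int.castAddHom (ZMod p)).compLeft X) ?_
    (fun g x => rfl) ?_ ?_
  · intro f
    choose f' hf' using fun x => ZMod.intCast_surjective (f x)
    exact ⟨f', funext hf'⟩
  · intro f
    constructor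
    · intro h
      have h1 : ∀ x, ∃ y, p • y = f x := fun x => (intCast_eq_zero_iff _).1 (congrFun h x)
      choose y hy using h1
      exact ⟨y, funext hy⟩
    · rintro ⟨y, rfl⟩
      funext x
      exact (intCast_eq_zero_iff _).2 ⟨y x, rfl⟩
  · intro f hf
    funext x
    have := congrFun hf x
    rw [Pi.smul_apply, Pi.zero_apply, nsmul_eq_mul] at this
    exact (mul_eq_zero.1 this).resolve_left (by exact_mod_cast hp)

end perm

/-! ### Finite quotients from ranks -/

theorem finite_quot_of_finrank {A B : Type*} [AddCommGroup A] [AddCommGroup B]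
    [Module.Finite ℤ B] (φ : A →+ B)
    (h : finrank ℤ B ≤ finrank ℤ (LinearMap.range φ.toIntLinearMap)) : Finite (B ⧸ φ.range) := by
  have h1 := Submodule.finrank_quotient_add_finrank (LinearMap.range φ.toIntLinearMap)
  have h2 : finrank ℤ (B ⧸ LinearMap.range φ.toIntLinearMap) = 0 := by omega
  rw [Module.finrank_eq_zero_iff_isTorsion] at h2
  have h3 : Finite (B ⧸ LinearMap.range φ.toIntLinearMap) := Module.finite_of_fg_torsion _ h2
  have h4 : (LinearMap.range φ.toIntLinearMap).toAddSubgroup = φ.range := by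
    ext x; rfl
  rw [← h4]
  exact h3

/-! ### The sign lemma -/

theorem sign_lemma {ι : Type*} [Fintype ι] (a : ι → ι → ℝ)
    (hoff : ∀ w w', w' ≠ w → a w w' < 0) (hrow : ∀ w, ∑ w', a w w' = 0) (n : ι → ℤ)
    (hn : ∀ w', ∑ w, (n w : ℝ) * a w w' = 0) : (∀ w, 0 < n w) ∨ (∀ w, n w ≤ 0) := by
  classical
  by_contra hcon
  push Not at hcon
  obtain ⟨⟨w₀, hw₀⟩, ⟨w₁, hw₁⟩⟩ := hcon
  let W : Finset ι := Finset.univ.filter fun w => 0 < n w
  have h1 : ∑ w, (n w : ℝ) * ∑ w' ∈ W, a w w' = 0 := by
    calc ∑ w, (n w : ℝ) * ∑ w' ∈ W, a w w' = ∑ w, ∑ w' ∈ W, (n w : ℝ) * a w w' := by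
          simp_rw [Finset.mul_sum]
      _ = ∑ w' ∈ W, ∑ w, (n w : ℝ) * a w w' := Finset.sum_comm
      _ = 0 := Finset.sum_eq_zero fun w' _ => hn w'
  have h2 : ∀ w ∈ W, 0 < ∑ w' ∈ W, a w w' := by
    intro w hw
    have h3 : ∑ w' ∈ W, a w w' = - ∑ w' ∈ Wᶜ, a w w' := by
      have := Finset.sum_add_sum_compl W (fun w' => a w w')
      rw [hrow] at this
      linarith
    rw [h3, neg_pos]
    apply Finset.sum_neg
    · intro w' hw'
      apply hoff
      rintro rfl
      exact (Finset.mem_compl.1 hw') hw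
    · exact ⟨w₀, by simpa [W] using hw₀⟩
  have h4 : ∀ w ∉ W, ∑ w' ∈ W, a w w' ≤ 0 := by
    intro w hw
    apply Finset.sum_nonpos
    intro w' hw'
    refine (hoff w w' ?_).le
    rintro rfl
    exact hw hw'
  have h5 : 0 < ∑ w, (n w : ℝ) * ∑ w' ∈ W, a w w' := by
    apply Finset.sum_pos'
    · intro w _
      by_cases hw : w ∈ W
      · have : (0 : ℝ) < n w := by
          have := (Finset.mem_filter.1 hw).2
          exact_mod_cast this
        exact (mul_pos this (h2 w hw)).le
      · have h6 : (n w : ℝ) ≤ 0 := by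
          have : n w ≤ 0 := by simpa [W] using hw
          exact_mod_cast this
        exact mul_nonneg_of_nonpos_of_nonpos h6 (h4 w hw)
    · refine ⟨w₁, Finset.mem_univ _, ?_⟩
      have h7 : w₁ ∈ W := by simpa [W] using hw₁
      have : (0 : ℝ) < n w₁ := by exact_mod_cast hw₁
      exact mul_pos this (h2 w₁ h7)
  exact h5.ne' h1

theorem sign_lemma' {ι : Type*} [Fintype ι] [Nonempty ι] (a : ι → ι → ℝ)
    (hoff : ∀ w w', w' ≠ w → a w w' < 0) (hrow : ∀ w, ∑ w', a w w' = 0) (n : ι → ℤ)
    (hn : ∀ w', ∑ w, (n w : ℝ) * a w w' = 0) (hs : ∑ w, n w = 0) : n = 0 := by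
  have hn' : ∀ w', ∑ w, (((-n) w : ℤ) : ℝ) * a w w' = 0 := by
    intro w'
    rw [← neg_zero, ← hn w', ← Finset.sum_neg_distrib]
    refine Finset.sum_congr rfl fun w _ => ?_
    rw [Pi.neg_apply, Int.cast_neg, neg_mul]
  have c1 : ∀ m : ι → ℤ, (∑ w, m w = 0) → (∀ w, 0 < m w) → False := by
    intro m hm h
    have := Finset.sum_pos (s := Finset.univ) (f := m) (fun w _ => h w) Finset.univ_nonempty
    omega
  rcases sign_lemma a hoff hrow n hn with h | h
  · exact (c1 n hs h).elim
  · rcases sign_lemma a hoff hrow (-n) hn' with h' | h'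
    · exact (c1 (-n) (by simp [hs]) h').elim
    · funext w
      have h3 := h w
      have h4 := h' w
      rw [Pi.neg_apply] at h4
      rw [Pi.zero_apply]
      omega

/-! ### Galois action on units and `T`-units -/

section numfield

variable {Δ : Type*} [Group Δ] {K E : Type*} [Field K] [Field E] [NumberField E] [Algebra K E]

omit [NumberField E] in
theorem act_act' (σ τ : E ≃ₐ[K] E) (w : HeightOneSpectrum (𝓞 E)) :
    act σ (act τ w) = act (σ * τ) w := by
  ext x
  rfl

omit [NumberField E] in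
theorem act_one' (w : HeightOneSpectrum (𝓞 E)) : act (1 : E ≃ₐ[K] E) w = w := by
  ext x
  rfl

theorem valuation_act' (σ : E ≃ₐ[K] E) (w : HeightOneSpectrum (𝓞 E)) (x : E) :
    (act σ w).valuation E (σ x) = w.valuation E x := by
  obtain ⟨a, b, hb, rfl⟩ := IsFractionRing.div_surjective (A := 𝓞 E) x
  have h : ∀ r : 𝓞 E, σ (algebraMap (𝓞 E) E r) =
    algebraMap (𝓞 E) E (RingOfIntegers.mapRingEquiv σ.toRingEquiv r) := fun r => rfl
  rw [map_div₀ σ, map_div₀, map_div₀, h, h, HeightOneSpectrum.valuation_of_algebraMap,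
    HeightOneSpectrum.valuation_of_algebraMap, HeightOneSpectrum.valuation_of_algebraMap,
    HeightOneSpectrum.valuation_of_algebraMap, act, intValuation_equiv, intValuation_equiv]

/-- action on the units of the ring of integers -/
noncomputable def ounitAct (r : Δ →* (E ≃ₐ[K] E)) : Δ →* AddMonoid.End (Additive (𝓞 E)ˣ) where
  toFun g := MonoidHom.toAdditive
    (Units.map (RingOfIntegers.mapRingEquiv (r g).toRingEquiv : 𝓞 E →* 𝓞 E))
  map_one' := by
    refine AddMonoidHom.ext fun x => Additive.toMul.injective (Units.ext (RingOfIntegers.ext ?_))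
    show r 1 (((x.toMul : (𝓞 E)ˣ) : 𝓞 E) : E) = _
    rw [map_one]; rfl
  map_mul' g h := by
    refine AddMonoidHom.ext fun x => Additive.toMul.injective (Units.ext (RingOfIntegers.ext ?_))
    show r (g * h) (((x.toMul : (𝓞 E)ˣ) : 𝓞 E) : E) = r g (r h (((x.toMul : (𝓞 E)ˣ) : 𝓞 E) : E))
    rw [map_mul]; rfl

omit [NumberField E] in
theorem coe_ounitAct (r : Δ →* (E ≃ₐ[K] E)) (g : Δ) (x : Additive (𝓞 E)ˣ) :
    ((((ounitAct r g x).toMul : (𝓞 E)ˣ) : 𝓞 E) : E) = r g (((x.toMul : (𝓞 E)ˣ) : 𝓞 E) : E) := rfl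

variable (r : Δ →* (E ≃ₐ[K] E)) (T : Set (HeightOneSpectrum (𝓞 E)))
  (hT : ∀ g, ∀ v ∈ T, act (r g) v ∈ T)

include hT in
theorem mem_unit_act' (g : Δ) {x : Eˣ} (hx : x ∈ T.unit E) :
    Units.map (r g : E →* E) x ∈ T.unit E := by
  intro w hw
  have h1 : act (r g) (act (r g⁻¹) w) = w := by
    rw [act_act', ← map_mul, mul_inv_cancel, map_one, act_one']
  have h2 : act (r g⁻¹) w ∉ T := by
    intro h
    apply hw
    have := hT g _ h
    rwa [h1] at this
  have h3 := hx (act (r g⁻¹) w) h2
  have h4 := valuation_act' (r g) (act (r g⁻¹) w) (x : E)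
  rw [h1] at h4
  exact h4.trans h3

/-- action on `T`-units -/
noncomputable def sunitAct : Δ →* AddMonoid.End (Additive (T.unit E)) where
  toFun g := MonoidHom.toAdditive
    (((Units.map (r g : E →* E)).comp (T.unit E).subtype).codRestrict (T.unit E)
      (fun x => mem_unit_act' r T hT g x.2))
  map_one' := by
    refine AddMonoidHom.ext fun x => Additive.toMul.injective (Subtype.ext (Units.ext ?_))
    show r 1 (((x.toMul : T.unit E) : Eˣ) : E) = _
    rw [map_one]; rfl
  map_mul' g h := by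
    refine AddMonoidHom.ext fun x => Additive.toMul.injective (Subtype.ext (Units.ext ?_))
    show r (g * h) (((x.toMul : T.unit E) : Eˣ) : E) = r g (r h (((x.toMul : T.unit E) : Eˣ) : E))
    rw [map_mul]; rfl

theorem coe_sunitAct (g : Δ) (x : Additive (T.unit E)) :
    ((((sunitAct r T hT g x).toMul : T.unit E) : Eˣ) : E) =
      r g (((x.toMul : T.unit E) : Eˣ) : E) := rfl

/-- permutation of the places in `T` -/
noncomputable def permT : Δ →* Equiv.Perm T where
  toFun g :=
    { toFun := fun v => ⟨act (r g) v.1, hT g v.1 v.2⟩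
      invFun := fun v => ⟨act (r g⁻¹) v.1, hT g⁻¹ v.1 v.2⟩
      left_inv := fun v => Subtype.ext (by
        show act (r g⁻¹) (act (r g) v.1) = v.1
        rw [act_act', ← map_mul, inv_mul_cancel, map_one, act_one'])
      right_inv := fun v => Subtype.ext (by
        show act (r g) (act (r g⁻¹) v.1) = v.1
        rw [act_act', ← map_mul, mul_inv_cancel, map_one, act_one']) }
  map_one' := by
    ext1 v
    refine Subtype.ext ?_
    show act (r 1) v.1 = v.1
    rw [map_one, act_one']
  map_mul' g h := by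
    ext1 v
    refine Subtype.ext ?_
    show act (r (g * h)) v.1 = act (r g) (act (r h) v.1)
    rw [map_mul, act_act']

omit [NumberField E] in
theorem coe_permT (g : Δ) (v : T) : (permT r T hT g v : HeightOneSpectrum (𝓞 E)) =
    act (r g) v.1 := rfl

omit [NumberField E] in
theorem coe_permT_symm (g : Δ) (v : T) :
    ((permT r T hT g).symm v : HeightOneSpectrum (𝓞 E)) = act (r g⁻¹) v.1 := rfl

/-- permutation of the infinite places -/
noncomputable def permInf : Δ →* Equiv.Perm (InfinitePlace E) :=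
  (MulAction.toPermHom (E ≃ₐ[K] E) (InfinitePlace E)).comp r

omit [NumberField E] in
theorem permInf_apply (g : Δ) (w : InfinitePlace E) : permInf r g w = r g • w := rfl

theorem permInf_symm_apply (g : Δ) (w : InfinitePlace E) :
    (permInf r g).symm w = r g⁻¹ • w := by
  rw [Equiv.symm_apply_eq, permInf_apply, smul_smul, ← map_mul, mul_inv_cancel, map_one, one_smul]

/-- equivariance of the valuation vector -/
theorem valHom_sunitAct (g : Δ) (x : Additive (T.unit E)) :
    (valHom T).toAddMonoidHom (sunitAct r T hT g x) =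
      permAct (permT r T hT) ℤ g ((valHom T).toAddMonoidHom x) := by
  funext v
  rw [permAct_apply]
  show Multiplicative.toAdd (v.1.valuationOfNeZero (((sunitAct r T hT g x).toMul : T.unit E) : Eˣ))
    = Multiplicative.toAdd ((((permT r T hT g).symm v : T) :
      HeightOneSpectrum (𝓞 E)).valuationOfNeZero ((x.toMul : T.unit E) : Eˣ))
  congr 1
  rw [← WithZero.coe_inj, HeightOneSpectrum.valuationOfNeZero_eq,
    HeightOneSpectrum.valuationOfNeZero_eq, coe_sunitAct, coe_permT_symm,
    ← valuation_act' (r g) (act (r g⁻¹) v.1)]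
  rw [act_act', ← map_mul, mul_inv_cancel, map_one, act_one']

/-- `χ(E_T) = χ(O_E^×) χ(ℤ^T)` -/
theorem chi_sunit_aux [Finite Δ] {P : Type*} [AddCommGroup P] [Finite P] [Finite T]
    {p : ℕ} [hp : Fact p.Prime] (hpΔ : ¬ p ∣ Nat.card Δ) (ρP : Δ →* AddMonoid.End P) :
    chi p ρP (sunitAct r T hT) = chi p ρP (ounitAct r) *
      Nat.card (EHom ρP (permAct (permT r T hT) (ZMod p))) := by
  have := Fintype.ofFinite T
  have hp0 : p ≠ 0 := hp.out.ne_zero
  have e := valHom_sunitAct r T hT
  have f1 : Module.Finite ℤ (valHom T).toAddMonoidHom.ker := by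
    have : Module.Finite ℤ (LinearMap.ker (valHom (K := E) T)) := inferInstance
    exact this
  obtain ⟨h1, h2⟩ := chi_ker_range hpΔ ρP (valHom T).toAddMonoidHom e (good_of_fg hp0)
    (good_of_fg hp0)
  rw [h2]
  congr 1
  · symm
    let φ : Additive (𝓞 E)ˣ →+ (valHom (K := E) T).toAddMonoidHom.ker :=
      ((ofUnitsLin T).toAddMonoidHom).codRestrict _ (fun x => by
        have : ofUnitsLin T x ∈ LinearMap.ker (valHom (K := E) T) := by
          rw [← range_ofUnitsLin]; exact ⟨x, rfl⟩
        exact this)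
    refine chi_congr p ρP φ ⟨?_, ?_⟩ ?_
    · intro x y h
      exact ofUnits_injective T (congrArg Subtype.val h)
    · rintro ⟨x, hx⟩
      have hx' : x ∈ LinearMap.range (ofUnitsLin (K := E) T) := by
        rw [range_ofUnitsLin]; exact hx
      obtain ⟨y, hy⟩ := hx'
      exact ⟨y, Subtype.ext hy⟩
    · intro g x
      apply Subtype.ext
      rfl
  · rw [← chi_perm hp0]
    have h3 : Finite ((T → ℤ) ⧸ (valHom (K := E) T).toAddMonoidHom.range) := by
      refine finite_quot_of_finrank _ ?_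
      have : finrank ℤ (valHom (K := E) T).range = Nat.card T := finrank_range_valHom T
      have h4 : finrank ℤ (T → ℤ) = Nat.card T := by simp
      rw [h4, ← this]
      exact le_rfl
    obtain ⟨h5, h6⟩ := chi_sub_quo hpΔ ρP (ρA := permAct (permT r T hT) ℤ)
      (valHom T).toAddMonoidHom.range (range_stable e) (good_of_fg hp0) h1
    rw [h6, chi_finite hpΔ ρP _ _ (quoAct (permAct (permT r T hT) ℤ)
      (valHom T).toAddMonoidHom.range (range_stable e)) le_rfl, mul_one]

/-! ### The units of the ring of integers -/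

/-- logarithmic embedding -/
noncomputable def logU (x : Additive (𝓞 E)ˣ) (w : InfinitePlace E) : ℝ :=
  Real.log (w (((x.toMul : (𝓞 E)ˣ) : 𝓞 E) : E))

omit [NumberField E] in
theorem logU_zero (w : InfinitePlace E) : logU (0 : Additive (𝓞 E)ˣ) w = 0 := by
  simp [logU]

omit [NumberField E] in
theorem logU_add (x y : Additive (𝓞 E)ˣ) (w : InfinitePlace E) :
    logU (x + y) w = logU x w + logU y w := by
  have hne : ∀ z : Additive (𝓞 E)ˣ, w (((z.toMul : (𝓞 E)ˣ) : 𝓞 E) : E) ≠ 0 := fun z => by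
    rw [ne_eq, map_eq_zero]
    exact NumberField.Units.coe_ne_zero _
  have : (((((x + y).toMul : (𝓞 E)ˣ) : 𝓞 E) : E)) =
    (((x.toMul : (𝓞 E)ˣ) : 𝓞 E) : E) * (((y.toMul : (𝓞 E)ˣ) : 𝓞 E) : E) := rfl
  rw [logU, this, map_mul, Real.log_mul (hne x) (hne y)]
  rfl

/-- logarithmic embedding as a homomorphism -/
noncomputable def logHom (w : InfinitePlace E) : Additive (𝓞 E)ˣ →+ ℝ :=
  AddMonoidHom.mk' (fun x => logU x w) (fun x y => logU_add x y w)

theorem logHom_ounitAct (g : Δ) (x : Additive (𝓞 E)ˣ) (w : InfinitePlace E) :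
    logHom w (ounitAct r g x) = logHom ((permInf r g).symm w) x := by
  show Real.log (w ((((ounitAct r g x).toMul : (𝓞 E)ˣ) : 𝓞 E) : E)) =
    Real.log (((permInf r g).symm w) (((x.toMul : (𝓞 E)ˣ) : 𝓞 E) : E))
  rw [permInf_symm_apply, InfinitePlace.smul_apply, coe_ounitAct]
  congr 2
  rw [map_inv]
  rfl

theorem sum_mult_mul_logHom (x : Additive (𝓞 E)ˣ) :
    ∑ w : InfinitePlace E, (w.mult : ℝ) * logHom w x = 0 :=
  NumberField.Units.sum_mult_mul_log x.toMul

/-- equivariant family of units `u_w` with `|u_w|_{w'} < 1` for `w' ≠ w`. -/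
theorem exists_equivariant_family [Finite Δ] : ∃ W : InfinitePlace E → Additive (𝓞 E)ˣ,
    (∀ g w, W (permInf r g w) = ounitAct r g (W w)) ∧
    (∀ w w', w' ≠ w → logHom w' (W w) < 0) := by
  classical
  have := Fintype.ofFinite Δ
  choose V hV using fun w₁ : InfinitePlace E =>
    NumberField.Units.dirichletUnitTheorem.exists_unit E w₁
  have hV' : ∀ w w', w' ≠ w → logHom w' (Additive.ofMul (V w)) < 0 := fun w w' h => hV w w' h
  refine ⟨fun w => ∑ g : Δ, ounitAct r g (Additive.ofMul (V ((permInf r g).symm w))), ?_, ?_⟩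
  · intro g w
    rw [map_sum]
    refine (Fintype.sum_bijective (fun h => g * h) (Group.mulLeft_bijective g)
      _ _ (fun h => ?_)).symm
    have e1 : (permInf r (g * h)).symm (permInf r g w) = (permInf r h).symm w := by
      rw [Equiv.symm_apply_eq, map_mul, Equiv.Perm.mul_apply, Equiv.apply_symm_apply]
    rw [e1, map_mul]
    rfl
  · intro w w' hne
    rw [map_sum]
    apply Finset.sum_neg
    · intro g _
      rw [logHom_ounitAct]
      apply hV'
      intro h
      exact hne ((permInf r g).symm.injective h)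
    · exact Finset.univ_nonempty

/-- `χ(ℤ[S_∞]) = χ(ℤ) χ(O_E^×)` -/
theorem chi_ounit_aux [Finite Δ] {P : Type*} [AddCommGroup P] [Finite P]
    {p : ℕ} [hp : Fact p.Prime] (hpΔ : ¬ p ∣ Nat.card Δ) (ρP : Δ →* AddMonoid.End P) :
    (Nat.card (EHom ρP (permAct (permInf r) (ZMod p))) : ℚ) =
      Nat.card (EHom ρP (1 : Δ →* AddMonoid.End (ZMod p))) * chi p ρP (ounitAct r) := by
  classical
  have hp0 : p ≠ 0 := hp.out.ne_zero
  obtain ⟨W, hW1, hW2⟩ := exists_equivariant_family r
  let Φ : (InfinitePlace E → ℤ) →+ Additive (𝓞 E)ˣ :=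
    AddMonoidHom.mk' (fun n => ∑ w, n w • W w) (fun n m => by
      simp only [Pi.add_apply, add_zsmul, Finset.sum_add_distrib])
  have hΦ : ∀ n, Φ n = ∑ w, n w • W w := fun n => rfl
  have e : ∀ g n, Φ (permAct (permInf r) ℤ g n) = ounitAct r g (Φ n) := by
    intro g n
    rw [hΦ, hΦ, map_sum]
    refine Fintype.sum_equiv (permInf r g).symm _ _ fun w => ?_
    rw [permAct_apply, map_zsmul, ← hW1, Equiv.apply_symm_apply]
  -- the sum of the coordinates
  let s : Φ.ker →+ ℤ := AddMonoidHom.mk' (fun n => ∑ w, n.1 w) (fun n m => by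
    simp only [AddSubgroup.coe_add, Pi.add_apply, Finset.sum_add_distrib])
  have hs : ∀ n, s n = ∑ w, n.1 w := fun n => rfl
  have hsi : Function.Injective s := by
    rw [injective_iff_map_eq_zero]
    rintro ⟨n, hn⟩ h
    apply Subtype.ext
    have hn' : ∀ w', ∑ w, (n w : ℝ) * ((w'.mult : ℝ) * logHom w' (W w)) = 0 := by
      intro w'
      have h1 : logHom w' (Φ n) = 0 := by
        rw [AddMonoidHom.mem_ker.1 hn, map_zero]
      rw [hΦ, map_sum] at h1
      calc ∑ w, (n w : ℝ) * ((w'.mult : ℝ) * logHom w' (W w)) =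
            (w'.mult : ℝ) * ∑ w, logHom w' (n w • W w) := by
            rw [Finset.mul_sum]
            refine Finset.sum_congr rfl fun w _ => ?_
            rw [map_zsmul, zsmul_eq_mul]
            ring
        _ = 0 := by rw [h1, mul_zero]
    refine sign_lemma' (fun w w' => (w'.mult : ℝ) * logHom w' (W w)) ?_ ?_ n hn' h
    · intro w w' hne
      refine mul_neg_of_pos_of_neg ?_ (hW2 w w' hne)
      exact_mod_cast InfinitePlace.mult_pos
    · intro w
      exact sum_mult_mul_logHom (W w)
  have fK : Module.Finite ℤ Φ.ker :=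
    Module.Finite.of_injective s.toIntLinearMap hsi
  have hrank : finrank ℤ (LinearMap.range Φ.toIntLinearMap) +
      finrank ℤ (LinearMap.ker Φ.toIntLinearMap) = Fintype.card (InfinitePlace E) := by
    rw [finrank_range_add_finrank_ker Φ.toIntLinearMap]
    simp
  have hk1 : finrank ℤ (LinearMap.ker Φ.toIntLinearMap) ≤ 1 := by
    have : finrank ℤ Φ.ker ≤ finrank ℤ ℤ :=
      LinearMap.finrank_le_finrank_of_injective (f := s.toIntLinearMap) hsi
    rw [Module.finrank_self] at this
    exact this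
  have hU : finrank ℤ (Additive (𝓞 E)ˣ) = Fintype.card (InfinitePlace E) - 1 :=
    NumberField.Units.finrank_eq E
  have hle : finrank ℤ (LinearMap.range Φ.toIntLinearMap) ≤ finrank ℤ (Additive (𝓞 E)ˣ) :=
    Submodule.finrank_le _
  have hpos : 0 < Fintype.card (InfinitePlace E) := Fintype.card_pos
  have hk2 : finrank ℤ (LinearMap.ker Φ.toIntLinearMap) = 1 := by omega
  have hr : finrank ℤ (LinearMap.range Φ.toIntLinearMap) = finrank ℤ (Additive (𝓞 E)ˣ) := by omega
  have q1 : Finite (Additive (𝓞 E)ˣ ⧸ Φ.range) := finite_quot_of_finrank Φ hr.ge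
  have q2 : Finite (ℤ ⧸ s.range) := by
    refine finite_quot_of_finrank s ?_
    rw [LinearMap.finrank_range_of_inj (f := s.toIntLinearMap) hsi, Module.finrank_self]
    exact hk2.ge
  have q3 : Finite s.ker := by
    rw [(AddMonoidHom.ker_eq_bot_iff s).2 hsi]
    infer_instance
  obtain ⟨h1, h2⟩ := chi_ker_range hpΔ ρP Φ e (good_of_fg hp0) (good_of_fg hp0)
  obtain ⟨h3, h4⟩ := chi_sub_quo hpΔ ρP (ρA := ounitAct r) Φ.range (range_stable e)
    (good_of_fg hp0) h1
  have h6 : chi (A := Additive (𝓞 E)ˣ ⧸ Φ.range) p ρP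
      (quoAct (ounitAct r) Φ.range (range_stable e)) = 1 :=
    chi_finite hpΔ ρP _ _ _ le_rfl
  rw [h6, mul_one] at h4
  have h5 : chi p ρP (subAct (permAct (permInf r) ℤ) Φ.ker (ker_stable e)) =
      chi p ρP (1 : Δ →* AddMonoid.End ℤ) := by
    refine chi_eq_of_finite hpΔ ρP s ?_ (good_of_fg hp0) (good_of_fg hp0)
    intro g n
    show s _ = s n
    rw [hs, hs]
    exact Fintype.sum_equiv (permInf r g).symm _ _ fun w => rfl
  rw [← chi_perm hp0, h2, ← h4, h5, chi_int hp0]

/-- **Equivariant Dirichlet `S`-unit theorem, counted.** -/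
theorem card_EHom_sunit [Finite Δ] {P : Type*} [AddCommGroup P] [Finite P] [Finite T]
    {p : ℕ} [hp : Fact p.Prime] (hpΔ : ¬ p ∣ Nat.card Δ) (ρP : Δ →* AddMonoid.End P) :
    Nat.card (EHom ρP (modAct p (sunitAct r T hT))) *
      Nat.card (EHom ρP (1 : Δ →* AddMonoid.End (ZMod p))) =
    Nat.card (EHom ρP (torAct p (sunitAct r T hT))) *
      Nat.card (EHom ρP (permAct (permT r T hT) (ZMod p))) *
      Nat.card (EHom ρP (permAct (permInf r) (ZMod p))) := by
  have h1 := chi_sunit_aux r T hT hpΔ ρP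
  have h2 := chi_ounit_aux r hpΔ ρP
  have hg : Good p (Additive (T.unit E)) := good_of_fg hp.out.ne_zero
  have f1 := hg.2
  have n1 := card_EHom_ne_zero ρP (torAct p (sunitAct r T hT))
  rw [chi, div_eq_iff n1] at h1
  have h3 : (Nat.card (EHom ρP (modAct p (sunitAct r T hT))) : ℚ) *
      Nat.card (EHom ρP (1 : Δ →* AddMonoid.End (ZMod p))) =
    Nat.card (EHom ρP (torAct p (sunitAct r T hT))) *
      Nat.card (EHom ρP (permAct (permT r T hT) (ZMod p))) *
      Nat.card (EHom ρP (permAct (permInf r) (ZMod p))) := by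
    rw [h1, h2]
    ring
  exact_mod_cast h3

end numfield

end Fermat.Agent.CFT.EC
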