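import Mathlib
import Fermat.Agent.CFT.EC.EHom
import Fermat.Agent.CFT.EC.EquivSUnit

/-!
# Equivariant homomorphisms and invariants

For `M` finite killed by `p` and `p ∤ |Δ|`: `|Hom_Δ(M, 𝔽_p)| = |M^Δ|`, and
`|Hom_Δ(P, Map(X, 𝔽_p))| = |Map_Δ(X, P)|`.
-/

set_option autoImplicit false

namespace Fermat.Agent.CFT.EC

variable {Δ : Type*} [Group Δ]

/-- the diagonal action on `X → P`, `(g f)(x) = g (f (g⁻¹ x))` -/
def diagAct {X P : Type*} [AddCommGroup P] (s : Δ →* Equiv.Perm X) (ρP : Δ →* AddMonoid.End P) :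
    Δ →* AddMonoid.End (X → P) where
  toFun g :=
    { toFun := fun f x => ρP g (f ((s g).symm x))
      map_zero' := by funext x; exact map_zero _
      map_add' := fun f f' => by funext x; exact map_add _ _ _ }
  map_one' := by
    refine AddMonoidHom.ext fun f => funext fun x => ?_
    show ρP 1 (f ((s 1).symm x)) = f x
    rw [map_one, map_one]; rfl
  map_mul' g h := by
    refine AddMonoidHom.ext fun f => funext fun x => ?_
    show ρP (g * h) (f ((s (g * h)).symm x)) = ρP g (ρP h (f ((s h).symm ((s g).symm x))))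
    rw [map_mul, map_mul]; rfl

@[simp] theorem diagAct_apply {X P : Type*} [AddCommGroup P] (s : Δ →* Equiv.Perm X)
    (ρP : Δ →* AddMonoid.End P) (g : Δ) (f : X → P) (x : X) :
    diagAct s ρP g f x = ρP g (f ((s g).symm x)) := rfl

/-- `|Hom(I, 𝔽_p)| = |I|` for `I` finite killed by `p`. -/
theorem card_hom_zmod {p : ℕ} [hp : Fact p.Prime] {I : Type*} [AddCommGroup I] [Finite I]
    (hI : ∀ x : I, p • x = 0) : Nat.card (I →+ ZMod p) = Nat.card I := by
  have key : ∀ (_ : Module (ZMod p) I), Nat.card (I →+ ZMod p) = Nat.card I := by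
    intro mI
    have e : (I →+ ZMod p) ≃ Module.Dual (ZMod p) I :=
      { toFun := fun f => AddMonoidHom.toZModLinearMap p f
        invFun := fun f => f.toAddMonoidHom
        left_inv := fun f => by ext; rfl
        right_inv := fun f => by ext; rfl }
    have : Module.Finite (ZMod p) I := Module.Finite.of_finite
    rw [Nat.card_congr e, Module.natCard_eq_pow_finrank (K := ZMod p),
      Module.natCard_eq_pow_finrank (K := ZMod p) (V := I), Subspace.dual_finrank_eq]
  exact key (AddCommGroup.zmodModule hI)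

/-- an inverse of `|Δ|` acting on modules killed by `p` -/
theorem nsmul_inv_mod {p m n : ℕ} [hp : Fact p.Prime] (hm : m * n ≡ 1 [MOD p])
    {B : Type*} [AddCommGroup B] (hB : ∀ x : B, p • x = 0) (x : B) : (m * n) • x = x := by
  obtain ⟨k, hk⟩ : ∃ k, m * n = 1 + p * k := by
    have hle : 1 ≤ m * n := by
      by_contra h
      have h0 : m * n = 0 := by omega
      rw [h0] at hm
      have := (Nat.modEq_zero_iff_dvd.1 hm.symm)
      exact hp.out.one_lt.ne' (Nat.dvd_one.1 this)
    obtain ⟨k, hk⟩ := (Nat.modEq_iff_dvd' hle).1 hm.symm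
    exact ⟨k, by omega⟩
  rw [hk, add_nsmul, one_nsmul, mul_comm p k, mul_nsmul', hB, smul_zero, add_zero]

/-- `|Hom_Δ(M, 𝔽_p)| = |M^Δ|` -/
theorem card_EHom_trivial [Finite Δ] {p : ℕ} [hp : Fact p.Prime] (hpΔ : ¬ p ∣ Nat.card Δ)
    {M : Type*} [AddCommGroup M] [Finite M] (hM : ∀ x : M, p • x = 0)
    (ρM : Δ →* AddMonoid.End M) :
    Nat.card (EHom ρM (1 : Δ →* AddMonoid.End (ZMod p))) =
      Nat.card {m : M // ∀ g, ρM g m = m} := by
  classical
  have := Fintype.ofFinite Δ
  -- the subgroup of invariants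
  let I : AddSubgroup M :=
    { carrier := {m | ∀ g, ρM g m = m}
      zero_mem' := fun g => map_zero _
      add_mem' := fun {a b} ha hb g => by rw [map_add, ha, hb]
      neg_mem' := fun {a} ha g => by rw [map_neg, ha] }
  have hI : ∀ x : I, p • x = 0 := fun x => Subtype.ext (hM x)
  -- an inverse of `|Δ|` modulo `p`
  obtain ⟨m, hm⟩ : ∃ m : ℕ, m * Nat.card Δ ≡ 1 [MOD p] := by
    have hcop : Nat.Coprime (Nat.card Δ) p := (Nat.Prime.coprime_iff_not_dvd hp.out).2 hpΔ |>.symm
    obtain ⟨m, -, hm⟩ := Nat.exists_mul_mod_eq_one_of_coprime hcop hp.out.one_lt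
    refine ⟨m, ?_⟩
    rw [Nat.ModEq, mul_comm, hm, Nat.mod_eq_of_lt hp.out.one_lt]
  -- averaging
  have hav : ∀ x : M, (m • ∑ g : Δ, ρM g x) ∈ I := by
    intro x h
    rw [map_nsmul, map_sum]
    congr 1
    refine Fintype.sum_bijective (fun g => h * g) (Group.mulLeft_bijective h) _ _ fun g => ?_
    rw [map_mul]; rfl
  let e : M →+ I := AddMonoidHom.mk' (fun x => ⟨m • ∑ g : Δ, ρM g x, hav x⟩) (fun x y => by
    apply Subtype.ext
    show m • ∑ g : Δ, ρM g (x + y) = m • ∑ g : Δ, ρM g x + m • ∑ g : Δ, ρM g y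
    simp only [map_add, Finset.sum_add_distrib, smul_add])
  have he : ∀ x, ((e x : I) : M) = m • ∑ g : Δ, ρM g x := fun x => rfl
  have heI : ∀ x : I, e x = x := by
    intro x
    apply Subtype.ext
    rw [he, Finset.sum_congr rfl fun g _ => x.2 g, Finset.sum_const, Finset.card_univ,
      ← Nat.card_eq_fintype_card, ← mul_nsmul', nsmul_inv_mod hm hM]
  have heg : ∀ g x, e (ρM g x) = e x := by
    intro g x
    apply Subtype.ext
    rw [he, he]
    congr 1
    refine Fintype.sum_bijective (fun h => h * g) (Group.mulRight_bijective g) _ _ fun h => ?_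
    rw [map_mul]; rfl
  have h1 : Nat.card (EHom ρM (1 : Δ →* AddMonoid.End (ZMod p))) = Nat.card (I →+ ZMod p) := by
    refine Nat.card_congr
      { toFun := fun f => f.1.comp I.subtype
        invFun := fun h => ⟨h.comp e, fun g x => by
          show h (e (ρM g x)) = h (e x)
          rw [heg]⟩
        left_inv := fun f => ?_
        right_inv := fun h => ?_ }
    · ext x
      show f.1 (e x : I) = f.1 x
      have hf : ∀ g, f.1 (ρM g x) = f.1 x := fun g => f.2 g x
      rw [he, map_nsmul, map_sum, Finset.sum_congr rfl fun g _ => hf g, Finset.sum_const,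
        Finset.card_univ, ← Nat.card_eq_fintype_card, ← mul_nsmul']
      exact nsmul_inv_mod hm (fun y => by rw [nsmul_eq_mul, CharP.cast_eq_zero, zero_mul]) _
    · ext x
      show h (e (x : M)) = h x
      rw [heI]
  rw [h1, card_hom_zmod hI]
  rfl

/-- `Hom_Δ(P, Map(X, 𝔽_p)) = Hom_Δ(Map(X, P), 𝔽_p)` -/
theorem card_EHom_perm_eq {p : ℕ} {X P : Type*} [Finite X] [AddCommGroup P]
    (s : Δ →* Equiv.Perm X) (ρP : Δ →* AddMonoid.End P) :
    Nat.card (EHom ρP (permAct s (ZMod p))) =
      Nat.card (EHom (diagAct s ρP) (1 : Δ →* AddMonoid.End (ZMod p))) := by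
  classical
  have := Fintype.ofFinite X
  refine Nat.card_congr
    { toFun := fun f => ⟨AddMonoidHom.mk' (fun m => ∑ x, f.1 (m x) x) (fun m m' => by
          simp only [Pi.add_apply, map_add, Finset.sum_add_distrib]), fun g m => ?_⟩
      invFun := fun F => ⟨AddMonoidHom.mk' (fun v x => F.1 (Pi.single x v)) (fun v w => by
          funext x
          show F.1 (Pi.single x (v + w)) = F.1 (Pi.single x v) + F.1 (Pi.single x w)
          rw [Pi.single_add, map_add]), fun g v => ?_⟩
      left_inv := fun f => ?_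
      right_inv := fun F => ?_ }
  · show ∑ x, f.1 (ρP g (m ((s g).symm x))) x = ∑ x, f.1 (m x) x
    refine Fintype.sum_equiv (s g).symm _ _ fun x => ?_
    have := congrFun (f.2 g (m ((s g).symm x))) x
    rw [this]
    rfl
  · funext x
    show F.1 (Pi.single x (ρP g v)) = F.1 (Pi.single ((s g).symm x) v)
    have := F.2 g (Pi.single ((s g).symm x) v)
    have h2 : diagAct s ρP g (Pi.single ((s g).symm x) v) = Pi.single x (ρP g v) := by
      funext y
      rw [diagAct_apply]
      by_cases h : y = x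
      · subst h
        rw [Pi.single_eq_same, Pi.single_eq_same]
      · rw [Pi.single_eq_of_ne h, Pi.single_eq_of_ne (fun h' => h ((s g).symm.injective h')),
          map_zero]
    rw [h2] at this
    exact this
  · ext v x
    show ∑ y, f.1 ((Pi.single x v : X → P) y) y = f.1 v x
    rw [Finset.sum_eq_single x]
    · rw [Pi.single_eq_same]
    · intro y _ hy
      rw [Pi.single_eq_of_ne hy, map_zero]; rfl
    · intro h
      exact absurd (Finset.mem_univ x) h
  · refine Subtype.ext (AddMonoidHom.ext fun m => ?_)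
    show ∑ x, F.1 (Pi.single x (m x)) = F.1 m
    rw [← map_sum]
    congr 1
    exact Finset.univ_sum_single m

/-- **[E1]** `|Hom_Δ(P, Map(X, 𝔽_p))| = |Map_Δ(X, P)|` -/
theorem card_EHom_perm [Finite Δ] {p : ℕ} [hp : Fact p.Prime] (hpΔ : ¬ p ∣ Nat.card Δ)
    {X P : Type*} [Finite X] [AddCommGroup P] [Finite P] (hP : ∀ x : P, p • x = 0)
    (s : Δ →* Equiv.Perm X) (ρP : Δ →* AddMonoid.End P) :
    Nat.card (EHom ρP (permAct s (ZMod p))) =
      Nat.card {f : X → P // ∀ g x, f (s g x) = ρP g (f x)} := by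
  rw [card_EHom_perm_eq, card_EHom_trivial hpΔ (fun f => funext fun x => hP (f x))]
  refine Nat.card_congr (Equiv.subtypeEquivRight fun f => ?_)
  constructor
  · intro h g x
    have := congrFun (h g) (s g x)
    rw [diagAct_apply, Equiv.symm_apply_apply] at this
    exact this.symm
  · intro h g
    funext x
    rw [diagAct_apply, ← h, Equiv.apply_symm_apply]

end Fermat.Agent.CFT.EC
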