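import Fermat.Agent.CFT.D2.Field
import Fermat.Agent.CFT.EC.EquivSUnit
import Fermat.Agent.CFT.PT.Defs
import Fermat.Prelude.Def_GaloisRep_ComplexConjugation

/-!
# The equivariant Euler characteristic: common definitions

* `EqH ρ L U N` : linear maps `Ψ : V^* → Z¹(N, trivial)` with `Ψ(φ ∘ ρ(u)⁻¹)(n) = Ψ(φ)(u⁻¹ n u)`
  for `u ∈ U`;
* `funcMor` : restriction to `N` followed by a linear functional;
* `resE E : G_ℚ →* Gal(E/ℚ)`, `preim E H`, `permH E H : G_ℚ →* Perm (Gal(E/ℚ) ⧸ H)`;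
* `pAct σ χE H` : the action of `H ≤ Gal(E/ℚ)` on the twisted dual `V^*(χ)`.
-/

set_option autoImplicit false

open NumberField IsDedekindDomain Module
open Fermat.Agent.FrobExists Fermat.Agent.CFT.W

namespace Fermat.Agent.CFT.EC

open Fermat.Agent.CFT.LC Fermat.Agent.CFT.W

local notation "Qb" => AlgebraicClosure ℚ

section General

variable {k : Type} [Field k] {G : Type} [Group G] {V : Type} [AddCommGroup V] [Module k V]

/-- Equivariant linear maps from the dual of `V` to the cocycles of `N`. -/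
def EqH (ρ : Representation k G V) (L : Lvl G) (U N : Subgroup G) :
    Submodule k (Dual k V →ₗ[k] Z1 (Representation.trivial k N k) (L.restrict N)) where
  carrier := {Ψ | ∀ (φ : Dual k V) (u : G), u ∈ U → ∀ n n' : N, (n' : G) = u⁻¹ * n * u →
    (Ψ (φ ∘ₗ ρ u⁻¹)).1 n = (Ψ φ).1 n'}
  zero_mem' := fun _ _ _ _ _ _ => rfl
  add_mem' := fun {Ψ Ψ'} h h' φ u hu n n' hn => by
    have h1 := h φ u hu n n' hn
    have h2 := h' φ u hu n n' hn
    show (Ψ (φ ∘ₗ ρ u⁻¹)).1 n + (Ψ' (φ ∘ₗ ρ u⁻¹)).1 n = (Ψ φ).1 n' + (Ψ' φ).1 n'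
    rw [h1, h2]
  smul_mem' := fun c {Ψ} h φ u hu n n' hn => by
    have h1 := h φ u hu n n' hn
    show c • (Ψ (φ ∘ₗ ρ u⁻¹)).1 n = c • (Ψ φ).1 n'
    rw [h1]

theorem mem_EqH {ρ : Representation k G V} {L : Lvl G} {U N : Subgroup G}
    {Ψ : Dual k V →ₗ[k] Z1 (Representation.trivial k N k) (L.restrict N)} :
    Ψ ∈ EqH ρ L U N ↔ ∀ (φ : Dual k V) (u : G), u ∈ U → ∀ n n' : N, (n' : G) = u⁻¹ * n * u →
      (Ψ (φ ∘ₗ ρ u⁻¹)).1 n = (Ψ φ).1 n' := Iff.rfl

/-- Restriction from `U` to `N` followed by the functional `φ` (`ρ` is trivial on `N`). -/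
def funcMor (ρ : Representation k G V) (L : Lvl G) {U N : Subgroup G} (hNU : N ≤ U)
    (hρ : ∀ n ∈ N, ρ n = 1) (φ : Dual k V) :
    Mor (ρ.comp U.subtype) (L.restrict U) (Representation.trivial k N k) (L.restrict N) where
  f := Subgroup.inclusion hNU
  φ := φ
  cont := by
    rintro _ ⟨M, hM, rfl⟩
    exact ⟨_, Lvl.comap_mem_levels _ hM, fun x hx => hx⟩
  comm n v := by
    show φ (ρ (n : G) v) = φ v
    rw [hρ n n.2]
    rfl

@[simp] theorem funcMor_f (ρ : Representation k G V) (L : Lvl G) {U N : Subgroup G} (hNU : N ≤ U)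
    (hρ : ∀ n ∈ N, ρ n = 1) (φ : Dual k V) :
    (funcMor ρ L hNU hρ φ).f = Subgroup.inclusion hNU := rfl

@[simp] theorem funcMor_φ (ρ : Representation k G V) (L : Lvl G) {U N : Subgroup G} (hNU : N ≤ U)
    (hρ : ∀ n ∈ N, ρ n = 1) (φ : Dual k V) : (funcMor ρ L hNU hρ φ).φ = φ := rfl

end General

section Frame

variable (E : IntermediateField ℚ Qb)

/-- the restriction `G_ℚ → Gal(E/ℚ)` -/
noncomputable abbrev resE [Normal ℚ E] : GQ →* (E ≃ₐ[ℚ] E) := AlgEquiv.restrictNormalHom E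

theorem resE_surjective [Normal ℚ E] : Function.Surjective (resE E) :=
  AlgEquiv.restrictNormalHom_surjective Qb

theorem coe_resE_apply [Normal ℚ E] (g : GQ) (x : E) : ((resE E g x : E) : Qb) = g (x : Qb) :=
  AlgEquiv.restrictNormal_commutes g E x

theorem ker_resE [Normal ℚ E] : (resE E).ker = E.fixingSubgroup := by
  ext g
  rw [MonoidHom.mem_ker, IntermediateField.mem_fixingSubgroup_iff]
  constructor
  · intro h x hx
    have h1 := coe_resE_apply E g ⟨x, hx⟩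
    rw [h] at h1
    exact h1.symm
  · intro h
    refine AlgEquiv.ext fun x => Subtype.ext ?_
    rw [coe_resE_apply]
    exact h x x.2

/-- `Normal ℚ E` from `IsNorm E` (they differ by the `Algebra ℚ E` instance). -/
theorem normal_of_isNorm {E : IntermediateField ℚ Qb} (h : IsNorm E) : Normal ℚ E := h

theorem isNorm_of_normal {E : IntermediateField ℚ Qb} (h : Normal ℚ E) : IsNorm E := h

theorem normal_fixingSubgroup [h : Normal ℚ E] : E.fixingSubgroup.Normal :=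
  (isNorm_of_normal h).normal_fixingSubgroup

instance finite_gal [FiniteDimensional ℚ E] : Finite (E ≃ₐ[ℚ] E) := by
  have h : @FiniteDimensional ℚ E _ _ (@Algebra.toModule ℚ E _ _ DivisionRing.toRatAlgebra) := by
    assumption
  infer_instance

variable [Normal ℚ E] (H : Subgroup (E ≃ₐ[ℚ] E))

/-- the preimage of `H` in `G_ℚ` -/
noncomputable abbrev preim : Subgroup GQ := H.comap (resE E)

theorem fixingSubgroup_le_preim : E.fixingSubgroup ≤ preim E H := by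
  rw [← ker_resE]
  exact MonoidHom.ker_le_comap _ _

/-- the action of `G_ℚ` on `Gal(E/ℚ) ⧸ H` -/
noncomputable abbrev permH : GQ →* Equiv.Perm ((E ≃ₐ[ℚ] E) ⧸ H) :=
  (MulAction.toPermHom (E ≃ₐ[ℚ] E) ((E ≃ₐ[ℚ] E) ⧸ H)).comp (resE E)

theorem stab_permH : stab (permH E H) ((1 : E ≃ₐ[ℚ] E) : (E ≃ₐ[ℚ] E) ⧸ H) = preim E H := by
  ext g
  rw [mem_stab]
  show ((resE E g • (1 : E ≃ₐ[ℚ] E) : E ≃ₐ[ℚ] E) : (E ≃ₐ[ℚ] E) ⧸ H) = _ ↔ _
  rw [smul_eq_mul, mul_one, QuotientGroup.eq, mul_one, inv_mem_iff]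
  rfl

variable {V : Type} [AddCommGroup V] {p : ℕ} [hp : Fact p.Prime] [Module (ZMod p) V]

variable {E}

/-- the action of `H` on the twisted dual -/
noncomputable def pAct (σ : Representation (ZMod p) (E ≃ₐ[ℚ] E) V)
    (χE : (E ≃ₐ[ℚ] E) →* (ZMod p)ˣ) (H : Subgroup (E ≃ₐ[ℚ] E)) :
    H →* AddMonoid.End (Dual (ZMod p) V) where
  toFun h := (PT.dtw σ χE (h : E ≃ₐ[ℚ] E)).toAddMonoidHom
  map_one' := by
    rw [Subgroup.coe_one, map_one]
    rfl
  map_mul' g h := by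
    rw [Subgroup.coe_mul, map_mul]
    rfl

@[simp] theorem pAct_apply (σ : Representation (ZMod p) (E ≃ₐ[ℚ] E) V)
    (χE : (E ≃ₐ[ℚ] E) →* (ZMod p)ˣ) (H : Subgroup (E ≃ₐ[ℚ] E)) (h : H)
    (φ : Dual (ZMod p) V) : pAct σ χE H h φ = PT.dtw σ χE (h : E ≃ₐ[ℚ] E) φ := rfl

end Frame

end Fermat.Agent.CFT.EC
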