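import Mathlib
import Fermat.Agent.CFT.EC.Frame
import Fermat.Agent.CFT.EC.EHomInv
import Fermat.Agent.CFT.D2.KumUnits

/-!
# Equivariant Kummer theory for `S`-units
-/

set_option autoImplicit false

open NumberField IsDedekindDomain Module Pointwise
open Fermat.Agent.FrobExists Fermat.Agent.CFT.W ExtCitation

namespace Fermat.Agent.CFT.EC

open Fermat.Agent.CFT.LC Fermat.Agent.CFT.W Fermat.Agent.CFT.D2 Fermat.Agent.CFT.SUnits
  Fermat.Agent.CFT.SUH

local notation "Qb" => AlgebraicClosure ℚ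

section

variable {p : ℕ} [hp : Fact p.Prime] {S : Finset Nat.Primes}
  {E : IntermediateField ℚ Qb} {ζ : Qbˣ}

theorem smul_zeta (hζ : IsPrimitiveRoot ζ p) (u : GQ) :
    u • ζ = ζ ^ ((cycloChar p u : ZMod p)).val := by
  have : NeZero p := ⟨hp.out.ne_zero⟩
  have h2 := modularCyclotomicCharacter.spec Qb (card_rootsOfUnity_eq_self p)
    (u : Qb ≃+* Qb) (t := ζ) ((mem_rootsOfUnity p ζ).2 hζ.pow_eq_one)
  apply Units.ext
  rw [Units.val_pow_eq_pow_val]
  exact h2

theorem smul_ez' (hζ : IsPrimitiveRoot ζ p) (u : GQ) (m : ZMod p) :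
    u • ez ζ m = ez ζ ((cycloChar p u : ZMod p) * m) := by
  have h1 : (cycloChar p u : ZMod p) * m =
      ((((cycloChar p u : ZMod p)).val * m.val : ℕ) : ZMod p) := by
    push_cast
    rw [ZMod.natCast_zmod_val, ZMod.natCast_zmod_val]
  rw [h1, ez_natCast hζ.pow_eq_one, ez, smul_pow', smul_zeta hζ, ← pow_mul]

variable [FiniteDimensional ℚ E] [Normal ℚ E]

omit [FiniteDimensional ℚ E] in
theorem conj_mem_fixing (u : GQ) {n : GQ} (hn : n ∈ E.fixingSubgroup) :
    u⁻¹ * n * u ∈ E.fixingSubgroup := by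
  have := (normal_fixingSubgroup E).conj_mem n hn u⁻¹
  rwa [inv_inv] at this

omit [FiniteDimensional ℚ E] in
theorem inc_resE (u : GQ) (x : Eˣ) :
    inc E (Units.map (resE E u : E →* E) x) = u • inc E x :=
  Units.ext (coe_resE_apply E u x)

omit [FiniteDimensional ℚ E] in
/-- the Kummer cocycle of a conjugate -/
theorem kap_resE (h : Hyp p S E ζ) (u : GQ) (x : Eˣ) (n n' : E.fixingSubgroup)
    (hn : (n' : GQ) = u⁻¹ * n * u) :
    Multiplicative.toAdd (kap h (Units.map (resE E u : E →* E) x)) n =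
      (cycloChar p u : ZMod p) * Multiplicative.toAdd (kap h x) n' := by
  obtain ⟨ξ, h2, h3⟩ := kap_spec h x
  have h4 : IsKE p E ζ (fun n : E.fixingSubgroup => (cycloChar p u : ZMod p) *
      Multiplicative.toAdd (kap h x) ⟨u⁻¹ * n * u, conj_mem_fixing u n.2⟩)
      (Units.map (resE E u : E →* E) x) := by
    refine ⟨u • ξ, ?_, fun m => ?_⟩
    · rw [← smul_pow', h2, inc_resE]
    · rw [← smul_ez' h.prim, ← smul_mul', ← h3 ⟨u⁻¹ * m * u, conj_mem_fixing u m.2⟩, smul_smul,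
        smul_smul]
      congr 1
      group
  rw [kap_eq h h4, toAdd_ofAdd]
  have : n' = ⟨u⁻¹ * n * u, conj_mem_fixing u n.2⟩ := Subtype.ext hn
  rw [this]

omit [Normal ℚ E] in
/-- The Kummer map on `S`-units. -/
noncomputable def kapT (h : Hyp p S E ζ) (hcl : ClassTrivial (SL S E)) :
    Additive ((SL S E).unit E) →+ Z1 (triv p E.fixingSubgroup) (lS S E.fixingSubgroup) :=
  AddMonoidHom.mk' (fun x => ⟨Multiplicative.toAdd (kap h (x.toMul : Eˣ)), by
      have h1 : kap h (x.toMul : Eˣ) ∈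
          (((SL S E).unit E).map (kap h) : Set (Multiplicative (E.fixingSubgroup → ZMod p))) :=
        ⟨_, x.toMul.2, rfl⟩
      rw [map_kap_unit h hcl] at h1
      exact h1⟩) (fun x y => by
      apply Subtype.ext
      show Multiplicative.toAdd (kap h ((x.toMul : Eˣ) * (y.toMul : Eˣ))) = _
      rw [map_mul]
      rfl)

omit [Normal ℚ E] in
theorem coe_kapT (h : Hyp p S E ζ) (hcl : ClassTrivial (SL S E))
    (x : Additive ((SL S E).unit E)) :
    (kapT h hcl x).1 = Multiplicative.toAdd (kap h (x.toMul : Eˣ)) := rfl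

omit [Normal ℚ E] in
theorem kapT_surjective (h : Hyp p S E ζ) (hcl : ClassTrivial (SL S E)) :
    Function.Surjective (kapT h hcl) := by
  intro c
  have h1 : Multiplicative.ofAdd c.1 ∈ Multiplicative.toAdd ⁻¹'
      (Z1 (triv p E.fixingSubgroup) (lS S E.fixingSubgroup) :
        Set (E.fixingSubgroup → ZMod p)) := c.2
  rw [← map_kap_unit h hcl] at h1
  obtain ⟨x, hx, hxc⟩ := h1
  exact ⟨Additive.ofMul ⟨x, hx⟩, Subtype.ext (congrArg Multiplicative.toAdd hxc)⟩

omit [Normal ℚ E] in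
theorem kapT_eq_zero_iff (h : Hyp p S E ζ) (hcl : ClassTrivial (SL S E))
    (x : Additive ((SL S E).unit E)) : kapT h hcl x = 0 ↔ x ∈ mulp p _ := by
  have h1 : kapT h hcl x = 0 ↔ kap h (x.toMul : Eˣ) = 1 := by
    rw [Subtype.ext_iff]
    exact Iff.rfl
  rw [h1, ← MonoidHom.mem_ker, ker_kap]
  constructor
  · rintro ⟨y, hy⟩
    rw [powMonoidHom_apply] at hy
    have hy' : y ∈ (SL S E).unit E :=
      mem_unit_of_pow_mem _ hp.out.ne_zero (by rw [hy]; exact x.toMul.2)
    refine ⟨Additive.ofMul ⟨y, hy'⟩, ?_⟩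
    apply Additive.toMul.injective
    exact Subtype.ext hy
  · rintro ⟨y, rfl⟩
    exact ⟨(y.toMul : Eˣ), rfl⟩

/-- `E_T/p ≃ Z¹` -/
noncomputable def kapEquiv (h : Hyp p S E ζ) (hcl : ClassTrivial (SL S E)) :
    (Additive ((SL S E).unit E) ⧸ mulp p (Additive ((SL S E).unit E))) ≃+
      Z1 (triv p E.fixingSubgroup) (lS S E.fixingSubgroup) :=
  AddEquiv.ofBijective (QuotientAddGroup.lift (mulp p (Additive ((SL S E).unit E)))
    (kapT h hcl) (fun x hx => (kapT_eq_zero_iff h hcl x).2 hx))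
    ⟨by
      rw [injective_iff_map_eq_zero]
      intro x
      induction x using QuotientAddGroup.induction_on with
      | H x =>
        intro hx
        rw [QuotientAddGroup.eq_zero_iff, ← kapT_eq_zero_iff h hcl]
        exact hx, by
      intro c
      obtain ⟨x, rfl⟩ := kapT_surjective h hcl c
      exact ⟨(x : Additive ((SL S E).unit E) ⧸ mulp p (Additive ((SL S E).unit E))), rfl⟩⟩

omit [Normal ℚ E] in
theorem kapEquiv_mk (h : Hyp p S E ζ) (hcl : ClassTrivial (SL S E))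
    (x : Additive ((SL S E).unit E)) :
    kapEquiv h hcl (x : Additive ((SL S E).unit E) ⧸ mulp p (Additive ((SL S E).unit E))) =
      kapT h hcl x := rfl

variable {V : Type} [AddCommGroup V] [Module (ZMod p) V]

/-- conjugation formula for `kapEquiv` -/
theorem kapEquiv_modAct (h : Hyp p S E ζ) (hcl : ClassTrivial (SL S E))
    {H : Subgroup (E ≃ₐ[ℚ] E)}
    (hT : ∀ g : H, ∀ v ∈ SL S E, act (H.subtype g) v ∈ SL S E) (g : H) (u : GQ)
    (hu : resE E u = g)
    (x : Additive ((SL S E).unit E) ⧸ mulp p (Additive ((SL S E).unit E)))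
    (n n' : E.fixingSubgroup) (hn : (n' : GQ) = u⁻¹ * n * u) :
    (kapEquiv h hcl (modAct p (sunitAct H.subtype (SL S E) hT) g x)).1 n =
      (cycloChar p u : ZMod p) * (kapEquiv h hcl x).1 n' := by
  induction x using QuotientAddGroup.induction_on with
  | H x =>
    rw [modAct_mk, kapEquiv_mk, kapEquiv_mk, coe_kapT, coe_kapT, ← kap_resE h u _ n n' hn]
    have h1 : (((sunitAct H.subtype (SL S E) hT g x).toMul : (SL S E).unit E) : Eˣ) =
        Units.map (resE E u : E →* E) ((x.toMul : (SL S E).unit E) : Eˣ) := by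
      rw [hu]
      rfl
    rw [h1]

variable (σ : Representation (ZMod p) (E ≃ₐ[ℚ] E) V) (χE : (E ≃ₐ[ℚ] E) →* (ZMod p)ˣ)
  (hχ : χE.comp (resE E) = cycloChar p) (H : Subgroup (E ≃ₐ[ℚ] E))

include hχ in
/-- **[B]** equivariant Kummer theory -/
theorem nonempty_EqH_equiv (h : Hyp p S E ζ) (hcl : ClassTrivial (SL S E))
    (hT : ∀ g : H, ∀ v ∈ SL S E, act (H.subtype g) v ∈ SL S E) :
    Nonempty (EqH (σ.comp (resE E)) (unram S) (preim E H) E.fixingSubgroup ≃
      EHom (pAct σ χE H) (modAct p (sunitAct H.subtype (SL S E) hT))) := by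
  set J := kapEquiv h hcl with hJ
  have hχ' : ∀ u, χE (resE E u) = cycloChar p u := fun u => DFunLike.congr_fun hχ u
  refine ⟨
    { toFun := fun Ψ => ⟨(J.symm : _ →+ _).comp Ψ.1.toAddMonoidHom, fun g φ => ?_⟩
      invFun := fun f => ⟨AddMonoidHom.toZModLinearMap p ((J : _ →+ _).comp f.1), ?_⟩
      left_inv := fun Ψ => ?_
      right_inv := fun f => ?_ }⟩
  · show J.symm (Ψ.1 (pAct σ χE H g φ)) = modAct p (sunitAct H.subtype (SL S E) hT) g
      (J.symm (Ψ.1 φ))
    rw [AddEquiv.symm_apply_eq]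
    obtain ⟨u, hu⟩ := resE_surjective E (g : E ≃ₐ[ℚ] E)
    apply Subtype.ext
    funext n
    rw [kapEquiv_modAct h hcl hT g u hu _ n ⟨u⁻¹ * n * u, conj_mem_fixing u n.2⟩ rfl,
      AddEquiv.apply_symm_apply]
    have h1 : pAct σ χE H g φ = (cycloChar p u : ZMod p) • (φ ∘ₗ (σ.comp (resE E)) u⁻¹) := by
      refine LinearMap.ext fun v => ?_
      rw [pAct_apply, PT.dtw_apply_apply, ← hu, hχ', LinearMap.smul_apply, LinearMap.comp_apply,
        smul_eq_mul, MonoidHom.comp_apply, map_inv (resE E)]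
    rw [h1, map_smul]
    show (cycloChar p u : ZMod p) • (Ψ.1 (φ ∘ₗ (σ.comp (resE E)) u⁻¹)).1 n = _
    rw [smul_eq_mul, mem_EqH.1 Ψ.2 φ u (by
      show resE E u ∈ H
      rw [hu]; exact g.2) n ⟨u⁻¹ * n * u, conj_mem_fixing u n.2⟩ rfl]
  · rw [mem_EqH]
    intro φ u hu n n' hn
    show (J (f.1 (φ ∘ₗ (σ.comp (resE E)) u⁻¹))).1 n = (J (f.1 φ)).1 n'
    have h1 : pAct σ χE H ⟨resE E u, hu⟩ φ =
        (cycloChar p u : ZMod p) • (φ ∘ₗ (σ.comp (resE E)) u⁻¹) := by
      refine LinearMap.ext fun v => ?_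
      rw [pAct_apply, PT.dtw_apply_apply, hχ', LinearMap.smul_apply, LinearMap.comp_apply,
        smul_eq_mul, MonoidHom.comp_apply, map_inv (resE E)]
    have h2 := f.2 ⟨resE E u, hu⟩ φ
    have h3 := kapEquiv_modAct h hcl hT ⟨resE E u, hu⟩ u rfl (f.1 φ) n n' hn
    rw [← h2, h1] at h3
    have h4 : J (f.1 ((cycloChar p u : ZMod p) • (φ ∘ₗ (σ.comp (resE E)) u⁻¹))) =
        (cycloChar p u : ZMod p) • J (f.1 (φ ∘ₗ (σ.comp (resE E)) u⁻¹)) :=
      map_smul (AddMonoidHom.toZModLinearMap p (J.toAddMonoidHom.comp f.1)) _ _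
    rw [h4] at h3
    have h5 : (cycloChar p u : ZMod p) * (J (f.1 (φ ∘ₗ (σ.comp (resE E)) u⁻¹))).1 n =
      (cycloChar p u : ZMod p) * (J (f.1 φ)).1 n' := h3
    exact mul_left_cancel₀ (Units.ne_zero _) h5
  · apply Subtype.ext
    refine LinearMap.ext fun φ => ?_
    show J (J.symm (Ψ.1 φ)) = Ψ.1 φ
    rw [AddEquiv.apply_symm_apply]
  · apply Subtype.ext
    refine AddMonoidHom.ext fun φ => ?_
    show J.symm (J (f.1 φ)) = f.1 φ
    rw [AddEquiv.symm_apply_apply]

theorem finite_EHom_modAct [FiniteDimensional (ZMod p) V]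
    (hT : ∀ g : H, ∀ v ∈ SL S E, act (H.subtype g) v ∈ SL S E) :
    Finite (EHom (pAct σ χE H) (modAct p (sunitAct H.subtype (SL S E) hT))) := by
  have h1 : Finite (SL S E) := (finite_SL S E).to_subtype
  have h2 : Finite (Additive ((SL S E).unit E) ⧸ mulp p (Additive ((SL S E).unit E))) :=
    (good_of_fg (A := Additive ((SL S E).unit E)) hp.out.ne_zero).1
  have h3 : Finite (Dual (ZMod p) V) := Module.finite_of_finite (ZMod p)
  infer_instance

include hχ in
/-- **[B]** equivariant Kummer theory, counted -/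
theorem card_EqH (h : Hyp p S E ζ) (hcl : ClassTrivial (SL S E))
    (hT : ∀ g : H, ∀ v ∈ SL S E, act (H.subtype g) v ∈ SL S E) :
    Nat.card (EqH (σ.comp (resE E)) (unram S) (preim E H) E.fixingSubgroup) =
      Nat.card (EHom (pAct σ χE H) (modAct p (sunitAct H.subtype (SL S E) hT))) :=
  Nat.card_congr (nonempty_EqH_equiv σ χE hχ H h hcl hT).some

include hχ in
theorem finite_EqH [FiniteDimensional (ZMod p) V] (h : Hyp p S E ζ) (hcl : ClassTrivial (SL S E))
    (hT : ∀ g : H, ∀ v ∈ SL S E, act (H.subtype g) v ∈ SL S E) :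
    Finite (EqH (σ.comp (resE E)) (unram S) (preim E H) E.fixingSubgroup) := by
  have := finite_EHom_modAct σ χE H hT
  exact Finite.of_equiv _ (nonempty_EqH_equiv σ χE hχ H h hcl hT).some.symm

end

end Fermat.Agent.CFT.EC
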