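import Mathlib
import Fermat.Agent.CFT.EC.KumEq

/-!
# Equivariant homomorphisms into roots of unity; `H⁰` terms of the Euler characteristic
-/

set_option autoImplicit false

open NumberField IsDedekindDomain Module Pointwise
open Fermat.Agent.FrobExists Fermat.Agent.CFT.W ExtCitation

namespace Fermat.Agent.CFT.EC

open Fermat.Agent.CFT.LC Fermat.Agent.CFT.W Fermat.Agent.CFT.D2 Fermat.Agent.CFT.SUnits
  Fermat.Agent.CFT.SUH

section general

variable {Δ : Type*} [Group Δ] {p : ℕ} [hp : Fact p.Prime]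

/-- `𝔽_p` with action through a character -/
def chiAct (χ : Δ →* (ZMod p)ˣ) : Δ →* AddMonoid.End (ZMod p) where
  toFun g := AddMonoidHom.mulLeft (χ g : ZMod p)
  map_one' := by
    refine AddMonoidHom.ext fun x => ?_
    show ((χ 1 : (ZMod p)ˣ) : ZMod p) * x = x
    rw [map_one, Units.val_one, one_mul]
  map_mul' g h := by
    refine AddMonoidHom.ext fun x => ?_
    show ((χ (g * h) : (ZMod p)ˣ) : ZMod p) * x = (χ g : ZMod p) * ((χ h : ZMod p) * x)
    rw [map_mul, Units.val_mul, mul_assoc]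

@[simp] theorem chiAct_apply (χ : Δ →* (ZMod p)ˣ) (g : Δ) (x : ZMod p) :
    chiAct χ g x = (χ g : ZMod p) * x := rfl

variable {K E : Type*} [Field K] [Field E] [NumberField E] [Algebra K E]
  (r : Δ →* (E ≃ₐ[K] E)) (T : Set (HeightOneSpectrum (𝓞 E)))
  (hT : ∀ g, ∀ v ∈ T, act (r g) v ∈ T)

/-- Hom into the `p`-torsion of the `T`-units, when `μ_p ⊂ E`. -/
theorem card_EHom_tor {P : Type*} [AddCommGroup P] (ρP : Δ →* AddMonoid.End P)
    {ζ : Eˣ} (hζ : IsPrimitiveRoot ζ p) (χ : Δ →* (ZMod p)ˣ)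
    (hχ : ∀ g, Units.map (r g : E →* E) ζ = ζ ^ ((χ g : ZMod p)).val) :
    Nat.card (EHom ρP (torAct p (sunitAct r T hT))) = Nat.card (EHom ρP (chiAct χ)) := by
  have hζT : ζ ∈ T.unit E := mem_unit_of_pow_mem _ hp.out.ne_zero (by
    rw [hζ.pow_eq_one]; exact one_mem _)
  have h0 : p • (Additive.ofMul (⟨ζ, hζT⟩ : T.unit E)) = 0 := by
    apply Additive.toMul.injective
    exact Subtype.ext hζ.pow_eq_one
  let z : tor p (Additive (T.unit E)) := ⟨Additive.ofMul (⟨ζ, hζT⟩ : T.unit E), h0⟩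
  have hz : (zmultiplesHom (tor p (Additive (T.unit E))) z) (p : ℤ) = 0 := by
    rw [zmultiplesHom_apply, natCast_zsmul]
    exact nsmul_tor p z
  let φ : ZMod p →+ tor p (Additive (T.unit E)) := ZMod.lift p ⟨zmultiplesHom _ z, hz⟩
  have hφ : ∀ n : ℕ, φ (n : ZMod p) = n • z := by
    intro n
    have := ZMod.lift_coe p ⟨zmultiplesHom _ z, hz⟩ (n : ℤ)
    rw [Int.cast_natCast] at this
    rw [this, zmultiplesHom_apply, natCast_zsmul]
  have hφ' : ∀ n : ℕ, ((((φ (n : ZMod p) : tor p (Additive (T.unit E))) :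
      Additive (T.unit E)).toMul : T.unit E) : Eˣ) = ζ ^ n := by
    intro n
    rw [hφ]
    rfl
  have : NeZero p := ⟨hp.out.ne_zero⟩
  symm
  refine card_EHom_congr ρP φ ⟨?_, ?_⟩ ?_
  · rw [injective_iff_map_eq_zero]
    intro x hx
    have h1 := hφ' x.val
    rw [ZMod.natCast_zmod_val, hx] at h1
    have h2 : ζ ^ x.val = 1 := h1.symm
    have h3 := (hζ.pow_eq_one_iff_dvd _).1 h2
    have h4 := Nat.eq_zero_of_dvd_of_lt h3 (ZMod.val_lt x)
    exact (ZMod.val_eq_zero x).1 h4
  · rintro ⟨x, hx⟩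
    have h1 : ((x.toMul : T.unit E) : Eˣ) ^ p = 1 := congrArg (fun y : Additive (T.unit E) =>
      ((y.toMul : T.unit E) : Eˣ)) hx
    have h1' : (((x.toMul : T.unit E) : Eˣ) : E) ^ p = 1 := by
      rw [← Units.val_pow_eq_pow_val, h1, Units.val_one]
    obtain ⟨i, -, hi⟩ := (IsPrimitiveRoot.coe_units_iff.2 hζ).eq_pow_of_pow_eq_one h1'
    refine ⟨(i : ZMod p), Subtype.ext (Additive.toMul.injective (Subtype.ext (Units.ext ?_)))⟩
    rw [hφ', Units.val_pow_eq_pow_val, hi]
  · intro g x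
    refine Subtype.ext (Additive.toMul.injective (Subtype.ext ?_))
    have h1 : chiAct χ g x = ((((χ g : ZMod p)).val * x.val : ℕ) : ZMod p) := by
      push_cast
      rw [ZMod.natCast_zmod_val, ZMod.natCast_zmod_val, chiAct_apply]
    rw [h1, hφ', pow_mul, ← hχ, ← map_pow]
    have h2 := hφ' x.val
    rw [ZMod.natCast_zmod_val] at h2
    rw [← h2]
    rfl

end general

local notation "Qb" => AlgebraicClosure ℚ

section

variable {p : ℕ} [hp : Fact p.Prime] {S : Finset Nat.Primes}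
  {E : IntermediateField ℚ Qb} {ζ : Qbˣ} [FiniteDimensional ℚ E] [Normal ℚ E]
  {V : Type} [AddCommGroup V] [Module (ZMod p) V] [FiniteDimensional (ZMod p) V]
  (σ : Representation (ZMod p) (E ≃ₐ[ℚ] E) V) (χE : (E ≃ₐ[ℚ] E) →* (ZMod p)ˣ)
  (hχ : χE.comp (resE E) = cycloChar p) (H : Subgroup (E ≃ₐ[ℚ] E))

theorem finite_module (W : Type*) [AddCommGroup W] [Module (ZMod p) W]
    [FiniteDimensional (ZMod p) W] : Finite W := Module.finite_of_finite (ZMod p)

theorem zmod_nsmul (W : Type*) [AddCommGroup W] [Module (ZMod p) W] (x : W) : p • x = 0 := by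
  rw [← Nat.cast_smul_eq_nsmul (ZMod p), CharP.cast_eq_zero, zero_smul]

theorem card_submodule_pow (W : Type*) [AddCommGroup W] [Module (ZMod p) W]
    [FiniteDimensional (ZMod p) W] : Nat.card W = p ^ finrank (ZMod p) W := by
  rw [Module.natCard_eq_pow_finrank (K := ZMod p), Nat.card_zmod]

include hχ in
/-- **[E4]**, first half -/
theorem card_EHom_pAct_one (hpH : ¬ p ∣ Nat.card H) :
    Nat.card (EHom (pAct σ χE H) (1 : H →* AddMonoid.End (ZMod p))) =
      p ^ finrank (ZMod p) (H0 ((PT.dtw (σ.comp (resE E)) (cycloChar p)).comp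
        (preim E H).subtype)) := by
  have hχ' : ∀ u, χE (resE E u) = cycloChar p u := fun u => DFunLike.congr_fun hχ u
  have f1 : Finite (Dual (ZMod p) V) := finite_module (p := p) _
  rw [card_EHom_trivial hpH (zmod_nsmul (p := p) _), ← card_submodule_pow]
  refine Nat.card_congr (Equiv.subtypeEquivRight fun φ => ?_)
  rw [mem_H0]
  have key : ∀ u : GQ, PT.dtw (σ.comp (resE E)) (cycloChar p) u φ = PT.dtw σ χE (resE E u) φ := by
    intro u
    refine LinearMap.ext fun v => ?_
    rw [PT.dtw_apply_apply, PT.dtw_apply_apply, hχ', MonoidHom.comp_apply, map_inv (resE E)]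
  constructor
  · intro h u
    exact (key u).trans (h ⟨resE E u, u.2⟩)
  · intro h g
    obtain ⟨u, hu⟩ := resE_surjective E (g : E ≃ₐ[ℚ] E)
    have h1 := h ⟨u, by show resE E u ∈ H; rw [hu]; exact g.2⟩
    rw [pAct_apply, ← hu, ← key]
    exact h1

/-- the action of `H` on the (untwisted) dual -/
noncomputable def dAct : H →* AddMonoid.End (Dual (ZMod p) V) where
  toFun h := (σ.dual (h : E ≃ₐ[ℚ] E)).toAddMonoidHom
  map_one' := by
    rw [Subgroup.coe_one, map_one]
    rfl
  map_mul' g h := by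
    rw [Subgroup.coe_mul, map_mul]
    rfl

/-- the action of `H` on `V` -/
noncomputable def vAct : H →* AddMonoid.End V where
  toFun h := (σ (h : E ≃ₐ[ℚ] E)).toAddMonoidHom
  map_one' := by
    rw [Subgroup.coe_one, map_one]
    rfl
  map_mul' g h := by
    rw [Subgroup.coe_mul, map_mul]
    rfl

omit [FiniteDimensional ℚ E] [Normal ℚ E] [FiniteDimensional (ZMod p) V] in
theorem dAct_apply_apply (h : H) (φ : Dual (ZMod p) V) (v : V) :
    dAct σ H h φ v = φ (σ (h : E ≃ₐ[ℚ] E)⁻¹ v) := rfl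

omit [FiniteDimensional ℚ E] [Normal ℚ E] [FiniteDimensional (ZMod p) V] in
theorem vAct_apply (h : H) (v : V) : vAct σ H h v = σ (h : E ≃ₐ[ℚ] E) v := rfl

include hχ in
/-- **[E4]**, second half -/
theorem card_EHom_pAct_tor (hpH : ¬ p ∣ Nat.card H) (h : Hyp p S E ζ)
    (T : Set (HeightOneSpectrum (𝓞 E)))
    (hT : ∀ g : H, ∀ v ∈ T, act (H.subtype g) v ∈ T) :
    Nat.card (EHom (pAct σ χE H) (torAct p (sunitAct H.subtype T hT))) =
      p ^ finrank (ZMod p) (H0 ((σ.comp (resE E)).comp (preim E H).subtype)) := by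
  have hχ' : ∀ u, χE (resE E u) = cycloChar p u := fun u => DFunLike.congr_fun hχ u
  have f1 : Finite (Dual (ZMod p) V) := finite_module (p := p) _
  have f2 : Finite V := finite_module (p := p) _
  obtain ⟨ζE, hζE⟩ := exists_inc (E := E) (y := ζ) h.fix
  have hprim : IsPrimitiveRoot ζE p := by
    have h4 : IsPrimitiveRoot (inc E ζE) p := by rw [hζE]; exact h.prim
    exact h4.of_map_of_injective inc_injective
  -- step 1
  have s1 : Nat.card (EHom (pAct σ χE H) (torAct p (sunitAct H.subtype T hT))) =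
      Nat.card (EHom (pAct σ χE H) (chiAct (χE.comp H.subtype))) := by
    refine card_EHom_tor H.subtype T hT (pAct σ χE H) hprim (χE.comp H.subtype) ?_
    intro g
    obtain ⟨u, hu⟩ := resE_surjective E (g : E ≃ₐ[ℚ] E)
    apply inc_injective
    have h1 : Units.map (H.subtype g : E →* E) ζE = Units.map (resE E u : E →* E) ζE := by
      rw [hu]; rfl
    rw [h1, inc_resE, map_pow, hζE, smul_zeta h.prim]
    have h2 : (χE.comp H.subtype) g = cycloChar p u := by
      rw [← hχ', hu]; rfl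
    rw [h2]
  -- step 2
  have s2 : Nat.card (EHom (pAct σ χE H) (chiAct (χE.comp H.subtype))) =
      Nat.card (EHom (dAct σ H) (1 : H →* AddMonoid.End (ZMod p))) := by
    refine Nat.card_congr (Equiv.subtypeEquivRight fun f => ?_)
    have key : ∀ (g : H) (φ : Dual (ZMod p) V),
        f (pAct σ χE H g φ) = (χE (g : E ≃ₐ[ℚ] E) : ZMod p) * f (dAct σ H g φ) := by
      intro g φ
      have h1 : pAct σ χE H g φ = (χE (g : E ≃ₐ[ℚ] E) : ZMod p) • dAct σ H g φ := by
        refine LinearMap.ext fun v => ?_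
        rw [pAct_apply, PT.dtw_apply_apply, LinearMap.smul_apply, dAct_apply_apply, smul_eq_mul]
      rw [h1]
      exact map_smul (AddMonoidHom.toZModLinearMap p f) _ _
    rw [mem_EHom, mem_EHom]
    constructor
    · intro hf g φ
      have h1 := hf g φ
      rw [key] at h1
      exact mul_left_cancel₀ (Units.ne_zero _) h1
    · intro hf g φ
      rw [key, hf g φ]
      rfl
  -- step 3
  have s3 : Nat.card {φ : Dual (ZMod p) V // ∀ g, dAct σ H g φ = φ} =
      Nat.card (EHom (vAct σ H) (1 : H →* AddMonoid.End (ZMod p))) := by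
    refine Nat.card_congr
      { toFun := fun φ => ⟨φ.1.toAddMonoidHom, fun g v => ?_⟩
        invFun := fun f => ⟨AddMonoidHom.toZModLinearMap p f.1, fun g => ?_⟩
        left_inv := fun φ => rfl
        right_inv := fun f => rfl }
    · have h1 := LinearMap.congr_fun (φ.2 g) (σ (g : E ≃ₐ[ℚ] E) v)
      rw [dAct_apply_apply] at h1
      have h2 : σ (g : E ≃ₐ[ℚ] E)⁻¹ (σ (g : E ≃ₐ[ℚ] E) v) = v := by
        rw [← Module.End.mul_apply, ← map_mul, inv_mul_cancel, map_one, Module.End.one_apply]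
      rw [h2] at h1
      exact h1.symm
    · refine LinearMap.ext fun v => ?_
      rw [dAct_apply_apply]
      have h1 := f.2 g⁻¹ v
      rw [vAct_apply] at h1
      exact h1
  rw [s1, s2, card_EHom_trivial hpH (zmod_nsmul (p := p) _), s3,
    card_EHom_trivial hpH (zmod_nsmul (p := p) _), ← card_submodule_pow]
  refine Nat.card_congr (Equiv.subtypeEquivRight fun v => ?_)
  rw [mem_H0]
  constructor
  · intro hv u
    exact hv ⟨resE E u, u.2⟩
  · intro hv g
    obtain ⟨u, hu⟩ := resE_surjective E (g : E ≃ₐ[ℚ] E)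
    have h1 := hv ⟨u, by show resE E u ∈ H; rw [hu]; exact g.2⟩
    rw [vAct_apply, ← hu]
    exact h1

end

end Fermat.Agent.CFT.EC
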