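import Fermat.Agent.CFT.PT.Inputs
import Fermat.Agent.CFT.PT.Ext

/-!
# Finiteness of `H¹` and `H²` for all smooth finite-dimensional representations

`finite_H1`, `finite_H2` : dévissage from the trivial representation of open subgroups.
-/

set_option autoImplicit false
set_option linter.unusedSectionVars false

namespace Fermat.Agent.CFT.EC.Fin

open Fermat.Agent.CFT.LC Fermat.Agent.CFT.PT Module

section Aux

variable {k : Type*} [Field k] {A B : Type*} [AddCommGroup A] [Module k A] [AddCommGroup B]
  [Module k B]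

theorem finite_of_ker (f : A →ₗ[k] B) (h1 : Module.Finite k (LinearMap.ker f))
    (h2 : Module.Finite k B) : Module.Finite k A := by
  have h3 : Module.Finite k (A ⧸ LinearMap.ker f) :=
    Module.Finite.equiv f.quotKerEquivRange.symm
  exact Submodule.finite_of_submodule_quotient' _ h1 h3
where
  Submodule.finite_of_submodule_quotient' (N : Submodule k A) (_ : Module.Finite k N)
    (_ : Module.Finite k (A ⧸ N)) : Module.Finite k A := Module.Finite.of_submodule_quotient N

end Aux

section Triv

variable {k : Type} [Field k] {G : Type} [Group G] {L : Lvl G} {V : Type} [AddCommGroup V]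
  [Module k V] [FiniteDimensional k V] {ρ : Representation k G V} (hρ : ∀ g, ρ g = 1)

/-- a functional on a trivial representation -/
def fmor (L : Lvl G) (φ : Dual k V) : Mor ρ L (Representation.trivial k G k) L :=
  Mor.coeff L φ fun g v => by rw [hρ g]; rfl

include hρ

theorem finite_H1_triv [Module.Finite k (LC.H1 (Representation.trivial k G k) L)] :
    Module.Finite k (LC.H1 ρ L) := by
  let b := Module.finBasis k V
  let f : LC.H1 ρ L →ₗ[k] (Fin (finrank k V) → LC.H1 (Representation.trivial k G k) L) :=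
    LinearMap.pi fun i => (fmor hρ L (b.coord i)).H1
  refine Module.Finite.of_injective f ?_
  rw [← LinearMap.ker_eq_bot, LinearMap.ker_eq_bot']
  intro x hx
  obtain ⟨c, rfl⟩ := H1.mk_surjective x
  rw [H1.mk_eq_zero_iff]
  refine ⟨0, fun g => ?_⟩
  rw [map_zero, sub_zero]
  apply b.ext_elem
  intro i
  have h1 : (fmor hρ L (b.coord i)).H1 (H1.mk ρ L c) = 0 := congrFun hx i
  rw [Mor.H1_mk, H1.mk_eq_zero_iff] at h1
  obtain ⟨v, hv⟩ := h1
  have h2 := hv g
  rw [Representation.trivial_apply, sub_self] at h2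
  have h3 : b.coord i (c.1 g) = 0 := h2
  rw [map_zero]
  exact h3

theorem finite_H2_triv [Module.Finite k (LC.H2 (Representation.trivial k G k) L)] :
    Module.Finite k (LC.H2 ρ L) := by
  let b := Module.finBasis k V
  let f : LC.H2 ρ L →ₗ[k] (Fin (finrank k V) → LC.H2 (Representation.trivial k G k) L) :=
    LinearMap.pi fun i => (fmor hρ L (b.coord i)).H2
  refine Module.Finite.of_injective f ?_
  rw [← LinearMap.ker_eq_bot, LinearMap.ker_eq_bot']
  intro x hx
  obtain ⟨c, rfl⟩ := H2.mk_surjective x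
  rw [H2.mk_eq_zero_iff]
  have h1 : ∀ i, ∃ x : G → k, IsLC₁ L x ∧ d1 (Representation.trivial k G k) x =
      ((fmor hρ L (b.coord i)).z2 c).1 := by
    intro i
    have h1 : (fmor hρ L (b.coord i)).H2 (H2.mk ρ L c) = 0 := congrFun hx i
    rwa [Mor.H2_mk, H2.mk_eq_zero_iff] at h1
  choose y hy1 hy2 using h1
  refine ⟨fun g => b.equivFun.symm fun i => y i g, ?_, ?_⟩
  · obtain ⟨N, hN, h⟩ := L.exists_level_le_finite (N := fun i => (hy1 i).choose)
      fun i => (hy1 i).choose_spec.1
    refine ⟨N, hN, fun g s hs => ?_⟩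
    have h5 : (fun i => y i (g * s)) = fun i => y i g :=
      funext fun i => (hy1 i).choose_spec.2 g s (h i hs)
    exact congrArg _ h5
  · funext q
    apply b.ext_elem
    intro i
    have h2 := congrFun (hy2 i) q
    have h3 : ((fmor hρ L (b.coord i)).z2 c).1 q = b.coord i (c.1 q) := rfl
    rw [h3, d1_apply, Representation.trivial_apply] at h2
    have h4 : ∀ w : V, b.repr w i = b.coord i w := fun _ => rfl
    have h5 : ∀ g, b.coord i (b.equivFun.symm fun i => y i g) = y i g := by
      intro g
      rw [Module.Basis.coord_apply, ← Module.Basis.equivFun_apply, LinearEquiv.apply_symm_apply]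
    rw [h4, h4, d1_apply, map_add, map_sub, hρ, Module.End.one_apply, h5, h5, h5]
    exact h2

end Triv

section Main

variable {k : Type} [Field k] {G : Type} [Group G] {L : Lvl G} {V : Type} [AddCommGroup V]
  [Module k V] [FiniteDimensional k V] (ρ : Representation k G V)

theorem stab_permQ (N : Subgroup G) : stab (permQ N) ((1 : G) : G ⧸ N) = N := by
  ext g
  rw [mem_stab]
  show g • ((1 : G) : G ⧸ N) = _ ↔ _
  rw [MulAction.Quotient.smul_coe, smul_eq_mul, mul_one, QuotientGroup.eq, mul_one, inv_mem_iff]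

theorem permQ_trans (N : Subgroup G) (x : G ⧸ N) : ∃ g, permQ N g ((1 : G) : G ⧸ N) = x := by
  induction x using QuotientGroup.induction_on with
  | H g => exact ⟨g, by
      show g • ((1 : G) : G ⧸ N) = _
      rw [MulAction.Quotient.smul_coe, smul_eq_mul, mul_one]⟩

theorem isOpen_ker_permQ {N : Subgroup G} (hN : N ∈ L.levels) : L.IsOpen (permQ N).ker := by
  have := L.normal N hN
  refine ⟨N, hN, fun n hn => ?_⟩
  rw [MonoidHom.mem_ker]
  ext x
  induction x using QuotientGroup.induction_on with
  | H g =>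
    show n • (g : G ⧸ N) = (g : G ⧸ N)
    rw [MulAction.Quotient.smul_coe, smul_eq_mul, QuotientGroup.eq, mul_inv_rev]
    have : g⁻¹ * n⁻¹ * g ∈ N := by
      have := this.conj_mem n⁻¹ (inv_mem hn) g⁻¹
      rwa [inv_inv] at this
    exact this

/-- the constant functions -/
def constR (X : Type) : Submodule k (X → V) :=
  LinearMap.range (LinearMap.pi fun _ => LinearMap.id : V →ₗ[k] (X → V))

/-- the cokernel of `V → Fun(X, V)` -/
def cokRep {X : Type} (π : G →* Equiv.Perm X) :
    Representation k G ((X → V) ⧸ (constR X : Submodule k (X → V))) where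
  toFun g := Submodule.mapQ _ _ (funRep π ρ g) (by
    rintro _ ⟨v, rfl⟩
    exact ⟨ρ g v, rfl⟩)
  map_one' := by
    refine LinearMap.ext fun x => ?_
    obtain ⟨x, rfl⟩ := Submodule.Quotient.mk_surjective _ x
    rw [Submodule.mapQ_apply, map_one]
    rfl
  map_mul' g h := by
    refine LinearMap.ext fun x => ?_
    obtain ⟨x, rfl⟩ := Submodule.Quotient.mk_surjective _ x
    rw [Submodule.mapQ_apply, map_mul]
    rfl

/-- `0 → V → Fun(X, V) → cok → 0` -/
def cokSES {X : Type} [Finite X] [Nonempty X] (π : G →* Equiv.Perm X) (hπ : L.IsOpen π.ker)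
    (hρ : Smooth L ρ) : SES L ρ (funRep π ρ) (cokRep ρ π) where
  i := LinearMap.pi fun _ => LinearMap.id
  q := Submodule.mkQ _
  i_comm g a := rfl
  q_comm g b := rfl
  inj := fun a b h => by
    obtain ⟨x⟩ := ‹Nonempty X›
    exact congrFun h x
  surj := Submodule.mkQ_surjective _
  exact b hb := by
    rw [Submodule.mkQ_apply, Submodule.Quotient.mk_eq_zero] at hb
    exact hb
  q_i a := by
    rw [Submodule.mkQ_apply, Submodule.Quotient.mk_eq_zero]
    exact ⟨a, rfl⟩
  smooth := smooth_funRep hπ hρ

variable {U₀ : Subgroup G} (hU₀ : L.IsOpen U₀)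

include hU₀

theorem finite_H1
    (h1 : ∀ U : Subgroup G, L.IsOpen U → U ≤ U₀ →
      Module.Finite k (LC.H1 (Representation.trivial k U k) (L.restrict U)))
    (hρ : Smooth L ρ) : Module.Finite k (LC.H1 ρ L) := by
  obtain ⟨N, hN, hNU, htriv⟩ := exists_level_trivial_le hρ hU₀
  have := L.finiteIndex N hN
  have hfinX : Finite (G ⧸ N) := inferInstance
  have hker := isOpen_ker_permQ hN
  have hB : Module.Finite k (LC.H1 (funRep (permQ N) ρ) L) := by
    have e := shapiro1 (L := L) (π := permQ N) ρ hker (permQ_trans N)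
    have hst : L.IsOpen (stab (permQ N) ((1 : G) : G ⧸ N)) := by
      rw [stab_permQ]; exact Lvl.IsOpen.of_mem hN
    have h2 : Module.Finite k (LC.H1 (Representation.trivial k (stab (permQ N) ((1 : G) : G ⧸ N)) k)
        (L.restrict (stab (permQ N) ((1 : G) : G ⧸ N)))) := h1 _ hst (by rw [stab_permQ]; exact hNU)
    have h3 : Module.Finite k (LC.H1 (ρ.comp (stab (permQ N) ((1 : G) : G ⧸ N)).subtype)
        (L.restrict (stab (permQ N) ((1 : G) : G ⧸ N)))) := by
      refine finite_H1_triv fun g => ?_
      have hg : (g : G) ∈ N := (stab_permQ N).le g.2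
      exact htriv g hg
    exact Module.Finite.equiv e.symm
  let s := cokSES (L := L) ρ (permQ N) hker hρ
  refine finite_of_ker s.mi.H1 ?_ hB
  have h4 : LinearMap.ker s.mi.H1 = LinearMap.range s.δ0 := (LinearMap.exact_iff.mp s.exact_δ0_H1)
  rw [h4]
  have : Module.Finite k (LC.H0 (cokRep ρ (permQ N))) := inferInstance
  infer_instance

theorem finite_H2
    (h1 : ∀ U : Subgroup G, L.IsOpen U → U ≤ U₀ →
      Module.Finite k (LC.H1 (Representation.trivial k U k) (L.restrict U)))
    (h2 : ∀ U : Subgroup G, L.IsOpen U → U ≤ U₀ →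
      Module.Finite k (LC.H2 (Representation.trivial k U k) (L.restrict U)))
    (hρ : Smooth L ρ) : Module.Finite k (LC.H2 ρ L) := by
  obtain ⟨N, hN, hNU, htriv⟩ := exists_level_trivial_le hρ hU₀
  have := L.finiteIndex N hN
  have hfinX : Finite (G ⧸ N) := inferInstance
  have hker := isOpen_ker_permQ hN
  have hB : Module.Finite k (LC.H2 (funRep (permQ N) ρ) L) := by
    have e := shapiro2 (L := L) (π := permQ N) ρ hker (permQ_trans N)
    have hst : L.IsOpen (stab (permQ N) ((1 : G) : G ⧸ N)) := by
      rw [stab_permQ]; exact Lvl.IsOpen.of_mem hN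
    have h2 : Module.Finite k (LC.H2 (Representation.trivial k (stab (permQ N) ((1 : G) : G ⧸ N)) k)
        (L.restrict (stab (permQ N) ((1 : G) : G ⧸ N)))) := h2 _ hst (by rw [stab_permQ]; exact hNU)
    have h3 : Module.Finite k (LC.H2 (ρ.comp (stab (permQ N) ((1 : G) : G ⧸ N)).subtype)
        (L.restrict (stab (permQ N) ((1 : G) : G ⧸ N)))) := by
      refine finite_H2_triv fun g => ?_
      have hg : (g : G) ∈ N := (stab_permQ N).le g.2
      exact htriv g hg
    exact Module.Finite.equiv e.symm
  let s := cokSES (L := L) ρ (permQ N) hker hρ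
  refine finite_of_ker s.mi.H2 ?_ hB
  have h4 : LinearMap.ker s.mi.H2 = LinearMap.range s.δ1 := (LinearMap.exact_iff.mp s.exact_δ1_H2)
  rw [h4]
  have : Module.Finite k (LC.H1 (cokRep ρ (permQ N)) L) :=
    finite_H1 (cokRep ρ (permQ N)) hU₀ h1 s.smoothC
  infer_instance

end Main

/-- **Finiteness of `H²`** in the form used by the Poitou–Tate package. -/
theorem finH2_of_hG3 {k : Type} [Field k] {G : Type} [Group G] {L : Lvl G} {χ : G →* kˣ}
    (hχ : ContChar L χ) (h : HG3 (k := k) L χ) : FinH2 (k := k) L := fun ρ hρ =>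
  finite_H2 ρ (U₀ := χ.ker) hχ (fun U hU hU' => (h U hU hU').1) (fun U hU hU' => (h U hU hU').2.1) hρ

/-- **Finiteness of `H¹`**. -/
theorem finH1_of_hG3 {k : Type} [Field k] {G : Type} [Group G] {L : Lvl G} {χ : G →* kˣ}
    (hχ : ContChar L χ) (h : HG3 (k := k) L χ) {V : Type} [AddCommGroup V] [Module k V]
    [FiniteDimensional k V] (ρ : Representation k G V) (hρ : Smooth L ρ) :
    FiniteDimensional k (LC.H1 ρ L) :=
  finite_H1 ρ (U₀ := χ.ker) hχ (fun U hU hU' => (h U hU hU').1) hρ

end Fermat.Agent.CFT.EC.Fin
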