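import Fermat.Agent.CFT.EC.AddChar
import Fermat.Agent.CFT.EC.Finite
import Fermat.Agent.CFT.PT.Main

/-!
# The sum of the Euler characteristics of a module and its twisted dual

* `LocalDuality.surj_H2`, `LocalDuality.additive` : local Euler characteristics are additive;
* `ell` : the sum of the local Euler characteristics (with sign);
* `eul_add_eul_dual` : `eul ρ + eul (dtw ρ χ) = - ell ρ`.
-/

set_option autoImplicit false
set_option linter.unusedSectionVars false

namespace Fermat.Agent.CFT.EC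

open Fermat.Agent.CFT.LC Fermat.Agent.CFT.PT Module

section LinAlg

variable {k : Type*} [Field k] {A0 B0 C0 A1 B1 C1 A2 B2 C2 : Type*}
  [AddCommGroup A0] [Module k A0] [AddCommGroup B0] [Module k B0] [AddCommGroup C0] [Module k C0]
  [AddCommGroup A1] [Module k A1] [AddCommGroup B1] [Module k B1] [AddCommGroup C1] [Module k C1]
  [AddCommGroup A2] [Module k A2] [AddCommGroup B2] [Module k B2] [AddCommGroup C2] [Module k C2]

/-- The dimension count in a long exact sequence of length nine with surjectivity at the end. -/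
theorem finrank_les_eq {f0 : A0 →ₗ[k] B0} {g0 : B0 →ₗ[k] C0} {d0 : C0 →ₗ[k] A1}
    {f1 : A1 →ₗ[k] B1} {g1 : B1 →ₗ[k] C1} {d1 : C1 →ₗ[k] A2} {f2 : A2 →ₗ[k] B2}
    {g2 : B2 →ₗ[k] C2} (h0 : Function.Injective f0) (h1 : Function.Exact f0 g0)
    (h2 : Function.Exact g0 d0) (h3 : Function.Exact d0 f1) (h4 : Function.Exact f1 g1)
    (h5 : Function.Exact g1 d1) (h6 : Function.Exact d1 f2) (h7 : Function.Exact f2 g2)
    (h8 : Function.Surjective g2)
    (fA0 : Module.Finite k A0) (fC0 : Module.Finite k C0) (fA1 : Module.Finite k A1)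
    (fC1 : Module.Finite k C1) (fA2 : Module.Finite k A2) (fC2 : Module.Finite k C2) :
      finrank k B0 + finrank k B2 + (finrank k A1 + finrank k C1) =
        finrank k B1 + (finrank k A0 + finrank k A2) + (finrank k C0 + finrank k C2) := by
  have fB0 : Module.Finite k B0 := finite_of_exact h1
  have fB1 : Module.Finite k B1 := finite_of_exact h4
  have fB2 : Module.Finite k B2 := finite_of_exact h7
  have e0 : finrank k A0 = finrank k (LinearMap.range f0) :=
    (LinearEquiv.ofInjective f0 h0).finrank_eq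
  have e1 := finrank_eq_of_exact h1
  have e2 := finrank_eq_of_exact h2
  have e3 := finrank_eq_of_exact h3
  have e4 := finrank_eq_of_exact h4
  have e5 := finrank_eq_of_exact h5
  have e6 := finrank_eq_of_exact h6
  have e7 := finrank_eq_of_exact h7
  have e8 : finrank k (LinearMap.range g2) = finrank k C2 := by
    rw [LinearMap.range_eq_top.mpr h8, finrank_top]
  omega

/-- A linear map with a dense image. -/
theorem surj_of_dual {B C : Type*} [AddCommGroup B] [Module k B] [AddCommGroup C] [Module k C]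
    (q : B →ₗ[k] C) (h : ∀ f : Dual k C, (∀ b, f (q b) = 0) → f = 0) :
    Function.Surjective q := by
  rw [← LinearMap.range_eq_top]
  by_contra hne
  obtain ⟨f, hf, hf'⟩ := Submodule.exists_le_ker_of_lt_top _ (lt_top_iff_ne_top.mpr hne)
  exact hf (h f fun b => hf' ⟨b, rfl⟩)

end LinAlg

section Local

variable {k : Type} [Field k] {G : Type} [Group G] {L : Lvl G} {χ : G →* kˣ} {δ : ℕ}
  (D : LocalDuality L χ δ) {A B C : Type}
  [AddCommGroup A] [Module k A] [AddCommGroup B] [Module k B] [AddCommGroup C] [Module k C]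
  [FiniteDimensional k A] [FiniteDimensional k B] [FiniteDimensional k C]
  {ρA : Representation k G A} {ρB : Representation k G B} {ρC : Representation k G C}

include D

/-- Right exactness of `H²` from local duality. -/
theorem surj_H2 (s : SES L ρA ρB ρC) : Function.Surjective s.mq.H2 := by
  refine surj_of_dual s.mq.H2 fun f hf => ?_
  obtain ⟨y, rfl⟩ := (D.bij ρC s.smoothC).2 f
  have h1 : pullH0 χ s.q s.q_comm y = 0 := by
    apply (D.bij ρB s.smooth).1
    rw [map_zero]
    refine LinearMap.ext fun x => ?_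
    rw [LinearMap.flip_apply, ← pair20_pull]
    exact hf x
  have h2 : y = 0 := by
    apply Subtype.ext
    refine LinearMap.ext fun c => ?_
    obtain ⟨b, rfl⟩ := s.surj c
    have h3 := congrArg (fun z : LC.H0 (dtw ρB χ) => (z : Dual k B) b) h1
    exact h3
  rw [h2, map_zero]

/-- The local Euler characteristic is additive. -/
theorem local_additive (s : SES L ρA ρB ρC) : eul ρB L = eul ρA L + eul ρC L := by
  have h := finrank_les_eq s.H0_injective s.exact_H0 s.exact_H0_δ0 s.exact_δ0_H1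
      s.exact_H1 s.exact_H1_δ1 s.exact_δ1_H2 s.exact_H2 (surj_H2 D s) inferInstance inferInstance
      (D.fin1 ρA s.smoothA) (D.fin1 ρC s.smoothC) (D.fin2 ρA s.smoothA) (D.fin2 ρC s.smoothC)
  rw [eul, eul, eul]
  omega

end Local

section Congr

theorem eul_congr {k : Type} [Field k] {G : Type} [Group G]
    {V W : Type} [AddCommGroup V] [Module k V] [AddCommGroup W] [Module k W]
    {ρ : Representation k G V} {σ : Representation k G W} (e : V ≃ₗ[k] W)
    (he : ∀ g v, e (ρ g v) = σ g (e v)) (L : Lvl G) : eul ρ L = eul σ L := by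
  let m : MorIso ρ L σ L := MorIso.coeff L e he
  have h0 : finrank k (LC.H0 ρ) = finrank k (LC.H0 σ) := m.H0.finrank_eq
  have h1 : finrank k (LC.H1 ρ L) = finrank k (LC.H1 σ L) := m.H1.finrank_eq
  have h2 : finrank k (LC.H2 ρ L) = finrank k (LC.H2 σ L) := m.H2.finrank_eq
  rw [eul, eul, h0, h1, h2]

end Congr

section Ell

variable {k : Type} [Field k] {G : Type} [Group G] {L : Lvl G} {χ : G →* kˣ}
  {ι : Type} [Fintype ι] {Γ : ι → Type} [∀ v, Group (Γ v)] (LΓ : ∀ v, Lvl (Γ v))
  (r : ∀ v, Γ v →* G)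

/-- the sum of the local Euler characteristics, with the opposite sign -/
noncomputable def ell {V : Type} [AddCommGroup V] [Module k V] (ρ : Representation k G V) : ℤ :=
  -∑ v, eul (ρ.comp (r v)) (LΓ v)

variable {LΓ r}

theorem ell_add (hr : ∀ v, (LΓ v).Cont L (r v)) {δ : ι → ℕ}
    (D : ∀ v, LocalDuality (LΓ v) (χ.comp (r v)) (δ v)) {A B C : Type}
    [AddCommGroup A] [Module k A] [AddCommGroup B] [Module k B] [AddCommGroup C] [Module k C]
    [FiniteDimensional k A] [FiniteDimensional k B] [FiniteDimensional k C]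
    {ρA : Representation k G A} {ρB : Representation k G B} {ρC : Representation k G C}
    (s : SES L ρA ρB ρC) : ell LΓ r ρB = ell LΓ r ρA + ell LΓ r ρC := by
  rw [ell, ell, ell, ← neg_add, ← Finset.sum_add_distrib]
  congr 1
  exact Finset.sum_congr rfl fun v _ => local_additive (D v) (s.res (r v) (hr v))

theorem ell_congr {V W : Type} [AddCommGroup V] [Module k V] [AddCommGroup W] [Module k W]
    {ρ : Representation k G V} {σ : Representation k G W} (e : V ≃ₗ[k] W)
    (he : ∀ g v, e (ρ g v) = σ g (e v)) : ell LΓ r ρ = ell LΓ r σ := by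
  rw [ell, ell]
  congr 1
  exact Finset.sum_congr rfl fun v _ =>
    eul_congr (ρ := ρ.comp (r v)) (σ := σ.comp (r v)) e (fun g w => he (r v g) w) (LΓ v)

end Ell

section Split

variable {k : Type} [Field k] {G : Type} [Group G] {L : Lvl G} {A B C : Type}
  [AddCommGroup A] [Module k A] [AddCommGroup B] [Module k B] [AddCommGroup C] [Module k C]
  [FiniteDimensional k A] [FiniteDimensional k B] [FiniteDimensional k C]
  {ρA : Representation k G A} {ρB : Representation k G B} {ρC : Representation k G C}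

/-- the Euler characteristic of a direct sum -/
theorem eul_split (s : Split ρB ρA ρC) (f1 : FiniteDimensional k (LC.H1 ρB L))
    (f2 : FiniteDimensional k (LC.H2 ρB L)) : eul ρB L = eul ρA L + eul ρC L := by
  have h0 : finrank k (LC.H0 ρB) = finrank k (LC.H0 ρA) + finrank k (LC.H0 ρC) := by
    refine finrank_of_biprod (Mor.coeff L s.i s.i_comm).H0 (Mor.coeff L s.p s.p_comm).H0
      (Mor.coeff L s.j s.j_comm).H0 (Mor.coeff L s.q s.q_comm).H0 (fun y => ?_) (fun y => ?_)
      fun x => ?_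
    · exact Subtype.ext (s.pi y)
    · exact Subtype.ext (s.qj y)
    · exact Subtype.ext (s.sum x)
  have h1 : finrank k (LC.H1 ρB L) = finrank k (LC.H1 ρA L) + finrank k (LC.H1 ρC L) := by
    refine finrank_of_biprod (Mor.coeff L s.i s.i_comm).H1 (Mor.coeff L s.p s.p_comm).H1
      (Mor.coeff L s.j s.j_comm).H1 (Mor.coeff L s.q s.q_comm).H1 (fun y => ?_) (fun y => ?_)
      fun x => ?_
    · have h : (Mor.coeff L s.p s.p_comm).comp (Mor.coeff L s.i s.i_comm) = Mor.id ρA L := by
        ext1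
        · rfl
        · exact LinearMap.ext s.pi
      rw [← Mor.H1_comp, h, Mor.H1_id]
    · have h : (Mor.coeff L s.q s.q_comm).comp (Mor.coeff L s.j s.j_comm) = Mor.id ρC L := by
        ext1
        · rfl
        · exact LinearMap.ext s.qj
      rw [← Mor.H1_comp, h, Mor.H1_id]
    · have h := Mor.H1_add_of (m₁ := (Mor.coeff L s.i s.i_comm).comp (Mor.coeff L s.p s.p_comm))
        (m₂ := (Mor.coeff L s.j s.j_comm).comp (Mor.coeff L s.q s.q_comm)) (m₃ := Mor.id ρB L)
        rfl rfl (LinearMap.ext s.sum) x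
      rw [Mor.H1_comp, Mor.H1_comp, Mor.H1_id] at h
      exact h
  have h2 : finrank k (LC.H2 ρB L) = finrank k (LC.H2 ρA L) + finrank k (LC.H2 ρC L) := by
    refine finrank_of_biprod (Mor.coeff L s.i s.i_comm).H2 (Mor.coeff L s.p s.p_comm).H2
      (Mor.coeff L s.j s.j_comm).H2 (Mor.coeff L s.q s.q_comm).H2 (fun y => ?_) (fun y => ?_)
      fun x => ?_
    · have h : (Mor.coeff L s.p s.p_comm).comp (Mor.coeff L s.i s.i_comm) = Mor.id ρA L := by
        ext1
        · rfl
        · exact LinearMap.ext s.pi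
      rw [← Mor.H2_comp, h, Mor.H2_id]
    · have h : (Mor.coeff L s.q s.q_comm).comp (Mor.coeff L s.j s.j_comm) = Mor.id ρC L := by
        ext1
        · rfl
        · exact LinearMap.ext s.qj
      rw [← Mor.H2_comp, h, Mor.H2_id]
    · have h := Mor.H2_add_of (m₁ := (Mor.coeff L s.i s.i_comm).comp (Mor.coeff L s.p s.p_comm))
        (m₂ := (Mor.coeff L s.j s.j_comm).comp (Mor.coeff L s.q s.q_comm)) (m₃ := Mor.id ρB L)
        rfl rfl (LinearMap.ext s.sum) x
      rw [Mor.H2_comp, Mor.H2_comp, Mor.H2_id] at h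
      exact h
  rw [eul, eul, eul, h0, h1, h2]
  push_cast
  ring

/-- the short exact sequence of a direct sum -/
def splitSES (s : Split ρB ρA ρC) (hB : Smooth L ρB) : SES L ρA ρB ρC where
  i := s.i
  q := s.q
  i_comm := s.i_comm
  q_comm := s.q_comm
  inj := fun a b h => by rw [← s.pi a, h, s.pi]
  surj := fun c => ⟨s.j c, s.qj c⟩
  exact b hb := ⟨s.p b, by
    have := s.sum b
    rwa [hb, map_zero, add_zero] at this⟩
  q_i a := by
    have h := s.sum (s.i a)
    rw [s.pi] at h
    have h1 : s.j (s.q (s.i a)) = 0 := by simpa using h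
    rw [← s.qj (s.q (s.i a)), h1, map_zero]
  smooth := hB

end Split

section Main

variable {k : Type} [Field k] {G : Type} [Group G] {L : Lvl G} {χ : G →* kˣ}
  {ι : Type} [Fintype ι] [Nonempty ι] {Γ : ι → Type} [∀ v, Group (Γ v)] {LΓ : ∀ v, Lvl (Γ v)}
  {r : ∀ v, Γ v →* G} {hr : ∀ v, (LΓ v).Cont L (r v)} {δ : ι → ℕ}
  (D : ∀ v, LocalDuality (LΓ v) (χ.comp (r v)) (δ v))
  {p : ℕ} [Fact p.Prime] [CharP k p] [Finite k]

include D in
/-- the inequality which holds for all modules -/
theorem neg_ell_le (hRec : HRec L χ LΓ r hr fun v => (D v).inv) (hG2 : HG2 L χ LΓ r hr)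
    (h3 : HG3 L χ) (hχ : ContChar L χ)
    {V : Type} [AddCommGroup V] [Module k V] [FiniteDimensional k V]
    (ρ : Representation k G V) (hρ : Smooth L ρ) :
    -ell LΓ r ρ ≤ eul ρ L + eul (dtw ρ χ) L := by
  have hF : FinH2 (k := k) L := Fin.finH2_of_hG3 hχ h3
  have hT : TailFormula L χ LΓ r hr := tailFormula D hRec hG2 hF hχ
  have hρ' : Smooth L (dtw ρ χ) := smooth_dtw hρ hχ
  have f1 := Fin.finH1_of_hG3 hχ h3 ρ hρ
  have f1' := Fin.finH1_of_hG3 hχ h3 (dtw ρ χ) hρ'
  have t := hT ρ hρ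
  have t' := hT (dtw ρ χ) hρ'
  have c := (sha1_finite_and_le hT hF hχ ρ hρ).2
  have c' := (sha1_finite_and_le hT hF hχ (dtw ρ χ) hρ').2
  have d0 : finrank k (LC.H0 (dtw (dtw ρ χ) χ)) = finrank k (LC.H0 ρ) :=
    ((MorIso.coeff L ddEquiv (ddEquiv_comm ρ χ)).H0.finrank_eq).symm
  have dv : ∀ v, finrank k (LC.H0 (dtw ((dtw ρ χ).comp (r v)) (χ.comp (r v)))) =
      finrank k (LC.H0 (ρ.comp (r v))) := by
    intro v
    rw [dtw_comp]
    exact ((MorIso.coeff (LΓ v) ddEquiv
      (ddEquiv_comm (ρ.comp (r v)) (χ.comp (r v)))).H0.finrank_eq).symm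
  have ds : finrank k (Sha1 L LΓ r hr (dtw (dtw ρ χ) χ)) = finrank k (Sha1 L LΓ r hr ρ) :=
    ((sha1Equiv L LΓ r hr ddEquiv (ddEquiv_comm ρ χ)).finrank_eq).symm
  rw [d0, Finset.sum_congr rfl fun v _ => dv v] at t'
  rw [ds] at c'
  have o := finrank_H1_add_le (hr := hr) D hRec hχ ρ hρ
  have b : ∑ v, finrank k (LC.H2 (ρ.comp (r v)) (LΓ v)) =
      ∑ v, finrank k (LC.H0 (dtw (ρ.comp (r v)) (χ.comp (r v)))) :=
    Finset.sum_congr rfl fun v _ => finrank_H2_local D ρ hρ hr v
  have hell : ell LΓ r ρ = (∑ v, finrank k (LC.H1 (ρ.comp (r v)) (LΓ v)) : ℕ) -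
      (∑ v, finrank k (LC.H0 (ρ.comp (r v))) : ℕ) -
      (∑ v, finrank k (LC.H2 (ρ.comp (r v)) (LΓ v)) : ℕ) := by
    rw [ell]
    simp only [eul, Finset.sum_add_distrib, Finset.sum_sub_distrib]
    push_cast
    ring
  rw [hell, b]
  rw [eul, eul]
  omega

include D in
/-- the induced modules -/
theorem eul_fun (hδ : ∑ v, δ v = 1) (hr : ∀ v, (LΓ v).Cont L (r v))
    (h3 : HG3 L χ) {P : Subgroup G} (hP : L.IsOpen P) (hPχ : P ≤ χ.ker)
    {V : Type} [AddCommGroup V] [Module k V] [FiniteDimensional k V]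
    (ρ : Representation k G V) (hρ : Smooth L ρ) (hu : Unip (ρ.comp P.subtype)) :
    2 * eul (funRep (permQ P) ρ) L + (P.index * finrank k V : ℕ) ≤ 0 ∧
    ell LΓ r (funRep (permQ P) ρ) = (P.index * finrank k V : ℕ) := by
  constructor
  · have h := (euler_fun h3 hP hPχ ρ hρ hu).2.2
    rw [eul]
    omega
  · have h : ∀ v, eul ((funRep (permQ P) ρ).comp (r v)) (LΓ v) =
        -((δ v * P.index * finrank k V : ℕ) : ℤ) := by
      intro v
      have h1 := localEulerFun_of_D D hr v hP hPχ ρ hρ hu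
      rw [eul]
      omega
    rw [ell, Finset.sum_congr rfl fun v _ => h v, Finset.sum_neg_distrib, neg_neg,
      ← Nat.cast_sum, ← Finset.sum_mul, ← Finset.sum_mul, hδ, one_mul]

include D p in
/-- **The sum of the Euler characteristics of a module and its twisted dual** is determined by
the local Euler characteristics. -/
theorem eul_add_eul_dual (hδ : ∑ v, δ v = 1)
    (hRec : HRec L χ LΓ r hr fun v => (D v).inv) (hG2 : HG2 L χ LΓ r hr) (h3 : HG3 L χ)
    (hχ : ContChar L χ)
    {V : Type} [AddCommGroup V] [Module k V] [FiniteDimensional k V]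
    (ρ : Representation k G V) (hρ : Smooth L ρ) :
    eul ρ L + eul (dtw ρ χ) L = -ell LΓ r ρ := by
  classical
  obtain ⟨N, hN, hNχ, htriv⟩ := exists_level_trivial_le hρ (U := χ.ker) (by
    obtain ⟨N, hN, h⟩ := hχ; exact ⟨N, hN, h⟩)
  obtain ⟨P, hP, hPχ, hidx, hpow⟩ := exists_sylow (k := k) (p := p) hN hNχ
  have hu : Unip (ρ.comp P.subtype) := by
    refine unip_of_pow (p := p) _ fun g => ?_
    obtain ⟨m, hm⟩ := hpow g g.2
    exact ⟨m, htriv _ hm⟩
  have hu' : Unip ((dtw ρ χ).comp P.subtype) := by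
    refine unip_of_pow (p := p) _ fun g => ?_
    obtain ⟨m, hm⟩ := hpow g g.2
    refine ⟨m, ?_⟩
    refine LinearMap.ext fun f => LinearMap.ext fun v => ?_
    have h1 : ρ ((g : G) ^ p ^ m)⁻¹ = 1 := htriv _ (N.inv_mem hm)
    have h2 : χ ((g : G) ^ p ^ m) = 1 := hNχ hm
    show dtw ρ χ ((g : G) ^ p ^ m) f v = f v
    rw [dtw_apply_apply, h1, h2]
    simp
  have hρ' : Smooth L (dtw ρ χ) := smooth_dtw hρ hχ
  have hfinq : Finite (G ⧸ P) := finite_quot hP
  let _ : Fintype (G ⧸ P) := Fintype.ofFinite _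
  have hcard : Fintype.card (G ⧸ P) = P.index := by
    rw [Subgroup.index, Nat.card_eq_fintype_card]
  set σ := funRep (permQ P) ρ with hσdef
  have hσ : Smooth L σ := smooth_funRep (isOpen_ker_quotPerm hP) hρ
  have hσ' : Smooth L (dtw σ χ) := smooth_dtw hσ hχ
  obtain ⟨e1, e2⟩ := eul_fun (LΓ := LΓ) (r := r) D hδ hr h3 hP hPχ ρ hρ hu
  obtain ⟨e1', -⟩ := eul_fun (LΓ := LΓ) (r := r) D hδ hr h3 hP hPχ (dtw ρ χ) hρ' hu'
  have hE : eul (funRep (permQ P) (dtw ρ χ)) L = eul (dtw σ χ) L :=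
    eul_congr (funDual k V (G ⧸ P)) (funDual_comm ρ χ (permQ P)) L
  rw [hE, Subspace.dual_finrank_eq] at e1'
  -- `V` is a direct summand of the induced module
  obtain ⟨τ, ⟨s⟩⟩ := exists_split (ρ := ρ) (σ := σ)
    (LinearMap.pi fun _ : G ⧸ P => LinearMap.id)
    ((P.index : k)⁻¹ • ∑ x : G ⧸ P, LinearMap.proj x)
    (fun g v => by
      funext x
      rfl)
    (fun g f => by
      simp only [LinearMap.smul_apply, LinearMap.sum_apply, LinearMap.proj_apply, map_smul,
        map_sum, hσdef, funRep_apply]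
      congr 1
      exact Equiv.sum_comp (permQ P g)⁻¹ fun x => ρ g (f x))
    (fun v => by
      simp only [LinearMap.smul_apply, LinearMap.sum_apply, LinearMap.proj_apply,
        LinearMap.pi_apply, LinearMap.id_apply, Finset.sum_const, Finset.card_univ, hcard]
      rw [← Nat.cast_smul_eq_nsmul k, smul_smul, inv_mul_cancel₀ hidx, one_smul])
  have hτ : Smooth L τ := by
    intro u
    obtain ⟨M, hM, hM'⟩ := hσ (s.j u)
    refine ⟨M, hM, fun g hg => ?_⟩
    have h1 : s.j (τ g u) = s.j u := by rw [s.j_comm, hM' g hg]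
    rw [← s.qj (τ g u), h1, s.qj]
  have g1 := eul_split (L := L) s (Fin.finH1_of_hG3 hχ h3 σ hσ) (Fin.finH2_of_hG3 hχ h3 σ hσ)
  have g2 := eul_split (L := L) (s.dual χ) (Fin.finH1_of_hG3 hχ h3 _ hσ')
    (Fin.finH2_of_hG3 hχ h3 _ hσ')
  have g3 := ell_add hr D (splitSES (L := L) s hσ)
  have l1 := neg_ell_le (hr := hr) D hRec hG2 h3 hχ ρ hρ
  have l2 := neg_ell_le (hr := hr) D hRec hG2 h3 hχ τ hτ
  rw [← hσdef] at e1 e2
  set c : ℤ := ((P.index * finrank k V : ℕ) : ℤ) with hc

  omega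

end Main

end Fermat.Agent.CFT.EC
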