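import Fermat.Agent.CFT.EC.AddChar
import Fermat.Agent.CFT.D2.RamMap
import Fermat.Agent.CFT.D2.Field
import Fermat.Agent.CFT.Hasse.Concrete
import Fermat.Agent.TWP.ArtinMain

/-!
# The global Euler characteristic formula for `G_{ℚ,S}` over `𝔽_p`

From the inequality `ECU` for the modules `Fun(Gal(E/ℚ)/H, σ)` with `p ∤ |H|`, finiteness and the
sum formula for `ρ` and its twisted dual we deduce
`h⁰ − h¹ + h² = dim V^c − dim V`.
-/

set_option autoImplicit false
set_option linter.unusedSectionVars false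

open NumberField IsDedekindDomain Module
open Fermat.Agent.FrobExists Fermat.Agent.CFT.W ExtCitation

namespace Fermat.Agent.CFT.EC

open Fermat.Agent.CFT.LC Fermat.Agent.CFT.W Fermat.Agent.CFT.PT Fermat.Agent.CFT.D2

local notation "Qb" => AlgebraicClosure ℚ

/-- The inequality for the modules `Fun(Gal(E/ℚ)/H, σ)`, `p ∤ |H|`. -/
def ECU (p : ℕ) [Fact p.Prime] (S : Finset Nat.Primes) : Prop :=
  ∀ (E : IntermediateField ℚ Qb) [FiniteDimensional ℚ E] [Normal ℚ E] (ζ : Qbˣ), Hyp p S E ζ →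
    ∀ (χE : (E ≃ₐ[ℚ] E) →* (ZMod p)ˣ), χE.comp (resE E) = cycloChar p →
    ∀ (H : Subgroup (E ≃ₐ[ℚ] E)), ¬ p ∣ Nat.card H →
    ∀ {V : Type} [AddCommGroup V] [Module (ZMod p) V] [FiniteDimensional (ZMod p) V]
      (σ : Representation (ZMod p) (E ≃ₐ[ℚ] E) V),
      finrank (ZMod p) (LC.H0 (funRep (permH E H) (σ.comp (resE E)))) +
        finrank (ZMod p) (LC.H2 (funRep (permH E H) (σ.comp (resE E))) (unram S)) +
        finrank (ZMod p) ((E ≃ₐ[ℚ] E) ⧸ H → V) ≤
      finrank (ZMod p) (LC.H1 (funRep (permH E H) (σ.comp (resE E))) (unram S)) +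
        finrank (ZMod p) (LinearMap.ker
          (funRep (permH E H) (σ.comp (resE E)) complexConjugation - 1))

section

variable {p : ℕ} [hp : Fact p.Prime] {S : Finset Nat.Primes}
  {E : IntermediateField ℚ Qb} [FiniteDimensional ℚ E] [Normal ℚ E]
  {V : Type} [AddCommGroup V] [Module (ZMod p) V]

theorem two_ne_zero_zmod' {p : ℕ} [hp : Fact p.Prime] (hp2 : p ≠ 2) : (2 : ZMod p) ≠ 0 := by
  have : ((2 : ℕ) : ZMod p) ≠ 0 := by
    rw [Ne, ZMod.natCast_eq_zero_iff]
    intro h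
    exact hp2 ((Nat.prime_dvd_prime_iff_eq hp.out Nat.prime_two).mp h)
  exact_mod_cast this

theorem smooth_comp_resE (hE : (unram S).IsOpen E.fixingSubgroup)
    (σ : Representation (ZMod p) (E ≃ₐ[ℚ] E) V) : Smooth (unram S) (σ.comp (resE E)) := by
  obtain ⟨N, hN, h⟩ := hE
  intro v
  refine ⟨N, hN, fun g hg => ?_⟩
  have h1 : g ∈ (resE E).ker := by
    rw [ker_resE]
    exact h hg
  show σ (resE E g) v = v
  rw [MonoidHom.mem_ker.mp h1, map_one]
  rfl

/-- Factor a representation through `Gal(E/ℚ)`. -/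
theorem exists_factor (ρ : Representation (ZMod p) GQ V)
    (hρ : ∀ g ∈ E.fixingSubgroup, ρ g = 1) :
    ∃ σ : Representation (ZMod p) (E ≃ₐ[ℚ] E) V, σ.comp (resE E) = ρ := by
  have key : ∀ g g' : GQ, resE E g = resE E g' → ρ g = ρ g' := by
    intro g g' h
    have h1 : g⁻¹ * g' ∈ (resE E).ker := by
      rw [MonoidHom.mem_ker, map_mul, map_inv, h, inv_mul_cancel]
    rw [ker_resE] at h1
    have h2 := hρ _ h1
    have h3 : g' = g * (g⁻¹ * g') := by group
    rw [h3, map_mul, h2, mul_one]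
  refine ⟨{ toFun := fun γ => ρ (Function.surjInv (resE_surjective E) γ)
            map_one' := ?_
            map_mul' := fun γ γ' => ?_ }, ?_⟩
  · rw [← map_one ρ]
    apply key
    rw [Function.surjInv_eq (resE_surjective E), map_one]
  · rw [← map_mul ρ]
    apply key
    rw [Function.surjInv_eq (resE_surjective E), map_mul, Function.surjInv_eq (resE_surjective E),
      Function.surjInv_eq (resE_surjective E)]
  · refine MonoidHom.ext fun g => ?_
    exact key _ _ (Function.surjInv_eq (resE_surjective E) _)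

/-- Factor the cyclotomic character through `Gal(E/ℚ)`. -/
theorem exists_factor_char (hE : E.fixingSubgroup ≤ (cycloChar p).ker) :
    ∃ χE : (E ≃ₐ[ℚ] E) →* (ZMod p)ˣ, χE.comp (resE E) = cycloChar p := by
  refine ⟨MonoidHom.liftOfSurjective (resE E) (resE_surjective E) ⟨cycloChar p, ?_⟩, ?_⟩
  · rw [ker_resE]
    exact hE
  · exact MonoidHom.liftOfRightInverse_comp _ _ _ _

variable (S E) in
/-- the additive function on representations of `Gal(E/ℚ)` -/
noncomputable def addFn (hp2 : p ≠ 2) (hpS : pPrime p ∈ S)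
    (hfin : Fin12 (ZMod p) (unram S)) (hsum : EulSum (unram S) (cycloChar p))
    (hE : (unram S).IsOpen E.fixingSubgroup) :
    TWP.ArtinInd.AddFn (ZMod p) (E ≃ₐ[ℚ] E) where
  e σ := ee complexConjugation (σ.comp (resE E)) (unram S)
  add ρ₁ ρ₂ ρ₃ f g hf hg hfg h1 h2 := by
    let s : SES (unram S) (ρ₁.comp (resE E)) (ρ₂.comp (resE E)) (ρ₃.comp (resE E)) :=
      { i := f
        q := g
        i_comm := fun x v => h1 _ v
        q_comm := fun x v => h2 _ v
        inj := hf
        surj := hg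
        exact := fun b hb => (hfg b).mp hb
        q_i := fun a => (hfg _).mpr ⟨a, rfl⟩
        smooth := smooth_comp_resE hE ρ₂ }
    exact ee_add (two_ne_zero_zmod' hp2) complexConjugation_mul_self
      cycloChar_complexConjugation (isOpen_unram_ker_cycloChar hpS) hfin hsum s

theorem smooth_fun (hE : (unram S).IsOpen E.fixingSubgroup) (H : Subgroup (E ≃ₐ[ℚ] E))
    (σ : Representation (ZMod p) (E ≃ₐ[ℚ] E) V) :
    Smooth (unram S) (funRep (permH E H) (σ.comp (resE E))) :=
  smooth_comp_resE hE (funRep (MulAction.toPermHom (E ≃ₐ[ℚ] E) ((E ≃ₐ[ℚ] E) ⧸ H)) σ)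

/-- The vanishing for the induced modules. -/
theorem ee_fun_eq_zero [FiniteDimensional (ZMod p) V] (hp2 : p ≠ 2)
    (hsum : EulSum (unram S) (cycloChar p)) (hU : ECU p S) {ζ : Qbˣ} (h : Hyp p S E ζ)
    {χE : (E ≃ₐ[ℚ] E) →* (ZMod p)ˣ} (hχ : χE.comp (resE E) = cycloChar p)
    (H : Subgroup (E ≃ₐ[ℚ] E)) (hH : ¬ p ∣ Nat.card H)
    (σ : Representation (ZMod p) (E ≃ₐ[ℚ] E) V) :
    ee complexConjugation (funRep (permH E H) (σ.comp (resE E))) (unram S) = 0 := by
  have h1 : ∀ {W : Type} [AddCommGroup W] [Module (ZMod p) W] [FiniteDimensional (ZMod p) W]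
      (τ : Representation (ZMod p) (E ≃ₐ[ℚ] E) W),
      ee complexConjugation (funRep (permH E H) (τ.comp (resE E))) (unram S) ≤ 0 := by
    intro W _ _ _ τ
    have h2 := hU E ζ h χE hχ H hH τ
    rw [ee, eul]
    omega
  have h3 := h1 σ
  have h4 := h1 (dtw σ χE)
  rw [dtw_comp, hχ] at h4
  have h5 := ee_congr (L := unram S) complexConjugation (dualFun (ZMod p) ((E ≃ₐ[ℚ] E) ⧸ H) V)
    (dualFun_dtw (permH E H) (σ.comp (resE E)) (cycloChar p))
  have h6 := ee_dual (L := unram S) (two_ne_zero_zmod' hp2)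
    (funRep (permH E H) (σ.comp (resE E))) (cycloChar p) complexConjugation
    complexConjugation_mul_self cycloChar_complexConjugation
    (hsum _ (smooth_fun h.isOpen H σ))
  rw [← h5, h6] at h4
  omega

end

/-- **The global Euler characteristic formula.** -/
theorem ee_eq_zero {p : ℕ} [hp : Fact p.Prime] {S : Finset Nat.Primes} (hp2 : p ≠ 2)
    (hpS : pPrime p ∈ S) (hfin : Fin12 (ZMod p) (unram S))
    (hsum : EulSum (unram S) (cycloChar p)) (hU : ECU p S)
    {V : Type} [AddCommGroup V] [Module (ZMod p) V] [FiniteDimensional (ZMod p) V]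
    (ρ : Representation (ZMod p) GQ V) (hρ : Smooth (unram S) ρ) :
    ee complexConjugation ρ (unram S) = 0 := by
  obtain ⟨N, hN, hle, hρN⟩ := exists_level_trivial_le hρ
    (U := (cycloChar p).ker) (isOpen_unram_ker_cycloChar hpS)
  obtain ⟨E, hE, hE', rfl⟩ := hN
  have hfd : FiniteDimensional ℚ E := hE.1
  have hnor : Normal ℚ E := normal_of_isNorm hE'
  have hopen : (unram S).IsOpen E.fixingSubgroup := ⟨_, ⟨E, hE, hE', rfl⟩, le_rfl⟩
  -- the primitive root
  obtain ⟨ζ, hζ⟩ : ∃ ζ : Qbˣ, IsPrimitiveRoot ζ p := by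
    have : NeZero (p : Qb) := ⟨Nat.cast_ne_zero.mpr hp.out.ne_zero⟩
    obtain ⟨z, hz⟩ := HasEnoughRootsOfUnity.exists_primitiveRoot Qb p
    exact ⟨(hz.isUnit hp.out.ne_zero).unit, hz.isUnit_unit hp.out.ne_zero⟩
  have hfix : ∀ u ∈ E.fixingSubgroup, u • ζ = ζ := by
    intro u hu
    have h1 : cycloChar p u = 1 := hle hu
    have : Fact (1 < p) := ⟨hp.out.one_lt⟩
    rw [Hasse.cyclo_act hζ, h1, Units.val_one, ZMod.val_one, pow_one]
  have hmem : (ζ : Qb) ∈ E := by
    obtain ⟨x, hx⟩ := exists_inc (E := E) hfix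
    rw [← hx]
    exact (x : E).2
  have h : Hyp p S E ζ := ⟨hζ, hmem, le_QS_of_isOpen hopen, hpS⟩
  obtain ⟨χE, hχ⟩ := exists_factor_char (p := p) hle
  obtain ⟨σ, rfl⟩ := exists_factor ρ hρN
  have hcyc := (addFn S E hp2 hpS hfin hsum hopen).eq_zero_of_cyclic σ fun H _ hH =>
    ee_fun_eq_zero hp2 hsum hU h hχ H hH σ
  exact hcyc

/-- **The global Euler characteristic formula**, as an inequality of dimensions. -/
theorem ecIneq {p : ℕ} [hp : Fact p.Prime] {S : Finset Nat.Primes} (hp2 : p ≠ 2)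
    (hpS : pPrime p ∈ S) (hfin : Fin12 (ZMod p) (unram S))
    (hsum : EulSum (unram S) (cycloChar p)) (hU : ECU p S)
    {V : Type} [AddCommGroup V] [Module (ZMod p) V] [FiniteDimensional (ZMod p) V]
    (ρ : Representation (ZMod p) GQ V) (hρ : Smooth (unram S) ρ) :
    finrank (ZMod p) (LC.H0 ρ) + finrank (ZMod p) (LC.H2 ρ (unram S)) + finrank (ZMod p) V =
      finrank (ZMod p) (LC.H1 ρ (unram S)) +
        finrank (ZMod p) (LinearMap.ker (ρ complexConjugation - 1)) := by
  have h1 := ee_eq_zero hp2 hpS hfin hsum hU ρ hρ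
  rw [ee, eul] at h1
  omega

end Fermat.Agent.CFT.EC
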