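import Fermat.Agent.CFT.EC.EulAbs
import Fermat.Agent.CFT.EC.Final

/-!
# The sum formula `eul ρ + eul (dtw ρ χ) = - dim ρ` over `G_{ℚ,S}`

* `le_ell_fun` : the lower bound for induced modules, from `ECU`;
* `ell_fun_eq` : the equality, by embedding into a module induced from `1`;
* `eulSum` : the sum formula for all modules, by Artin induction.
-/

set_option autoImplicit false
set_option linter.unusedSectionVars false

open NumberField IsDedekindDomain Module
open Fermat.Agent.FrobExists Fermat.Agent.CFT.W ExtCitation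

namespace Fermat.Agent.CFT.EC

open Fermat.Agent.CFT.LC Fermat.Agent.CFT.W Fermat.Agent.CFT.PT Fermat.Agent.CFT.D2

local notation "Qb" => AlgebraicClosure ℚ

section Abstract

variable {k : Type} [Field k] {G : Type} [Group G] {L : Lvl G} {A B C V : Type}
  [AddCommGroup A] [Module k A] [AddCommGroup B] [Module k B] [AddCommGroup C] [Module k C]
  [AddCommGroup V] [Module k V]
  {ρA : Representation k G A} {ρB : Representation k G B} {ρC : Representation k G C}

/-- `Fun(X, -)` of a short exact sequence -/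
def funSES {X : Type} [Finite X] (π : G →* Equiv.Perm X) (hπ : L.IsOpen π.ker)
    (s : SES L ρA ρB ρC) : SES L (funRep π ρA) (funRep π ρB) (funRep π ρC) where
  i := s.i.compLeft X
  q := s.q.compLeft X
  i_comm g f := funext fun x => s.i_comm g _
  q_comm g f := funext fun x => s.q_comm g _
  inj := fun f f' h => funext fun x => s.inj (congrFun h x)
  surj := fun f => by
    choose u hu using fun x => s.surj (f x)
    exact ⟨u, funext hu⟩
  exact f hf := by
    choose u hu using fun x => s.exact (f x) (congrFun hf x)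
    exact ⟨u, funext hu⟩
  q_i f := funext fun x => s.q_i _
  smooth := smooth_funRep hπ s.smooth

variable (k V) in
/-- exchange the two arguments -/
def swapEquiv (X Y : Type) : (X → Y → V) ≃ₗ[k] (Y → X → V) where
  toFun f y x := f x y
  invFun f x y := f y x
  map_add' _ _ := rfl
  map_smul' _ _ := rfl
  left_inv _ := rfl
  right_inv _ := rfl

theorem swap_comm {X Y : Type} (π : G →* Equiv.Perm X) (π' : G →* Equiv.Perm Y)
    (ρ : Representation k G V) (g : G) (f : X → Y → V) :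
    swapEquiv k V X Y (funRep π (funRep π' ρ) g f) =
      funRep π' (funRep π ρ) g (swapEquiv k V X Y f) := rfl

theorem unip_of_trivial {H : Type} [Group H] {ρ : Representation k H V} (h : ∀ g, ρ g = 1) :
    Unip ρ := by
  intro W _ hne
  obtain ⟨v, hv⟩ : ∃ v, v ∉ W := by
    by_contra hall
    push Not at hall
    exact hne (eq_top_iff.mpr fun v _ => hall v)
  refine ⟨v, hv, fun g => ?_⟩
  rw [h g, Module.End.one_apply, sub_self]
  exact W.zero_mem

theorem cokRep_eq_one {X : Type} {π : G →* Equiv.Perm X} {ρ : Representation k G V} {g : G}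
    (h1 : π g = 1) (h2 : ρ g = 1) : Fin.cokRep ρ π g = 1 := by
  refine LinearMap.ext fun x => ?_
  obtain ⟨x, rfl⟩ := Submodule.Quotient.mk_surjective _ x
  have h3 : funRep π ρ g x = x := by
    funext y
    rw [funRep_apply, h1, h2]
    rfl
  show Submodule.Quotient.mk (funRep π ρ g x) = Submodule.Quotient.mk x
  rw [h3]

theorem permQ_eq_one {P : Subgroup G} [P.Normal] {g : G} (hg : g ∈ P) : permQ P g = 1 := by
  ext x
  induction x using QuotientGroup.induction_on with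
  | H y =>
    show g • (y : G ⧸ P) = (y : G ⧸ P)
    rw [MulAction.Quotient.smul_coe, smul_eq_mul, QuotientGroup.eq, mul_inv_rev]
    have : y⁻¹ * g⁻¹ * y ∈ P := by
      have := (‹P.Normal›).conj_mem g⁻¹ (inv_mem hg) y⁻¹
      rwa [inv_inv] at this
    exact this

end Abstract

section Conc

variable {p : ℕ} [hp : Fact p.Prime] {S : Finset Nat.Primes}
  {ι : Type} [Fintype ι] [Nonempty ι] {Γ : ι → Type} [∀ v, Group (Γ v)] {LΓ : ∀ v, Lvl (Γ v)}
  {r : ∀ v, Γ v →* GQ} {hr : ∀ v, (LΓ v).Cont (unram S) (r v)} {δ : ι → ℕ}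
  (D : ∀ v, LocalDuality (k := ZMod p) (LΓ v) ((cycloChar p).comp (r v)) (δ v))
  {E : IntermediateField ℚ Qb} [FiniteDimensional ℚ E] [Normal ℚ E]
  {V : Type} [AddCommGroup V] [Module (ZMod p) V]

include D

/-- The lower bound. -/
theorem le_ell_fun [FiniteDimensional (ZMod p) V] (hp2 : p ≠ 2) (hpS : pPrime p ∈ S)
    (hδ : ∑ v, δ v = 1)
    (hRec : HRec (unram S) (cycloChar p) LΓ r hr fun v => (D v).inv)
    (hG2 : HG2 (unram S) (cycloChar p) LΓ r hr) (h3 : HG3 (unram S) (cycloChar p))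
    (hU : ECU p S) {ζ : Qbˣ} (h : Hyp p S E ζ)
    {χE : (E ≃ₐ[ℚ] E) →* (ZMod p)ˣ} (hχ : χE.comp (resE E) = cycloChar p)
    (H : Subgroup (E ≃ₐ[ℚ] E)) (hH : ¬ p ∣ Nat.card H)
    (σ : Representation (ZMod p) (E ≃ₐ[ℚ] E) V) :
    (finrank (ZMod p) ((E ≃ₐ[ℚ] E) ⧸ H → V) : ℤ) ≤
      ell LΓ r (funRep (permH E H) (σ.comp (resE E))) := by
  have h1 : ∀ {W : Type} [AddCommGroup W] [Module (ZMod p) W] [FiniteDimensional (ZMod p) W]
      (τ : Representation (ZMod p) (E ≃ₐ[ℚ] E) W),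
      ee complexConjugation (funRep (permH E H) (τ.comp (resE E))) (unram S) ≤ 0 := by
    intro W _ _ _ τ
    have h2 := hU E ζ h χE hχ H hH τ
    rw [ee, eul]
    omega
  have h3' := h1 σ
  have h4 := h1 (dtw σ χE)
  rw [dtw_comp, hχ] at h4
  have h5 := ee_congr (L := unram S) complexConjugation (dualFun (ZMod p) ((E ≃ₐ[ℚ] E) ⧸ H) V)
    (dualFun_dtw (permH E H) (σ.comp (resE E)) (cycloChar p))
  rw [← h5] at h4
  have h6 := finrank_ker_dtw (two_ne_zero_zmod' hp2)
    (funRep (permH E H) (σ.comp (resE E))) (cycloChar p) complexConjugation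
    complexConjugation_mul_self cycloChar_complexConjugation
  have h7 := eul_add_eul_dual (p := p) D hδ hRec hG2 h3 (isOpen_unram_ker_cycloChar hpS)
    (funRep (permH E H) (σ.comp (resE E))) (smooth_fun h.isOpen H σ)
  have h8 : finrank (ZMod p) (Dual (ZMod p) ((E ≃ₐ[ℚ] E) ⧸ H → V)) =
    finrank (ZMod p) ((E ≃ₐ[ℚ] E) ⧸ H → V) := Subspace.dual_finrank_eq
  rw [ee] at h3' h4
  rw [h8] at h4
  omega

/-- **The equality for induced modules.** -/
theorem ell_fun_eq [FiniteDimensional (ZMod p) V] (hp2 : p ≠ 2) (hpS : pPrime p ∈ S)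
    (hδ : ∑ v, δ v = 1)
    (hRec : HRec (unram S) (cycloChar p) LΓ r hr fun v => (D v).inv)
    (hG2 : HG2 (unram S) (cycloChar p) LΓ r hr) (h3 : HG3 (unram S) (cycloChar p))
    (hU : ECU p S) {ζ : Qbˣ} (h : Hyp p S E ζ)
    {χE : (E ≃ₐ[ℚ] E) →* (ZMod p)ˣ} (hχ : χE.comp (resE E) = cycloChar p)
    (H : Subgroup (E ≃ₐ[ℚ] E)) (hH : ¬ p ∣ Nat.card H)
    (σ : Representation (ZMod p) (E ≃ₐ[ℚ] E) V) :
    ell LΓ r (funRep (permH E H) (σ.comp (resE E))) =
      (finrank (ZMod p) ((E ≃ₐ[ℚ] E) ⧸ H → V) : ℤ) := by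
  classical
  have hPo : (unram S).IsOpen E.fixingSubgroup := h.isOpen
  have hker : ∀ g ∈ E.fixingSubgroup, resE E g = 1 := by
    intro g hg
    rw [← ker_resE] at hg
    exact MonoidHom.mem_ker.mp hg
  have hPχ : E.fixingSubgroup ≤ (cycloChar p).ker := by
    intro g hg
    rw [MonoidHom.mem_ker, ← hχ, MonoidHom.comp_apply, hker g hg, map_one]
  have hnor : E.fixingSubgroup.Normal := by
    rw [← ker_resE]
    infer_instance
  have hρ : Smooth (unram S) (σ.comp (resE E)) := smooth_comp_resE hPo σ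
  have htriv : ∀ g ∈ E.fixingSubgroup, (σ.comp (resE E)) g = 1 := by
    intro g hg
    rw [MonoidHom.comp_apply, hker g hg, map_one]
  have hπ1 : ∀ g ∈ E.fixingSubgroup, permH E H g = 1 := by
    intro g hg
    show MulAction.toPermHom (E ≃ₐ[ℚ] E) ((E ≃ₐ[ℚ] E) ⧸ H) (resE E g) = 1
    rw [hker g hg, map_one]
  have hπ : (unram S).IsOpen (permH E H).ker :=
    hPo.mono fun g hg => MonoidHom.mem_ker.mpr (hπ1 g hg)
  have hfinq : Finite (GQ ⧸ E.fixingSubgroup) := finite_quot hPo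
  let _ : Fintype (GQ ⧸ E.fixingSubgroup) := Fintype.ofFinite _
  -- the cokernel of the embedding into the induced module
  obtain ⟨τ, hτ⟩ := exists_factor (E := E)
    (Fin.cokRep (σ.comp (resE E)) (permQ E.fixingSubgroup))
    fun g hg => cokRep_eq_one (permQ_eq_one hg) (htriv g hg)
  let s := funSES (permH E H) hπ (Fin.cokSES (L := unram S) (σ.comp (resE E))
    (permQ E.fixingSubgroup) (isOpen_ker_quotPerm hPo) hρ)
  have a1 := ell_add hr D s
  have a2 := finrank_ses s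
  have b1 := le_ell_fun D hp2 hpS hδ hRec hG2 h3 hU h hχ H hH σ
  have b2 := le_ell_fun D hp2 hpS hδ hRec hG2 h3 hU h hχ H hH τ
  rw [hτ] at b2
  have c1 : ell LΓ r (funRep (permH E H)
      (funRep (permQ E.fixingSubgroup) (σ.comp (resE E)))) =
      ell LΓ r (funRep (permQ E.fixingSubgroup)
        (funRep (permH E H) (σ.comp (resE E)))) :=
    ell_congr (swapEquiv (ZMod p) V _ _) fun g f =>
      swap_comm (permH E H) (permQ E.fixingSubgroup) (σ.comp (resE E)) g f
  have c2 := (eul_fun (LΓ := LΓ) (r := r) D hδ hr h3 hPo hPχ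
    (funRep (permH E H) (σ.comp (resE E))) (smooth_fun hPo H σ)
    (unip_of_trivial fun g => by
      refine LinearMap.ext fun f => funext fun x => ?_
      show funRep (permH E H) (σ.comp (resE E)) g f x = f x
      rw [funRep_apply, hπ1 _ g.2, htriv _ g.2]
      rfl)).2
  have c3 : finrank (ZMod p) ((E ≃ₐ[ℚ] E) ⧸ H → GQ ⧸ E.fixingSubgroup → V) =
      E.fixingSubgroup.index * finrank (ZMod p) ((E ≃ₐ[ℚ] E) ⧸ H → V) := by
    rw [(swapEquiv (ZMod p) V ((E ≃ₐ[ℚ] E) ⧸ H) (GQ ⧸ E.fixingSubgroup)).finrank_eq,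
      Module.finrank_pi_fintype, Finset.sum_const, Finset.card_univ, Subgroup.index,
      Nat.card_eq_fintype_card, smul_eq_mul]
  rw [c1, c2] at a1
  have a3 : E.fixingSubgroup.index * finrank (ZMod p) ((E ≃ₐ[ℚ] E) ⧸ H → V) =
      finrank (ZMod p) ((E ≃ₐ[ℚ] E) ⧸ H → V) + finrank (ZMod p)
        ((E ≃ₐ[ℚ] E) ⧸ H → (GQ ⧸ E.fixingSubgroup → V) ⧸
          (Fin.constR (GQ ⧸ E.fixingSubgroup) : Submodule (ZMod p) _)) := c3.symm.trans a2
  rw [a3] at a1
  push_cast at a1
  refine le_antisymm ?_ b1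
  linarith

variable (E) in
/-- the additive function on representations of `Gal(E/ℚ)` -/
noncomputable def ellFn (hr : ∀ v, (LΓ v).Cont (unram S) (r v))
    (hE : (unram S).IsOpen E.fixingSubgroup) :
    TWP.ArtinInd.AddFn (ZMod p) (E ≃ₐ[ℚ] E) where
  e {V} _ _ _ σ := ell LΓ r (σ.comp (resE E)) - finrank (ZMod p) V
  add ρ₁ ρ₂ ρ₃ f g hf hg hfg h1 h2 := by
    let s : SES (unram S) (ρ₁.comp (resE E)) (ρ₂.comp (resE E)) (ρ₃.comp (resE E)) :=
      { i := f
        q := g
        i_comm := fun x v => h1 _ v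
        q_comm := fun x v => h2 _ v
        inj := hf
        surj := hg
        exact := fun b hb => (hfg b).mp hb
        q_i := fun a => (hfg _).mpr ⟨a, rfl⟩
        smooth := smooth_comp_resE hE ρ₂ }
    have a1 := ell_add hr D s
    have a2 := finrank_ses s
    omega

end Conc

section Main

variable {p : ℕ} [hp : Fact p.Prime] {S : Finset Nat.Primes}
  {ι : Type} [Fintype ι] [Nonempty ι] {Γ : ι → Type} [∀ v, Group (Γ v)] {LΓ : ∀ v, Lvl (Γ v)}
  {r : ∀ v, Γ v →* GQ} {hr : ∀ v, (LΓ v).Cont (unram S) (r v)} {δ : ι → ℕ}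
  (D : ∀ v, LocalDuality (k := ZMod p) (LΓ v) ((cycloChar p).comp (r v)) (δ v))

/-- Every smooth representation is defined over a suitable number field. -/
theorem exists_hyp (hpS : pPrime p ∈ S) {V : Type} [AddCommGroup V] [Module (ZMod p) V]
    [FiniteDimensional (ZMod p) V] (ρ : Representation (ZMod p) GQ V)
    (hρ : Smooth (unram S) ρ) :
    ∃ (E : IntermediateField ℚ Qb) (_ : FiniteDimensional ℚ E) (_ : Normal ℚ E) (ζ : Qbˣ)
      (_ : Hyp p S E ζ) (χE : (E ≃ₐ[ℚ] E) →* (ZMod p)ˣ) (_ : χE.comp (resE E) = cycloChar p)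
      (σ : Representation (ZMod p) (E ≃ₐ[ℚ] E) V), σ.comp (resE E) = ρ := by
  obtain ⟨N, hN, hle, hρN⟩ := exists_level_trivial_le hρ
    (U := (cycloChar p).ker) (isOpen_unram_ker_cycloChar hpS)
  obtain ⟨E, hE, hE', rfl⟩ := hN
  have hfd : FiniteDimensional ℚ E := hE.1
  have hnor : Normal ℚ E := normal_of_isNorm hE'
  have hopen : (unram S).IsOpen E.fixingSubgroup := ⟨_, ⟨E, hE, hE', rfl⟩, le_rfl⟩
  obtain ⟨ζ, hζ⟩ : ∃ ζ : Qbˣ, IsPrimitiveRoot ζ p := by
    have : NeZero (p : Qb) := ⟨Nat.cast_ne_zero.mpr hp.out.ne_zero⟩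
    obtain ⟨z, hz⟩ := HasEnoughRootsOfUnity.exists_primitiveRoot Qb p
    exact ⟨(hz.isUnit hp.out.ne_zero).unit, hz.isUnit_unit hp.out.ne_zero⟩
  have hfix : ∀ u ∈ E.fixingSubgroup, u • ζ = ζ := by
    intro u hu
    have h1 : cycloChar p u = 1 := hle hu
    have : Fact (1 < p) := ⟨hp.out.one_lt⟩
    rw [Hasse.cyclo_act hζ, h1, Units.val_one, ZMod.val_one, pow_one]
  have hmem : (ζ : Qb) ∈ E := by
    obtain ⟨x, hx⟩ := exists_inc (E := E) hfix
    rw [← hx]
    exact (x : E).2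
  have h : Hyp p S E ζ := ⟨hζ, hmem, le_QS_of_isOpen hopen, hpS⟩
  obtain ⟨χE, hχ⟩ := exists_factor_char (p := p) hle
  obtain ⟨σ, hσ⟩ := exists_factor ρ hρN
  exact ⟨E, hfd, hnor, ζ, h, χE, hχ, σ, hσ⟩

include D

/-- The sum of the local Euler characteristics. -/
theorem ell_eq (hp2 : p ≠ 2) (hpS : pPrime p ∈ S)
    (hδ : ∑ v, δ v = 1)
    (hRec : HRec (unram S) (cycloChar p) LΓ r hr fun v => (D v).inv)
    (hG2 : HG2 (unram S) (cycloChar p) LΓ r hr) (h3 : HG3 (unram S) (cycloChar p))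
    (hU : ECU p S) {V : Type} [AddCommGroup V] [Module (ZMod p) V]
    [FiniteDimensional (ZMod p) V] (ρ : Representation (ZMod p) GQ V)
    (hρ : Smooth (unram S) ρ) : ell LΓ r ρ = (finrank (ZMod p) V : ℤ) := by
  obtain ⟨E, _, _, ζ, h, χE, hχ, σ, rfl⟩ := exists_hyp hpS ρ hρ
  have hcyc := (ellFn D E hr h.isOpen).eq_zero_of_cyclic σ fun H _ hH =>
    sub_eq_zero.mpr (ell_fun_eq D hp2 hpS hδ hRec hG2 h3 hU h hχ H hH σ)
  exact sub_eq_zero.mp hcyc

/-- **The sum formula.** -/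
theorem eulSum (hp2 : p ≠ 2) (hpS : pPrime p ∈ S) (hδ : ∑ v, δ v = 1)
    (hRec : HRec (unram S) (cycloChar p) LΓ r hr fun v => (D v).inv)
    (hG2 : HG2 (unram S) (cycloChar p) LΓ r hr) (h3 : HG3 (unram S) (cycloChar p))
    (hU : ECU p S) : EulSum (unram S) (cycloChar p) := by
  intro V _ _ _ ρ hρ
  rw [eul_add_eul_dual (p := p) D hδ hRec hG2 h3 (isOpen_unram_ker_cycloChar hpS) ρ hρ,
    ell_eq D hp2 hpS hδ hRec hG2 h3 hU ρ hρ]

/-- **The global Euler characteristic formula**, from local duality, reciprocity, the bound on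
the cokernel of localisation and the inequality `ECU`. -/
theorem ecIneq_of_D (hp2 : p ≠ 2) (hpS : pPrime p ∈ S) (hδ : ∑ v, δ v = 1)
    (hRec : HRec (unram S) (cycloChar p) LΓ r hr fun v => (D v).inv)
    (hG2 : HG2 (unram S) (cycloChar p) LΓ r hr) (h3 : HG3 (unram S) (cycloChar p))
    (hU : ECU p S) {V : Type} [AddCommGroup V] [Module (ZMod p) V]
    [FiniteDimensional (ZMod p) V] (ρ : Representation (ZMod p) GQ V)
    (hρ : Smooth (unram S) ρ) :
    finrank (ZMod p) (LC.H0 ρ) + finrank (ZMod p) (LC.H2 ρ (unram S)) + finrank (ZMod p) V =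
      finrank (ZMod p) (LC.H1 ρ (unram S)) +
        finrank (ZMod p) (LinearMap.ker (ρ complexConjugation - 1)) :=
  ecIneq hp2 hpS (fun ρ hρ => ⟨Fin.finH1_of_hG3 (isOpen_unram_ker_cycloChar hpS) h3 ρ hρ,
    Fin.finH2_of_hG3 (isOpen_unram_ker_cycloChar hpS) h3 ρ hρ⟩)
    (eulSum D hp2 hpS hδ hRec hG2 h3 hU) hU ρ hρ

end Main

end Fermat.Agent.CFT.EC
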