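import Fermat.Agent.CFT.EC.Frame
import Fermat.Agent.CFT.LC.Criterion

/-!
# Infinite places of a normal field as a coset space of complex conjugation

* `card_equivariant`: equivariant functions on a transitive set and functions on a coset space;
* `card_infPlaces`: `H`-equivariant functions `InfinitePlace E → V^*(χ)` are counted by the
  `c`-invariants of `Fun(Γ / H, V^*(χ))`;
* `finrank_add_finrank_conj`: for `p` odd the dimensions of the `c`-invariants of `Fun(Γ / H, V)`
  and of `Fun(Γ / H, V^*(χ))` add up to the total dimension.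
-/

set_option autoImplicit false

open NumberField IsDedekindDomain Module
open Fermat.Agent.FrobExists Fermat.Agent.CFT.W

namespace Fermat.Agent.CFT.EC

open Fermat.Agent.CFT.LC Fermat.Agent.CFT.W Fermat.Agent.CFT.PT

local notation "Qb" => AlgebraicClosure ℚ

section Abstract

variable {Γ X W : Type} [Group Γ]

/-- Equivariant functions on a transitive set with base point `x₀` are functions on `Γ / H`
invariant under the stabiliser of `x₀`. -/
noncomputable def equivariantEquiv (s : Γ →* Equiv.Perm X) (x₀ : X) (hs : ∀ x, ∃ g, s g x₀ = x)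
    (τ : Γ → W → W) (h1 : ∀ w, τ 1 w = w) (h2 : ∀ g h w, τ (g * h) w = τ g (τ h w))
    (H : Subgroup Γ) :
    {f : X → W // ∀ (h : H) x, f (s h x) = τ h (f x)} ≃
      {F : Γ ⧸ H → W // ∀ g, s g x₀ = x₀ → ∀ x, τ g (F (g⁻¹ • x)) = F x} := by
  have hF : ∀ f : {f : X → W // ∀ (h : H) x, f (s h x) = τ h (f x)}, ∀ g : Γ,
      τ (g : Γ ⧸ H).out (f.1 (s (g : Γ ⧸ H).out⁻¹ x₀)) = τ g (f.1 (s g⁻¹ x₀)) := by
    rintro ⟨f, hf⟩ g
    obtain ⟨h, hh⟩ := QuotientGroup.mk_out_eq_mul H g
    show τ (g : Γ ⧸ H).out (f (s (g : Γ ⧸ H).out⁻¹ x₀)) = τ g (f (s g⁻¹ x₀))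
    rw [hh, mul_inv_rev, map_mul, Equiv.Perm.mul_apply]
    have := hf h⁻¹ (s g⁻¹ x₀)
    rw [Subgroup.coe_inv] at this
    rw [this, h2, ← h2 (h : Γ), mul_inv_cancel, h1]
  have hτ : ∀ F : {F : Γ ⧸ H → W // ∀ g, s g x₀ = x₀ → ∀ x, τ g (F (g⁻¹ • x)) = F x}, ∀ g g' : Γ,
      s g x₀ = s g' x₀ → τ g (F.1 ((g⁻¹ : Γ) : Γ ⧸ H)) = τ g' (F.1 ((g'⁻¹ : Γ) : Γ ⧸ H)) := by
    rintro ⟨F, hF'⟩ g g' hgg'
    have h3 : s (g⁻¹ * g') x₀ = x₀ := by
      rw [map_mul, Equiv.Perm.mul_apply, ← hgg', ← Equiv.Perm.mul_apply, ← map_mul,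
        inv_mul_cancel, map_one, Equiv.Perm.one_apply]
    have h4 := hF' _ h3 ((g⁻¹ : Γ) : Γ ⧸ H)
    show τ g (F _) = τ g' (F _)
    rw [← h4, ← h2]
    congr 2
    · group
    · rw [MulAction.Quotient.smul_mk]
      congr 1
      simp
  exact
  { toFun := fun f => ⟨fun x => τ x.out (f.1 (s x.out⁻¹ x₀)), by
      intro g hg x
      induction x using QuotientGroup.induction_on with
      | H a =>
      rw [MulAction.Quotient.smul_coe]
      beta_reduce
      rw [hF, hF, smul_eq_mul, mul_inv_rev, inv_inv, map_mul,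
        Equiv.Perm.mul_apply, hg, ← h2, mul_inv_cancel_left]⟩
    invFun := fun F => ⟨fun x => τ (hs x).choose (F.1 ((hs x).choose⁻¹ : Γ)), by
      intro h x
      have h3 := (hs x).choose_spec
      have h4 := (hs (s h x)).choose_spec
      show τ (hs (s h x)).choose (F.1 ((hs (s h x)).choose⁻¹ : Γ)) =
        τ h (τ (hs x).choose (F.1 ((hs x).choose⁻¹ : Γ)))
      rw [hτ F (hs (s h x)).choose (h * (hs x).choose) (by rw [h4, map_mul, Equiv.Perm.mul_apply, h3]),
        h2, mul_inv_rev]
      congr 3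
      rw [QuotientGroup.mk_mul_of_mem _ (inv_mem h.2)]⟩
    left_inv := fun f => by
      refine Subtype.ext (funext fun x => ?_)
      have h3 := (hs x).choose_spec
      show τ (hs x).choose (τ (((hs x).choose⁻¹ : Γ) : Γ ⧸ H).out
        (f.1 (s (((hs x).choose⁻¹ : Γ) : Γ ⧸ H).out⁻¹ x₀))) = f.1 x
      rw [hF, ← h2, mul_inv_cancel, h1, inv_inv, h3]
    right_inv := fun F => by
      refine Subtype.ext (funext fun x => ?_)
      have h3 := (hs (s x.out⁻¹ x₀)).choose_spec
      show τ x.out (τ (hs (s x.out⁻¹ x₀)).choose (F.1 ((hs (s x.out⁻¹ x₀)).choose⁻¹ : Γ))) = F.1 x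
      rw [hτ F _ _ h3, ← h2, mul_inv_cancel, h1, inv_inv, QuotientGroup.out_eq'] }

end Abstract

section Places

variable (E : IntermediateField ℚ Qb) [FiniteDimensional ℚ E] [Normal ℚ E]

/-- the infinite place of `E` given by `complexEmbedding` -/
noncomputable def infBase : InfinitePlace E :=
  InfinitePlace.mk ((complexEmbedding : Qb →+* ℂ).comp (algebraMap E Qb))

omit [FiniteDimensional ℚ E] in
theorem complexEmbedding_resE (x : E) :
    complexEmbedding ((resE E complexConjugation x : E) : Qb) =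
      starRingEnd ℂ (complexEmbedding (x : Qb)) := by
  rw [coe_resE_apply, complexEmbedding_complexConjugation]

omit [FiniteDimensional ℚ E] in
theorem isGalois_E : IsGalois ℚ E := by
  have : Algebra.IsSeparable ℚ E := inferInstance
  exact ⟨⟩

omit [FiniteDimensional ℚ E] in
theorem exists_smul_infBase (w : InfinitePlace E) : ∃ g : E ≃ₐ[ℚ] E, g • infBase E = w := by
  have := isGalois_E E
  exact InfinitePlace.exists_smul_eq_of_comap_eq (Subsingleton.elim _ _)

omit [FiniteDimensional ℚ E] in
theorem smul_infBase_iff (g : E ≃ₐ[ℚ] E) :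
    g • infBase E = infBase E ↔ g = 1 ∨ g = resE E complexConjugation := by
  have h1 := InfinitePlace.mem_stabilizer_mk_iff ((complexEmbedding : Qb →+* ℂ).comp
    (algebraMap E Qb)) g
  rw [MulAction.mem_stabilizer_iff] at h1
  rw [infBase, h1]
  have hc : ComplexEmbedding.IsConj ((complexEmbedding : Qb →+* ℂ).comp (algebraMap E Qb))
      (resE E complexConjugation) := by
    refine RingHom.ext fun x => ?_
    exact (complexEmbedding_resE E x).symm
  rw [eq_comm (a := g) (b := resE E complexConjugation), hc.ext_iff]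

variable {E} {V : Type} [AddCommGroup V] {p : ℕ} [hp : Fact p.Prime] [Module (ZMod p) V]

omit [FiniteDimensional ℚ E] in
theorem mem_ker_funRep_conj (σ : Representation (ZMod p) (E ≃ₐ[ℚ] E) V)
    {χE : (E ≃ₐ[ℚ] E) →* (ZMod p)ˣ} (hχ : χE.comp (resE E) = ExtCitation.cycloChar p)
    (H : Subgroup (E ≃ₐ[ℚ] E)) (F : (E ≃ₐ[ℚ] E) ⧸ H → Dual (ZMod p) V) :
    F ∈ LinearMap.ker (funRep (permH E H) (dtw (σ.comp (resE E)) (ExtCitation.cycloChar p))
      complexConjugation - 1) ↔
    ∀ g, g • infBase E = infBase E → ∀ x, dtw σ χE g (F (g⁻¹ • x)) = F x := by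
  rw [LinearMap.mem_ker, LinearMap.sub_apply, sub_eq_zero, Module.End.one_apply, ← hχ, ← dtw_comp]
  constructor
  · intro h g hg x
    rcases (smul_infBase_iff E g).1 hg with rfl | rfl
    · rw [map_one, inv_one, one_smul]
      rfl
    · exact congrFun h x
  · intro h
    funext x
    exact h (resE E complexConjugation) ((smul_infBase_iff E _).2 (Or.inr rfl)) x

/-- `H`-equivariant functions on the infinite places of `E` are counted by the invariants of
complex conjugation. -/
theorem card_infPlaces [FiniteDimensional (ZMod p) V] (σ : Representation (ZMod p) (E ≃ₐ[ℚ] E) V)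
    {χE : (E ≃ₐ[ℚ] E) →* (ZMod p)ˣ} (hχ : χE.comp (resE E) = ExtCitation.cycloChar p)
    (H : Subgroup (E ≃ₐ[ℚ] E)) :
    Nat.card {f : InfinitePlace E → Dual (ZMod p) V //
      ∀ (h : H) w, f (permInf H.subtype h w) = pAct σ χE H h (f w)} =
    p ^ finrank (ZMod p) (LinearMap.ker (funRep (permH E H)
      (dtw (σ.comp (resE E)) (ExtCitation.cycloChar p)) complexConjugation - 1)) := by
  have h1 := Nat.card_congr (equivariantEquiv
    (MulAction.toPermHom (E ≃ₐ[ℚ] E) (InfinitePlace E)) (infBase E)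
    (fun w => exists_smul_infBase E w) (fun g φ => dtw σ χE g φ)
    (fun φ => by rw [map_one]; rfl) (fun g h φ => by rw [map_mul]; rfl) H)
  have h2 : Nat.card {F : (E ≃ₐ[ℚ] E) ⧸ H → Dual (ZMod p) V // ∀ g,
      MulAction.toPermHom (E ≃ₐ[ℚ] E) (InfinitePlace E) g (infBase E) = infBase E →
        ∀ x, dtw σ χE g (F (g⁻¹ • x)) = F x} =
      Nat.card (LinearMap.ker (funRep (permH E H)
      (dtw (σ.comp (resE E)) (ExtCitation.cycloChar p)) complexConjugation - 1)) :=
    Nat.card_congr (Equiv.subtypeEquivRight fun F => (mem_ker_funRep_conj σ hχ H F).symm)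
  have h3 := Module.natCard_eq_pow_finrank (K := ZMod p) (V := LinearMap.ker (funRep (permH E H)
      (dtw (σ.comp (resE E)) (ExtCitation.cycloChar p)) complexConjugation - 1))
  rw [Nat.card_zmod] at h3
  rw [← h3, ← h2, ← h1]
  rfl

/-- `χ(c) = -1` -/
theorem cycloChar_complexConjugation : ((ExtCitation.cycloChar p complexConjugation : (ZMod p)ˣ) :
    ZMod p) = -1 := by
  have : NeZero p := ⟨(Fact.out : p.Prime).ne_zero⟩
  have : NeZero (p : Qb) := ⟨Nat.cast_ne_zero.mpr (Fact.out : p.Prime).ne_zero⟩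
  obtain ⟨ζ, hζ⟩ := HasEnoughRootsOfUnity.exists_primitiveRoot Qb p
  have h2 := modularCyclotomicCharacter.spec Qb (ExtCitation.card_rootsOfUnity_eq_self p)
      (complexConjugation : Qb ≃+* Qb) (t := hζ.toRootsOfUnity.1) hζ.toRootsOfUnity.2
  have h3 : complexConjugation ζ = ζ ^ ((ExtCitation.cycloChar p complexConjugation : ZMod p)).val :=
    h2
  set a := ((ExtCitation.cycloChar p complexConjugation : (ZMod p)ˣ) : ZMod p) with ha
  have h4 : complexConjugation ζ * ζ = 1 := by
    apply complexEmbedding.injective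
    show complexEmbedding (complexConjugation ζ * ζ) = complexEmbedding 1
    rw [map_mul, complexEmbedding_complexConjugation, map_one, mul_comm, Complex.mul_conj,
      Complex.normSq_eq_norm_sq]
    have h5 : ‖complexEmbedding ζ‖ = 1 := by
      apply Complex.norm_eq_one_of_pow_eq_one (n := p) _ hp.out.ne_zero
      rw [← map_pow, hζ.pow_eq_one, map_one]
    rw [h5]
    norm_num
  rw [h3, ← pow_succ, hζ.pow_eq_one_iff_dvd] at h4
  rw [← (ZMod.natCast_eq_zero_iff _ _), Nat.cast_add, ZMod.natCast_zmod_val, Nat.cast_one] at h4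
  exact eq_neg_of_add_eq_zero_left h4

end Places

section Dual

variable {k : Type} [Field k] {G : Type} [Group G] {V : Type} [AddCommGroup V] [Module k V]
  [FiniteDimensional k V] {X : Type} [Finite X]

omit [FiniteDimensional k V] [Finite X] in
/-- An involution in odd characteristic. -/
theorem finrank_involution {M : Type} [AddCommGroup M] [Module k M] [FiniteDimensional k M]
    (h2 : (2 : k) ≠ 0) (A : M →ₗ[k] M) (hA : A * A = 1) :
    LinearMap.ker (A - 1) = LinearMap.range (A + 1) := by
  ext m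
  rw [LinearMap.mem_ker, LinearMap.mem_range]
  constructor
  · intro h
    rw [LinearMap.sub_apply, Module.End.one_apply, sub_eq_zero] at h
    refine ⟨(2 : k)⁻¹ • m, ?_⟩
    rw [map_smul, LinearMap.add_apply, h, Module.End.one_apply, ← two_smul k m, smul_smul,
      inv_mul_cancel₀ h2, one_smul]
  · rintro ⟨m, rfl⟩
    have h1 : A (A m) = m := LinearMap.congr_fun hA m
    rw [LinearMap.sub_apply, LinearMap.add_apply, Module.End.one_apply, Module.End.one_apply,
      map_add, h1]
    abel

theorem finrank_add_finrank_dtw (h2 : (2 : k) ≠ 0) (π : G →* Equiv.Perm X)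
    (ρ : Representation k G V) (χ : G →* kˣ) (c : G) (hc : c * c = 1) (hχ : (χ c : k) = -1) :
    finrank k (LinearMap.ker (funRep π (dtw ρ χ) c - 1)) +
      finrank k (LinearMap.ker (funRep π ρ c - 1)) = finrank k (X → V) := by
  classical
  have := Fintype.ofFinite X
  have hinv : c⁻¹ = c := inv_eq_of_mul_eq_one_right hc
  set A := funRep π ρ c with hA
  have hAA : A * A = 1 := by rw [hA, ← map_mul, hc, map_one]
  rw [finrank_involution h2 A hAA]
  let e : (X → Dual k V) ≃ₗ[k] Dual k (X → V) := LinearMap.lsum k (fun _ => V) k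
  have he : ∀ F f, e F f = ∑ x, F x (f x) := fun F f => by
    simp [e, LinearMap.lsum_apply]
  have h3 : LinearMap.ker (funRep π (dtw ρ χ) c - 1) =
      (LinearMap.range (A + 1)).dualAnnihilator.comap e.toLinearMap := by
    ext F
    have hadj : ∀ f, e (funRep π (dtw ρ χ) c F) f = - e F (A f) := fun f => by
      rw [he, he, ← Finset.sum_neg_distrib]
      refine Finset.sum_bijective ((π c)⁻¹ : Equiv.Perm X) (Equiv.bijective _) (by simp)
        fun x _ => ?_
      rw [funRep_apply, dtw_apply_apply, hχ, hinv, hA, funRep_apply]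
      have h4 : (π c)⁻¹ ((π c)⁻¹ x) = x := by
        rw [← Equiv.Perm.mul_apply, ← mul_inv_rev, ← map_mul, hc, map_one, inv_one,
          Equiv.Perm.one_apply]
      rw [h4]
      ring
    rw [LinearMap.mem_ker, LinearMap.sub_apply, Module.End.one_apply, sub_eq_zero,
      Submodule.mem_comap, Submodule.mem_dualAnnihilator]
    constructor
    · rintro h _ ⟨f, rfl⟩
      show e F ((A + 1) f) = 0
      rw [LinearMap.add_apply, Module.End.one_apply, map_add]
      have h5 := hadj f
      rw [h] at h5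
      rw [h5]
      ring
    · intro h
      apply e.injective
      refine LinearMap.ext fun f => ?_
      have h5 := h _ ⟨f, rfl⟩
      change e F ((A + 1) f) = 0 at h5
      rw [LinearMap.add_apply, Module.End.one_apply, map_add] at h5
      rw [hadj, eq_comm, ← add_eq_zero_iff_eq_neg, add_comm]
      exact h5
  rw [h3]
  have h4 : finrank k ((LinearMap.range (A + 1)).dualAnnihilator.comap e.toLinearMap : Submodule k _) =
      finrank k (LinearMap.range (A + 1)).dualAnnihilator := by
    have h5 := Submodule.map_comap_eq_of_surjective (f := e.toLinearMap) e.surjective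
      (LinearMap.range (A + 1)).dualAnnihilator
    conv_rhs => rw [← h5]
    exact (LinearEquiv.finrank_eq (e.submoduleMap _))
  rw [h4, add_comm, Subspace.finrank_add_finrank_dualAnnihilator_eq]

end Dual

end Fermat.Agent.CFT.EC
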