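import Fermat.Agent.CFT.EC.Ram
import Fermat.Agent.CFT.EC.EHomTor
import Fermat.Agent.CFT.EC.EHomInv
import Fermat.Agent.CFT.EC.InfPlaces
import Fermat.Agent.CFT.LC.EqHEquiv

/-!
# The index inequality with coefficients
-/

set_option autoImplicit false
set_option linter.unusedSectionVars false

open NumberField IsDedekindDomain Module Pointwise
open Fermat.Agent.FrobExists Fermat.Agent.CFT.W ExtCitation

namespace Fermat.Agent.CFT.EC

open Fermat.Agent.CFT.LC Fermat.Agent.CFT.D2 Fermat.Agent.CFT.SUH Fermat.Agent.CFT.SUnits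

local notation "Qb" => AlgebraicClosure ℚ

section split

variable {E : IntermediateField ℚ Qb} [FiniteDimensional ℚ E]
  {Δ : Type*} [Group Δ] (r : Δ →* (E ≃ₐ[ℚ] E)) {P : Type*} (ρP : Δ → P → P)
  {A B : Set (HeightOneSpectrum (𝓞 E))}

theorem mem_of_act_mem (hA : ∀ g, ∀ v ∈ A, act (r g) v ∈ A) {g : Δ}
    {v : HeightOneSpectrum (𝓞 E)} (h : act (r g) v ∈ A) : v ∈ A := by
  have h1 := hA g⁻¹ _ h
  rwa [act_act', ← map_mul, inv_mul_cancel, map_one, act_one'] at h1

theorem stable_sdiff (hA : ∀ g, ∀ v ∈ A, act (r g) v ∈ A) (hB : ∀ g, ∀ v ∈ B, act (r g) v ∈ B) :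
    ∀ g, ∀ v ∈ B \ A, act (r g) v ∈ B \ A :=
  fun g v hv => ⟨hB g v hv.1, fun h => hv.2 (mem_of_act_mem r hA h)⟩

open Classical in
/-- glueing functions on `A` and on `B ∖ A` -/
noncomputable def glueFun (f : A → P) (f' : ↥(B \ A) → P) (v : B) : P :=
  if h : v.1 ∈ A then f ⟨v.1, h⟩ else f' ⟨v.1, ⟨v.2, h⟩⟩

theorem glueFun_mem (f : A → P) (f' : ↥(B \ A) → P) {v : B} (h : v.1 ∈ A) :
    glueFun f f' v = f ⟨v.1, h⟩ := dif_pos h

theorem glueFun_notMem (f : A → P) (f' : ↥(B \ A) → P) {v : B} (h : v.1 ∉ A) :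
    glueFun f f' v = f' ⟨v.1, ⟨v.2, h⟩⟩ := dif_neg h

/-- Equivariant functions on a union of stable sets of places. -/
theorem card_equivariant_split (hAB : A ⊆ B) (hA : ∀ g, ∀ v ∈ A, act (r g) v ∈ A)
    (hB : ∀ g, ∀ v ∈ B, act (r g) v ∈ B) :
    Nat.card {f : B → P // ∀ g v, f (permT r B hB g v) = ρP g (f v)} =
      Nat.card {f : A → P // ∀ g v, f (permT r A hA g v) = ρP g (f v)} *
      Nat.card {f : ↥(B \ A) → P // ∀ g v, f (permT r (B \ A) (stable_sdiff r hA hB) g v) =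
        ρP g (f v)} := by
  rw [← Nat.card_prod]
  refine Nat.card_congr
    { toFun := fun f => (⟨fun v => f.1 ⟨v.1, hAB v.2⟩, fun g v => f.2 g ⟨v.1, hAB v.2⟩⟩,
        ⟨fun v => f.1 ⟨v.1, v.2.1⟩, fun g v => f.2 g ⟨v.1, v.2.1⟩⟩)
      invFun := fun F => ⟨glueFun F.1.1 F.2.1, fun g v => ?_⟩
      left_inv := fun f => ?_
      right_inv := fun F => ?_ }
  · by_cases h : v.1 ∈ A
    · have h' : (permT r B hB g v).1 ∈ A := hA g v.1 h
      rw [glueFun_mem _ _ h, glueFun_mem _ _ h']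
      exact F.1.2 g ⟨v.1, h⟩
    · have h' : (permT r B hB g v).1 ∉ A := fun h'' => h (mem_of_act_mem r hA h'')
      rw [glueFun_notMem _ _ h, glueFun_notMem _ _ h']
      exact F.2.2 g ⟨v.1, ⟨v.2, h⟩⟩
  · apply Subtype.ext
    funext v
    by_cases h : v.1 ∈ A
    · exact glueFun_mem _ _ h
    · exact glueFun_notMem _ _ h
  · refine Prod.ext (Subtype.ext (funext fun v => ?_)) (Subtype.ext (funext fun v => ?_))
    · exact glueFun_mem F.1.1 F.2.1 (v := ⟨v.1, hAB v.2⟩) v.2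
    · exact glueFun_notMem F.1.1 F.2.1 (v := ⟨v.1, v.2.1⟩) v.2.2

end split

section EqJ

variable {p : ℕ} [hp : Fact p.Prime] {S T : Finset Nat.Primes}
  {E : IntermediateField ℚ Qb} [FiniteDimensional ℚ E] [Normal ℚ E] {ζ : Qbˣ}
  {V : Type} [AddCommGroup V] [Module (ZMod p) V]
  (σ : Representation (ZMod p) (E ≃ₐ[ℚ] E) V) (χE : (E ≃ₐ[ℚ] E) →* (ZMod p)ˣ)
  (hχ : χE.comp (resE E) = cycloChar p) (H : Subgroup (E ≃ₐ[ℚ] E))

variable (S T) in
/-- equivariant maps to functions on the places above `T` and not `S` -/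
def EqJ : Submodule (ZMod p) (Dual (ZMod p) V →ₗ[ZMod p] (Jset S T E → ZMod p)) where
  carrier := {Ψ | ∀ (g : H) (φ : Dual (ZMod p) V) (v v' : Jset S T E),
    v'.1 = act ((g : E ≃ₐ[ℚ] E)⁻¹) v.1 → Ψ (pAct σ χE H g φ) v = Ψ φ v'}
  zero_mem' := fun _ _ _ _ _ => rfl
  add_mem' := fun {Ψ Ψ'} h h' g φ v v' hv => by
    have h1 := h g φ v v' hv
    have h2 := h' g φ v v' hv
    show Ψ (pAct σ χE H g φ) v + Ψ' (pAct σ χE H g φ) v = Ψ φ v' + Ψ' φ v'
    rw [h1, h2]
  smul_mem' := fun c {Ψ} h g φ v v' hv => by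
    have h1 := h g φ v v' hv
    show c • Ψ (pAct σ χE H g φ) v = c • Ψ φ v'
    rw [h1]

theorem card_EqJ (hJ : ∀ g : H, ∀ v ∈ SL T E \ SL S E,
    act (H.subtype g) v ∈ SL T E \ SL S E) :
    Nat.card (EqJ S T σ χE H) = Nat.card (EHom (pAct σ χE H)
      (permAct (permT H.subtype (SL T E \ SL S E) hJ) (ZMod p))) := by
  refine Nat.card_congr
    { toFun := fun Ψ => ⟨Ψ.1.toAddMonoidHom, fun g φ => funext fun v => ?_⟩
      invFun := fun f => ⟨AddMonoidHom.toZModLinearMap p f.1, fun g φ v v' hv => ?_⟩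
      left_inv := fun Ψ => rfl
      right_inv := fun f => rfl }
  · exact Ψ.2 g φ v _ (by rw [coe_permT_symm, map_inv]; rfl)
  · have h1 := congrFun (f.2 g φ) v
    refine h1.trans ?_
    have h2 : (permT H.subtype (SL T E \ SL S E) hJ g).symm v = v' := by
      apply Subtype.ext
      rw [coe_permT_symm, hv, map_inv]
      rfl
    exact congrArg (f.1 φ) h2

include hχ in
theorem range_Dmap_le (h : Hyp p S E ζ) :
    LinearMap.range (Dmap σ H h T) ≤ EqJ S T σ χE H := by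
  rintro _ ⟨β, rfl⟩
  exact fun g φ v v' hv => Dmap_pAct σ H χE hχ h T β φ g v v' hv

include hχ in
/-- The index inequality. -/
theorem index_ineq_coeff [FiniteDimensional (ZMod p) V] (h : Hyp p S E ζ) (hST : S ⊆ T)
    [FiniteDimensional (ZMod p) (LC.H1 ((σ.comp (resE E)).comp (preim E H).subtype)
      ((unram T).restrict (preim E H)))] (hfin : Finer ((unram S).restrict (preim E H))
        ((unram T).restrict (preim E H))) :
    FiniteDimensional (ZMod p) (LC.H1 ((σ.comp (resE E)).comp (preim E H).subtype)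
      ((unram S).restrict (preim E H))) ∧
    FiniteDimensional (ZMod p) (K2 ((σ.comp (resE E)).comp (preim E H).subtype) hfin) ∧
    finrank (ZMod p) (LC.H1 ((σ.comp (resE E)).comp (preim E H).subtype)
      ((unram T).restrict (preim E H))) +
      finrank (ZMod p) (K2 ((σ.comp (resE E)).comp (preim E H).subtype) hfin) ≤
    finrank (ZMod p) (LC.H1 ((σ.comp (resE E)).comp (preim E H).subtype)
      ((unram S).restrict (preim E H))) + finrank (ZMod p) (EqJ S T σ χE H) := by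
  have hopen : (unram S).IsOpen E.fixingSubgroup := h.isOpen
  have hsm : Smooth ((unram S).restrict (preim E H))
      ((σ.comp (resE E)).comp (preim E H).subtype) := by
    obtain ⟨N, hN, hle⟩ := hopen
    intro v
    refine ⟨_, ⟨N, hN, rfl⟩, fun s hs => ?_⟩
    have h1 := comp_resE_eq_one σ (s : GQ) (hle hs)
    show (σ.comp (resE E)) (s : GQ) v = v
    rw [h1]
    rfl
  obtain ⟨f1, f2, h1⟩ := index_aux _ hfin hsm (Dmap σ H h T)
    (fun β => Dmap_eq_zero_iff σ H h hST β)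
  refine ⟨f1, f2, ?_⟩
  have h2 := Submodule.finrank_mono (range_Dmap_le σ χE hχ H (T := T) h)
  omega

end EqJ

end Fermat.Agent.CFT.EC
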