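import Fermat.Agent.CFT.EC.InfPlaces
import Fermat.Agent.CFT.W.QS
import Fermat.Agent.CFT.W.Orbits
import Fermat.Prelude.Def_ExtEndgame_ProductionDatum

/-!
# Finite places of a normal field as coset spaces of decomposition groups

* `act_pl`: the action of `G_ℚ` on the places above `q`;
* `card_above`: `H`-equivariant functions on the places above `q` are counted by the local
  invariants of `Fun(Γ / H, V^*(χ))`;
* `card_SL`: the same for all the places above `S`.
-/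

set_option autoImplicit false

open NumberField IsDedekindDomain Module
open Fermat.Agent.FrobExists Fermat.Agent.CFT.W

namespace Fermat.Agent.CFT.EC

open Fermat.Agent.CFT.LC Fermat.Agent.CFT.W Fermat.Agent.CFT.PT Fermat.Agent.CFT.SUH

local notation "Qb" => AlgebraicClosure ℚ

variable (E : IntermediateField ℚ Qb) [FiniteDimensional ℚ E] [Normal ℚ E]

theorem act_pl (q : ℕ) [Fact q.Prime] (g h : GQ) :
    act (resE E g) (pl (emb q E h)) = pl (emb q E (h * g⁻¹)) := by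
  ext x
  rw [mem_pl]
  have h1 : ((act (resE E g) (pl (emb q E h))).asIdeal : Ideal (𝓞 E)) =
    (pl (emb q E h)).asIdeal.comap
      (RingOfIntegers.mapRingEquiv (resE E g).toRingEquiv).symm := rfl
  rw [h1, Ideal.mem_comap, mem_pl]
  have h2 : ((((RingOfIntegers.mapRingEquiv (resE E g).toRingEquiv).symm : 𝓞 E →+* 𝓞 E) x : E) : Qb) =
      g⁻¹ ((x : E) : Qb) := by
    have h3 : (((RingOfIntegers.mapRingEquiv (resE E g).toRingEquiv).symm : 𝓞 E →+* 𝓞 E) x : E) =
      resE E g⁻¹ (x : E) := by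
      rw [map_inv]
      rfl
    rw [h3, coe_resE_apply]
  rw [emb_apply, emb_apply, AlgEquiv.mul_apply]
  erw [h2]

/-- The places of `E` above `q`. -/
def aboveSet (q : ℕ) : Set (HeightOneSpectrum (𝓞 E)) := {v | (q : 𝓞 E) ∈ v.asIdeal}

omit [FiniteDimensional ℚ E] [Normal ℚ E] in
theorem natCast_mem_act (q : ℕ) (g : E ≃ₐ[ℚ] E) (v : HeightOneSpectrum (𝓞 E))
    (hv : (q : 𝓞 E) ∈ v.asIdeal) : (q : 𝓞 E) ∈ (act g v).asIdeal := by
  have h1 : ((act g v).asIdeal : Ideal (𝓞 E)) =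
    v.asIdeal.comap (RingOfIntegers.mapRingEquiv g.toRingEquiv).symm := rfl
  rw [h1, Ideal.mem_comap, map_natCast]
  exact hv

omit [FiniteDimensional ℚ E] [Normal ℚ E] in
theorem act_mem_aboveSet (q : ℕ) (g : E ≃ₐ[ℚ] E) : ∀ v ∈ aboveSet E q, act g v ∈ aboveSet E q :=
  fun v hv => natCast_mem_act E q g v hv

omit [Normal ℚ E] in
theorem act_mem_SL (S : Finset Nat.Primes) (H : Subgroup (E ≃ₐ[ℚ] E)) :
    ∀ g : H, ∀ v ∈ SL S E, act (H.subtype g) v ∈ SL S E := by
  rintro g v ⟨q, hq, hv⟩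
  exact ⟨q, hq, natCast_mem_act E q g.1 v hv⟩

/-- the base place above `q` -/
noncomputable def basePl (q : ℕ) [Fact q.Prime] : aboveSet E q :=
  ⟨pl (emb q E 1), natCast_mem_pl _⟩

theorem act_basePl (q : ℕ) [Fact q.Prime] (g : GQ) :
    act (resE E g) (basePl E q).1 = pl (emb q E g⁻¹) := by
  rw [basePl, act_pl, one_mul]

theorem exists_act_basePl (q : ℕ) [Fact q.Prime] (v : aboveSet E q) :
    ∃ g : E ≃ₐ[ℚ] E, permT (MonoidHom.id (E ≃ₐ[ℚ] E)) (aboveSet E q)
      (fun g v hv => act_mem_aboveSet E q g v hv) g (basePl E q) = v := by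
  obtain ⟨g, hg⟩ := exists_pl_emb_eq q E v.1 v.2
  refine ⟨resE E g⁻¹, Subtype.ext ?_⟩
  rw [coe_permT, MonoidHom.id_apply, act_basePl, inv_inv, hg]

theorem act_basePl_eq_iff (q : ℕ) [Fact q.Prime] (g : E ≃ₐ[ℚ] E) :
    act g (basePl E q).1 = (basePl E q).1 ↔ ∃ τ : Gq q, resE E (localGaloisToGlobal q τ) = g := by
  obtain ⟨g, rfl⟩ := resE_surjective E g
  rw [act_basePl, basePl, pl_emb_eq_iff]
  constructor
  · rintro ⟨τ, u, hu, h⟩
    refine ⟨τ⁻¹⁻¹, ?_⟩
    rw [← ker_resE, MonoidHom.mem_ker] at hu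
    have h1 := congrArg (resE E) h
    rw [map_mul, map_mul, hu, mul_one, map_one, map_inv, eq_mul_inv_iff_mul_eq, one_mul] at h1
    rw [inv_inv]
    exact h1.symm
  · rintro ⟨τ, hτ⟩
    refine ⟨τ, (localGaloisToGlobal q τ * g⁻¹)⁻¹, ?_, by group⟩
    rw [← ker_resE, MonoidHom.mem_ker, map_inv, map_mul, map_inv, hτ, mul_inv_cancel, inv_one]

variable {E} {V : Type} [AddCommGroup V] {p : ℕ} [hp : Fact p.Prime] [Module (ZMod p) V]

theorem mem_H0_funRep_loc (q : ℕ) [Fact q.Prime] (σ : Representation (ZMod p) (E ≃ₐ[ℚ] E) V)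
    {χE : (E ≃ₐ[ℚ] E) →* (ZMod p)ˣ} (hχ : χE.comp (resE E) = ExtCitation.cycloChar p)
    (H : Subgroup (E ≃ₐ[ℚ] E)) (F : (E ≃ₐ[ℚ] E) ⧸ H → Dual (ZMod p) V) :
    F ∈ H0 ((funRep (permH E H) (dtw (σ.comp (resE E)) (ExtCitation.cycloChar p))).comp
      (localGaloisToGlobal q)) ↔
    ∀ g, act g (basePl E q).1 = (basePl E q).1 → ∀ x, dtw σ χE g (F (g⁻¹ • x)) = F x := by
  rw [mem_H0, ← hχ, ← dtw_comp]
  constructor
  · intro h g hg x
    obtain ⟨τ, rfl⟩ := (act_basePl_eq_iff E q g).1 hg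
    exact congrFun (h τ) x
  · intro h τ
    funext x
    exact h _ ((act_basePl_eq_iff E q _).2 ⟨τ, rfl⟩) x

/-- `H`-equivariant functions on the places of `E` above `q` are counted by the local invariants. -/
theorem card_above [FiniteDimensional (ZMod p) V] (q : ℕ) [Fact q.Prime]
    (σ : Representation (ZMod p) (E ≃ₐ[ℚ] E) V)
    {χE : (E ≃ₐ[ℚ] E) →* (ZMod p)ˣ} (hχ : χE.comp (resE E) = ExtCitation.cycloChar p)
    (H : Subgroup (E ≃ₐ[ℚ] E)) :
    Nat.card {f : aboveSet E q → Dual (ZMod p) V //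
      ∀ (h : H) v, f (permT H.subtype (aboveSet E q)
        (fun g v hv => act_mem_aboveSet E q g.1 v hv) h v) = pAct σ χE H h (f v)} =
    p ^ finrank (ZMod p) (H0 ((funRep (permH E H)
      (dtw (σ.comp (resE E)) (ExtCitation.cycloChar p))).comp (localGaloisToGlobal q))) := by
  have h1 := Nat.card_congr (equivariantEquiv
    (permT (MonoidHom.id (E ≃ₐ[ℚ] E)) (aboveSet E q)
      (fun g v hv => act_mem_aboveSet E q g v hv)) (basePl E q)
    (fun w => exists_act_basePl E q w) (fun g φ => dtw σ χE g φ)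
    (fun φ => by rw [map_one]; rfl) (fun g h φ => by rw [map_mul]; rfl) H)
  have h2 : Nat.card {F : (E ≃ₐ[ℚ] E) ⧸ H → Dual (ZMod p) V // ∀ g,
      permT (MonoidHom.id (E ≃ₐ[ℚ] E)) (aboveSet E q)
        (fun g v hv => act_mem_aboveSet E q g v hv) g (basePl E q) = basePl E q →
        ∀ x, dtw σ χE g (F (g⁻¹ • x)) = F x} =
      Nat.card (H0 ((funRep (permH E H)
      (dtw (σ.comp (resE E)) (ExtCitation.cycloChar p))).comp (localGaloisToGlobal q))) := by
    refine Nat.card_congr (Equiv.subtypeEquivRight fun F => ?_)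
    rw [mem_H0_funRep_loc q σ hχ H F]
    refine forall_congr' fun g => ?_
    rw [Subtype.ext_iff]
    rfl
  have h3 := Module.natCard_eq_pow_finrank (K := ZMod p) (V := H0 ((funRep (permH E H)
      (dtw (σ.comp (resE E)) (ExtCitation.cycloChar p))).comp (localGaloisToGlobal q)))
  rw [Nat.card_zmod] at h3
  rw [← h3, ← h2, ← h1]
  rfl

/-- Equivariant functions on the places above `S`, one residue prime at a time. -/
noncomputable def slEquiv {W : Type} (S : Finset Nat.Primes) (H : Subgroup (E ≃ₐ[ℚ] E))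
    (a : H → W → W) :
    {f : SL S E → W // ∀ (h : H) v, f (permT H.subtype (SL S E) (act_mem_SL E S H) h v) =
      a h (f v)} ≃
    ∀ q : ↥S, {f : aboveSet E (q.1 : ℕ) → W // ∀ (h : H) v,
      f (permT H.subtype (aboveSet E (q.1 : ℕ))
        (fun g v hv => act_mem_aboveSet E (q.1 : ℕ) g.1 v hv) h v) = a h (f v)} := by
  have key : ∀ (F : ∀ q : ↥S, aboveSet E (q.1 : ℕ) → W) (v : HeightOneSpectrum (𝓞 E))
      (q q' : ↥S) (h : ((q.1 : ℕ) : 𝓞 E) ∈ v.asIdeal) (h' : ((q'.1 : ℕ) : 𝓞 E) ∈ v.asIdeal),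
      F q ⟨v, h⟩ = F q' ⟨v, h'⟩ := by
    intro F v q q' h h'
    obtain rfl : q = q' := Subtype.ext (Subtype.ext (prime_unique q.1.2 q'.1.2 h h'))
    rfl
  exact
  { toFun := fun f q => ⟨fun v => f.1 ⟨v.1, q.1, q.2, v.2⟩, fun h v => f.2 h ⟨v.1, q.1, q.2, v.2⟩⟩
    invFun := fun F => ⟨fun v => (F ⟨v.2.choose, v.2.choose_spec.1⟩).1 ⟨v.1, v.2.choose_spec.2⟩,
      fun h v => by
        rw [← (F ⟨v.2.choose, v.2.choose_spec.1⟩).2 h]
        exact key (fun q => (F q).1) _ _ _ _ _⟩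
    left_inv := fun f => rfl
    right_inv := fun F => by
      funext q
      refine Subtype.ext (funext fun v => ?_)
      exact key (fun q => (F q).1) v.1 _ q _ v.2 }

/-- `H`-equivariant functions on the places of `E` above `S` are counted by the local
invariants. -/
theorem card_SL [FiniteDimensional (ZMod p) V] (S : Finset Nat.Primes)
    (σ : Representation (ZMod p) (E ≃ₐ[ℚ] E) V)
    {χE : (E ≃ₐ[ℚ] E) →* (ZMod p)ˣ} (hχ : χE.comp (resE E) = ExtCitation.cycloChar p)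
    (H : Subgroup (E ≃ₐ[ℚ] E)) :
    Nat.card {f : SL S E → Dual (ZMod p) V // ∀ (h : H) v,
      f (permT H.subtype (SL S E) (act_mem_SL E S H) h v) = pAct σ χE H h (f v)} =
    p ^ ∑ q : ↥S, finrank (ZMod p) (H0 ((funRep (permH E H)
      (dtw (σ.comp (resE E)) (ExtCitation.cycloChar p))).comp (ExtCitation.primeLocalToGlobal q.1))) := by
  rw [Nat.card_congr (slEquiv S H fun h φ => pAct σ χE H h φ), Nat.card_pi,
    ← Finset.prod_pow_eq_pow_sum]
  refine Finset.prod_congr rfl fun q _ => ?_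
  have : Fact (q.1 : ℕ).Prime := ⟨q.1.2⟩
  exact card_above (q.1 : ℕ) σ hχ H

end Fermat.Agent.CFT.EC
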