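import Fermat.Agent.CFT.EC.Index
import Fermat.Agent.CFT.EC.Places
import Fermat.Agent.CFT.D2.HG3

/-!
# The Euler characteristic inequality for `Fun(Γ/H, V)`, `p ∤ |H|`
-/

set_option autoImplicit false
set_option linter.unusedSectionVars false

open NumberField IsDedekindDomain Module Pointwise
open Fermat.Agent.FrobExists Fermat.Agent.CFT.W ExtCitation

namespace Fermat.Agent.CFT.EC

open Fermat.Agent.CFT.LC Fermat.Agent.CFT.PT Fermat.Agent.CFT.D2 Fermat.Agent.CFT.SUH
  Fermat.Agent.CFT.SUnits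

local notation "Qb" => AlgebraicClosure ℚ

section Sh

variable (E : IntermediateField ℚ Qb) [FiniteDimensional ℚ E] [Normal ℚ E]
  (H : Subgroup (E ≃ₐ[ℚ] E))
variable {k : Type} [Field k] {V : Type} [AddCommGroup V] [Module k V]
  (ρ : Representation k GQ V) (L : Lvl GQ)

/-- Shapiro's morphism for `Gal(E/ℚ) ⧸ H` -/
noncomputable def shH : Mor (funRep (permH E H) ρ) L (ρ.comp (preim E H).subtype)
    (L.restrict (preim E H)) :=
  (Mor.incl ρ L (stab_permH E H).symm.le).comp
    (shMor (permH E H) ρ L ((1 : E ≃ₐ[ℚ] E) : (E ≃ₐ[ℚ] E) ⧸ H))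

theorem permH_trans (x : (E ≃ₐ[ℚ] E) ⧸ H) :
    ∃ g, permH E H g ((1 : E ≃ₐ[ℚ] E) : (E ≃ₐ[ℚ] E) ⧸ H) = x := by
  obtain ⟨γ, rfl⟩ := QuotientGroup.mk_surjective x
  obtain ⟨g, rfl⟩ := resE_surjective E γ
  refine ⟨g, ?_⟩
  show ((resE E g • (1 : E ≃ₐ[ℚ] E) : E ≃ₐ[ℚ] E) : (E ≃ₐ[ℚ] E) ⧸ H) = _
  rw [smul_eq_mul, mul_one]

theorem isOpen_ker_permH {L : Lvl GQ} (hopen : L.IsOpen E.fixingSubgroup) :
    L.IsOpen (permH E H).ker := by
  refine hopen.mono ?_
  rw [← ker_resE]
  intro g hg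
  rw [MonoidHom.mem_ker] at hg ⊢
  rw [MonoidHom.comp_apply, hg, map_one]

theorem shH_bijective_H0 : Function.Bijective (shH E H ρ L).H0 := by
  have h1 := Mor.incl_bijective_H0 (ρ := ρ) (L := L) (stab_permH E H).symm
  exact h1.comp ⟨shapiro_H0_injective (L := L) (permH_trans E H),
    shapiro_H0_surjective (L := L) (permH_trans E H)⟩

theorem shH_bijective_H1 (hopen : L.IsOpen E.fixingSubgroup) :
    Function.Bijective (shH E H ρ L).H1 := by
  have h1 := Mor.incl_bijective_H1 (ρ := ρ) (L := L) (stab_permH E H).symm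
  have h2 : ⇑(shH E H ρ L).H1 = (Mor.incl ρ L (stab_permH E H).symm.le).H1 ∘
      (shMor (permH E H) ρ L ((1 : E ≃ₐ[ℚ] E) : (E ≃ₐ[ℚ] E) ⧸ H)).H1 := by
    funext x
    exact Mor.H1_comp _ _ x
  rw [h2]
  exact h1.comp ⟨shapiro_H1_injective (permH_trans E H),
    shapiro_H1_surjective (isOpen_ker_permH E H hopen) (permH_trans E H)⟩

theorem shH_bijective_H2 (hopen : L.IsOpen E.fixingSubgroup) :
    Function.Bijective (shH E H ρ L).H2 := by
  have h1 := Mor.incl_bijective_H2 (ρ := ρ) (L := L) (stab_permH E H).symm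
  have h2 : ⇑(shH E H ρ L).H2 = (Mor.incl ρ L (stab_permH E H).symm.le).H2 ∘
      (shMor (permH E H) ρ L ((1 : E ≃ₐ[ℚ] E) : (E ≃ₐ[ℚ] E) ⧸ H)).H2 := by
    funext x
    exact Mor.H2_comp _ _ x
  rw [h2]
  exact h1.comp ⟨shapiro_H2_injective (isOpen_ker_permH E H hopen) (permH_trans E H),
    shapiro_H2_surjective (isOpen_ker_permH E H hopen) (permH_trans E H)⟩

end Sh

section K2

variable {p : ℕ} [hp : Fact p.Prime] {S T : Finset Nat.Primes}
  {E : IntermediateField ℚ Qb} [FiniteDimensional ℚ E] [Normal ℚ E] {ζ : Qbˣ}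
  {V : Type} [AddCommGroup V] [Module (ZMod p) V] [FiniteDimensional (ZMod p) V]
  (σ : Representation (ZMod p) (E ≃ₐ[ℚ] E) V) (H : Subgroup (E ≃ₐ[ℚ] E))

theorem relIndex_fixing : E.fixingSubgroup.relIndex (preim E H) = Nat.card H := by
  rw [← ker_resE, Subgroup.relIndex_ker, preim,
    Subgroup.map_comap_eq_self_of_surjective (resE_surjective E)]

theorem isUnit_relIndex (hpH : ¬ p ∣ Nat.card H) :
    IsUnit ((E.fixingSubgroup.relIndex (preim E H) : ℕ) : ZMod p) := by
  rw [relIndex_fixing, isUnit_iff_ne_zero, Ne, ZMod.natCast_eq_zero_iff]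
  exact hpH

/-- the kernels of `H²(G_S) → H²(G_ℚ)` and `H²(G_S) → H²(G_T)` agree for large `T`. -/
theorem K2_eq_coeff (hpH : ¬ p ∣ Nat.card H) (h : Hyp p S E ζ) (hST : S ⊆ T)
    (hcl : ClassTrivial (SL T E))
    (hfQ : Finer ((unram S).restrict (preim E H)) ((krull ℚ Qb).restrict (preim E H)))
    (hfT : Finer ((unram S).restrict (preim E H)) ((unram T).restrict (preim E H))) :
    K2 ((σ.comp (resE E)).comp (preim E H).subtype) hfQ ≤
      K2 ((σ.comp (resE E)).comp (preim E H).subtype) hfT := by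
  intro z hz
  have hopenT : (unram T).IsOpen E.fixingSubgroup := (h.mono hST).isOpen
  have hz' : (cmp ((σ.comp (resE E)).comp (preim E H).subtype) hfQ).H2 z = 0 := hz
  show (cmp ((σ.comp (resE E)).comp (preim E H).subtype) hfT).H2 z = 0
  refine eq_zero_of_funcMor_H2 (σ.comp (resE E)) (unram T) (fixingSubgroup_le_preim E H)
    (fun u _ n hn => conj_mem_fixing u hn) hopenT (isUnit_relIndex H hpH)
    (comp_resE_eq_one σ) _ fun φ => ?_
  have h1 : (funcMor (σ.comp (resE E)) (unram S) (fixingSubgroup_le_preim E H)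
      (comp_resE_eq_one σ) φ).H2 z ∈
      K2 (triv p E.fixingSubgroup) (finer_lS_lQ S E.fixingSubgroup) := by
    show (cmp (triv p E.fixingSubgroup) (finer_lS_lQ S E.fixingSubgroup)).H2 _ = 0
    rw [← Mor.H2_comp]
    have h2 : (funcMor (σ.comp (resE E)) (krull ℚ Qb) (fixingSubgroup_le_preim E H)
      (comp_resE_eq_one σ) φ).H2 ((cmp ((σ.comp (resE E)).comp (preim E H).subtype) hfQ).H2 z)
        = 0 := by rw [hz', map_zero]
    rw [← Mor.H2_comp] at h2
    exact h2
  rw [K2_eq h hST hcl] at h1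
  have h3 : (cmp (triv p E.fixingSubgroup) (finer_lS_lS hST E.fixingSubgroup)).H2
    ((funcMor (σ.comp (resE E)) (unram S) (fixingSubgroup_le_preim E H)
      (comp_resE_eq_one σ) φ).H2 z) = 0 := h1
  rw [← Mor.H2_comp] at h3 ⊢
  exact h3

end K2

section Count

theorem SL_subset {S T : Finset Nat.Primes} {E : IntermediateField ℚ Qb} [FiniteDimensional ℚ E]
    (hST : S ⊆ T) :
    (SL S E : Set (HeightOneSpectrum (𝓞 E))) ⊆ SL T E := by
  rintro v ⟨q, hq, hqv⟩
  exact ⟨q, hST hq, hqv⟩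

variable {p : ℕ} [hp : Fact p.Prime] {S T : Finset Nat.Primes}
  {E : IntermediateField ℚ Qb} [FiniteDimensional ℚ E] [Normal ℚ E] {ζ : Qbˣ}
  {V : Type} [AddCommGroup V] [Module (ZMod p) V] [FiniteDimensional (ZMod p) V]
  (σ : Representation (ZMod p) (E ≃ₐ[ℚ] E) V) (H : Subgroup (E ≃ₐ[ℚ] E))
  (χE : (E ≃ₐ[ℚ] E) →* (ZMod p)ˣ) (hχ : χE.comp (resE E) = cycloChar p)

include hχ in
/-- The dimension of `H¹(G_{E^H, T}, V)` for large `T`. -/
theorem finrank_H1_large (hpH : ¬ p ∣ Nat.card H) (h : Hyp p S E ζ) (hST : S ⊆ T)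
    (hcl : ClassTrivial (SL T E)) :
    FiniteDimensional (ZMod p) (LC.H1 ((σ.comp (resE E)).comp (preim E H).subtype)
      ((unram T).restrict (preim E H))) ∧
    finrank (ZMod p) (LC.H1 ((σ.comp (resE E)).comp (preim E H).subtype)
      ((unram T).restrict (preim E H))) +
    finrank (ZMod p) (LC.H0 ((dtw (σ.comp (resE E)) (cycloChar p)).comp
      (preim E H).subtype)) =
    finrank (ZMod p) (LC.H0 ((σ.comp (resE E)).comp (preim E H).subtype)) +
    (∑ q : ↥S, finrank (ZMod p) (LC.H0 ((funRep (permH E H)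
      (dtw (σ.comp (resE E)) (cycloChar p))).comp (primeLocalToGlobal q.1)))) +
    finrank (ZMod p) (EqJ S T σ χE H) +
    finrank (ZMod p) (LinearMap.ker (funRep (permH E H)
      (dtw (σ.comp (resE E)) (cycloChar p)) complexConjugation - 1)) := by
  have hT : ∀ g : H, ∀ v ∈ SL T E, act (H.subtype g) v ∈ SL T E := act_mem_SL E T H
  have hS : ∀ g : H, ∀ v ∈ SL S E, act (H.subtype g) v ∈ SL S E := act_mem_SL E S H
  have hTo := (h.mono hST).isOpen
  have e := equivEqH (σ.comp (resE E)) (unram T) (fixingSubgroup_le_preim E H)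
    (fun u _ n hn => conj_mem_fixing u hn) hTo (isUnit_relIndex H hpH) (comp_resE_eq_one σ)
  have f0 := finite_EqH σ χE hχ H (h.mono hST) hcl hT
  have f1 : Finite (LC.H1 ((σ.comp (resE E)).comp (preim E H).subtype)
      ((unram T).restrict (preim E H))) := Finite.of_equiv _ e.toEquiv.symm
  have f2 : FiniteDimensional (ZMod p) (LC.H1 ((σ.comp (resE E)).comp (preim E H).subtype)
      ((unram T).restrict (preim E H))) := Module.Finite.of_finite
  have g1 : Finite (Dual (ZMod p) V) := finite_module (p := p) _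
  have g2 : Finite (SL T E) := (finite_SL T E).to_subtype
  have g3 : Finite (Jset S T E) := inferInstance
  have g4 : Finite (Dual (ZMod p) V →ₗ[ZMod p] (Jset S T E → ZMod p)) := finite_module (p := p) _
  have c1 := card_EqH σ χE hχ H (h.mono hST) hcl hT
  rw [← Nat.card_congr e.toEquiv, card_submodule_pow (p := p)] at c1
  have c2 := card_EHom_sunit H.subtype (SL T E) hT hpH (pAct σ χE H)
  rw [← c1, card_EHom_pAct_one σ χE hχ H hpH,
    card_EHom_pAct_tor σ χE hχ H hpH (h.mono hST) (SL T E) hT,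
    card_EHom_perm hpH (zmod_nsmul (p := p) _) (permT H.subtype (SL T E) hT) (pAct σ χE H),
    card_EHom_perm hpH (zmod_nsmul (p := p) _) (permInf H.subtype) (pAct σ χE H),
    card_infPlaces σ hχ H] at c2
  have c4 := card_equivariant_split H.subtype (fun g φ => pAct σ χE H g φ)
    (SL_subset (E := E) hST) hS hT
  have c5 := card_SL S σ hχ H
  have c3 := card_EqJ (S := S) (T := T) σ χE H (stable_sdiff H.subtype hS hT)
  rw [card_submodule_pow (p := p),
    card_EHom_perm hpH (zmod_nsmul (p := p) _) _ (pAct σ χE H)] at c3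
  have c6 : Nat.card {f : SL T E → Dual (ZMod p) V // ∀ (g : H) x,
      f (permT H.subtype (SL T E) hT g x) = pAct σ χE H g (f x)} =
      p ^ (∑ q : ↥S, finrank (ZMod p) (LC.H0 ((funRep (permH E H)
      (dtw (σ.comp (resE E)) (cycloChar p))).comp (primeLocalToGlobal q.1)))) *
      p ^ finrank (ZMod p) (EqJ S T σ χE H) := by
    rw [c3, ← c5]
    exact c4
  rw [c6] at c2
  refine ⟨f2, ?_⟩
  have h1 : (1 : ℕ) < p := hp.out.one_lt
  rw [← pow_add, ← pow_add, ← pow_add, ← pow_add] at c2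
  have h2 := Nat.pow_right_injective h1 c2
  omega

end Count

section Main

variable {p : ℕ} [hp : Fact p.Prime] {S : Finset Nat.Primes}
  {E : IntermediateField ℚ Qb} [FiniteDimensional ℚ E] [Normal ℚ E] {ζ : Qbˣ}
  {V : Type} [AddCommGroup V] [Module (ZMod p) V] [FiniteDimensional (ZMod p) V]
  (σ : Representation (ZMod p) (E ≃ₐ[ℚ] E) V) (H : Subgroup (E ≃ₐ[ℚ] E))
  (χE : (E ≃ₐ[ℚ] E) →* (ZMod p)ˣ) (hχ : χE.comp (resE E) = cycloChar p)

theorem smooth_resE (hE : (unram S).IsOpen E.fixingSubgroup)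
    (σ : Representation (ZMod p) (E ≃ₐ[ℚ] E) V) : Smooth (unram S) (σ.comp (resE E)) := by
  obtain ⟨N, hN, h⟩ := hE
  intro v
  refine ⟨N, hN, fun g hg => ?_⟩
  have h1 : g ∈ (resE E).ker := by
    rw [ker_resE]
    exact h hg
  show σ (resE E g) v = v
  rw [MonoidHom.mem_ker.mp h1, map_one]
  rfl

theorem smooth_funRep_resE (hE : (unram S).IsOpen E.fixingSubgroup) (H : Subgroup (E ≃ₐ[ℚ] E))
    (σ : Representation (ZMod p) (E ≃ₐ[ℚ] E) V) :
    Smooth (unram S) (funRep (permH E H) (σ.comp (resE E))) :=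
  smooth_resE hE (funRep (MulAction.toPermHom (E ≃ₐ[ℚ] E) ((E ≃ₐ[ℚ] E) ⧸ H)) σ)

theorem finer_unram_krull : Finer (unram S) (krull ℚ Qb) := by
  rintro _ ⟨F, hF, hF', rfl⟩
  exact ⟨_, ⟨F, hF.1, hF', rfl⟩, le_rfl⟩

include hχ in
/-- The image of `H²(G_S, 𝓜)` in the sum of the local groups. -/
theorem image_bound (hpH : ¬ p ∣ Nat.card H) (h : Hyp p S E ζ) (hQ : HasseQ p) {δ : ↥S → ℕ}
    (D : ∀ q : ↥S, LocalDuality (lvlOver (primeLocalToGlobal q.1))
      ((cycloChar p).comp (primeLocalToGlobal q.1)) (δ q))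
    (hrec : HRec (unram S) (cycloChar p) (fun q : ↥S => lvlOver (primeLocalToGlobal q.1))
      (fun q => primeLocalToGlobal q.1) (cont_locS S) fun q => (D q).inv)
    [FiniteDimensional (ZMod p) (K2 ((σ.comp (resE E)).comp (preim E H).subtype)
      (Finer.restrict (finer_unram_krull (S := S)) (preim E H)))] :
    FiniteDimensional (ZMod p) (LC.H2 (funRep (permH E H) (σ.comp (resE E))) (unram S)) ∧
    finrank (ZMod p) (LC.H2 (funRep (permH E H) (σ.comp (resE E))) (unram S)) +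
      finrank (ZMod p) (LC.H0 ((dtw (σ.comp (resE E)) (cycloChar p)).comp
        (preim E H).subtype)) ≤
    finrank (ZMod p) (K2 ((σ.comp (resE E)).comp (preim E H).subtype)
      (Finer.restrict (finer_unram_krull (S := S)) (preim E H))) +
    ∑ q : ↥S, finrank (ZMod p) (LC.H0 ((funRep (permH E H)
      (dtw (σ.comp (resE E)) (cycloChar p))).comp (primeLocalToGlobal q.1))) := by
  set ρ := σ.comp (resE E) with hρdef
  have hN : (unram S).IsOpen E.fixingSubgroup := h.isOpen
  have hNk : (krull ℚ Qb).IsOpen E.fixingSubgroup := isOpen_krull_of_unram hN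
  have hρ : Smooth (unram S) (funRep (permH E H) ρ) := smooth_funRep_resE hN H σ
  let sh := shH E H ρ (unram S)
  let hfQ := Finer.restrict (finer_unram_krull (S := S)) (preim E H)
  let K : Submodule (ZMod p) (LC.H2 (funRep (permH E H) ρ) (unram S)) :=
    (K2 (ρ.comp (preim E H).subtype) hfQ).comap sh.H2
  have hinj : Function.Injective sh.H2 := (shH_bijective_H2 E H ρ (unram S) hN).1
  let j : K →ₗ[ZMod p] K2 (ρ.comp (preim E H).subtype) hfQ := sh.H2.restrict fun _ hx => hx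
  have hj : Function.Injective j := by
    intro x y hxy
    exact Subtype.ext (hinj (congrArg Subtype.val hxy))
  have f3 : FiniteDimensional (ZMod p) K := FiniteDimensional.of_injective j hj
  have h1 : finrank (ZMod p) K ≤ finrank (ZMod p) (K2 (ρ.comp (preim E H).subtype) hfQ) :=
    LinearMap.finrank_le_finrank_of_injective hj
  have hNχ : E.fixingSubgroup ≤ (cycloChar p).ker := by
    intro n hn
    rw [MonoidHom.mem_ker, ← hχ, MonoidHom.comp_apply]
    rw [← ker_resE, MonoidHom.mem_ker] at hn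
    rw [hn, map_one]
  have hNU : E.fixingSubgroup ≤ stab (permH E H) ((1 : E ≃ₐ[ℚ] E) : (E ≃ₐ[ℚ] E) ⧸ H) :=
    (fixingSubgroup_le_preim E H).trans (stab_permH E H).symm.le
  have hK : ∀ z, (∀ v : ↥S, (Mor.res (funRep (permH E H) ρ) (primeLocalToGlobal v.1)
      (cont_locS S v)).H2 z = 0) → z ∈ K := by
    intro z hz
    show (cmp (ρ.comp (preim E H).subtype) hfQ).H2 (sh.H2 z) = 0
    refine eq_zero_of_funcMor_H2 ρ (krull ℚ Qb) (fixingSubgroup_le_preim E H)
      (fun u _ n hn => conj_mem_fixing u hn) hNk (isUnit_relIndex H hpH)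
      (comp_resE_eq_one σ) _ fun φ => ?_
    have h2 := evalMor_H2_eq_zero (permH E H) ρ ((1 : E ≃ₐ[ℚ] E) : (E ≃ₐ[ℚ] E) ⧸ H) hNU
      (comp_resE_eq_one σ) φ hQ hN hNχ finer_unram_krull z (fun q _ => hz q)
    rw [← Mor.H2_comp] at h2
    rw [← Mor.H2_comp, ← Mor.H2_comp]
    exact h2
  have hne : Nonempty ↥S := ⟨⟨_, h.pS⟩⟩
  obtain ⟨f4, h2⟩ := finrank_H2_le (hr := cont_locS S) D hrec (funRep (permH E H) ρ) hρ K hK
  have h3 : finrank (ZMod p) (LC.H0 (dtw (funRep (permH E H) ρ) (cycloChar p))) =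
      finrank (ZMod p) (LC.H0 ((dtw ρ (cycloChar p)).comp (preim E H).subtype)) := by
    rw [(dualFunIso (permH E H) ρ (cycloChar p) (unram S)).H0.finrank_eq]
    exact (LinearEquiv.ofBijective (shH E H (dtw ρ (cycloChar p)) (unram S)).H0
      (shH_bijective_H0 E H (dtw ρ (cycloChar p)) (unram S))).finrank_eq
  have h4 : ∀ v : ↥S, finrank (ZMod p) (LC.H0 (dtw ((funRep (permH E H) ρ).comp
      (primeLocalToGlobal v.1)) ((cycloChar p).comp (primeLocalToGlobal v.1)))) =
      finrank (ZMod p) (LC.H0 ((funRep (permH E H)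
      (dtw ρ (cycloChar p))).comp (primeLocalToGlobal v.1))) := by
    intro v
    rw [funRep_comp (permH E H) (dtw ρ (cycloChar p)), dtw_comp]
    exact (dualFunIso ((permH E H).comp (primeLocalToGlobal v.1)) (ρ.comp (primeLocalToGlobal v.1))
      ((cycloChar p).comp (primeLocalToGlobal v.1)) (lvlOver (primeLocalToGlobal v.1))).H0.finrank_eq
  refine ⟨f4, ?_⟩
  rw [h3, Finset.sum_congr rfl fun v _ => h4 v] at h2
  omega

include hχ in
/-- **[EC-U]** the Euler characteristic inequality for `Fun(Γ/H, V)`, `p ∤ |H|`. -/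
theorem ec_U (hp2 : p ≠ 2) (hpH : ¬ p ∣ Nat.card H) (h : Hyp p S E ζ) {δ : ↥S → ℕ}
    (D : ∀ q : ↥S, LocalDuality (lvlOver (primeLocalToGlobal q.1))
      ((cycloChar p).comp (primeLocalToGlobal q.1)) (δ q))
    (hrec : HRec (unram S) (cycloChar p) (fun q : ↥S => lvlOver (primeLocalToGlobal q.1))
      (fun q => primeLocalToGlobal q.1) (cont_locS S) fun q => (D q).inv) :
    FiniteDimensional (ZMod p) (LC.H1 (funRep (permH E H) (σ.comp (resE E))) (unram S)) ∧
    FiniteDimensional (ZMod p) (LC.H2 (funRep (permH E H) (σ.comp (resE E))) (unram S)) ∧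
    finrank (ZMod p) (LC.H0 (funRep (permH E H) (σ.comp (resE E)))) +
        finrank (ZMod p) (LC.H2 (funRep (permH E H) (σ.comp (resE E))) (unram S)) +
        finrank (ZMod p) ((E ≃ₐ[ℚ] E) ⧸ H → V) ≤
      finrank (ZMod p) (LC.H1 (funRep (permH E H) (σ.comp (resE E))) (unram S)) +
        finrank (ZMod p) (LinearMap.ker
          (funRep (permH E H) (σ.comp (resE E)) complexConjugation - 1)) := by
  obtain ⟨T, hST, hcl⟩ := exists_T S E
  have hN : (unram S).IsOpen E.fixingSubgroup := h.isOpen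
  have hfT : Finer ((unram S).restrict (preim E H)) ((unram T).restrict (preim E H)) :=
    finer_lS_lS hST (preim E H)
  obtain ⟨f1, c1⟩ := finrank_H1_large σ H χE hχ hpH h hST hcl
  obtain ⟨f2, f3, c2⟩ := index_ineq_coeff σ χE hχ H h hST hfT
  have hK := K2_eq_coeff σ H hpH h hST hcl
    (Finer.restrict (finer_unram_krull (S := S)) (preim E H)) hfT
  have f4 : FiniteDimensional (ZMod p) (K2 ((σ.comp (resE E)).comp (preim E H).subtype)
      (Finer.restrict (finer_unram_krull (S := S)) (preim E H))) :=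
    Submodule.finiteDimensional_of_le hK
  have c3 := Submodule.finrank_mono hK
  obtain ⟨f5, c4⟩ := image_bound σ H χE hχ hpH h (hasseQ hp2) D hrec
  have e1 := LinearEquiv.ofBijective _ (shH_bijective_H1 E H (σ.comp (resE E)) (unram S) hN)
  have e0 := LinearEquiv.ofBijective _ (shH_bijective_H0 E H (σ.comp (resE E)) (unram S))
  have h2 : (2 : ZMod p) ≠ 0 := by
    have : ((2 : ℕ) : ZMod p) ≠ 0 := by
      rw [Ne, ZMod.natCast_eq_zero_iff]
      intro h
      exact hp2 ((Nat.prime_dvd_prime_iff_eq hp.out Nat.prime_two).mp h)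
    exact_mod_cast this
  have c5 := finrank_add_finrank_dtw h2 (permH E H) (σ.comp (resE E)) (cycloChar p)
    complexConjugation complexConjugation_mul_self cycloChar_complexConjugation
  have c6 := e0.finrank_eq
  have c7 := e1.finrank_eq
  refine ⟨e1.symm.finiteDimensional, f5, ?_⟩
  omega

end Main

end Fermat.Agent.CFT.EC
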