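import Fermat.Agent.CFT.EC.Main
import Fermat.Agent.CFT.EC.Final

/-!
# `ECU p S` from local duality and reciprocity
-/

set_option autoImplicit false

open NumberField IsDedekindDomain Module
open Fermat.Agent.FrobExists Fermat.Agent.CFT.W ExtCitation

namespace Fermat.Agent.CFT.EC

open Fermat.Agent.CFT.LC Fermat.Agent.CFT.W Fermat.Agent.CFT.PT Fermat.Agent.CFT.D2

/-- **[EC-U]** in the form consumed by `EC.ecIneq`. -/
theorem ecu_of_rec {p : ℕ} [hp : Fact p.Prime] {S : Finset Nat.Primes} (hp2 : p ≠ 2) {δ : ↥S → ℕ}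
    (D : ∀ q : ↥S, LocalDuality (lvlOver (primeLocalToGlobal q.1))
      ((cycloChar p).comp (primeLocalToGlobal q.1)) (δ q))
    (hrec : HRec (unram S) (cycloChar p) (fun q : ↥S => lvlOver (primeLocalToGlobal q.1))
      (fun q => primeLocalToGlobal q.1) (cont_locS S) fun q => (D q).inv) : ECU p S := by
  intro E _ _ ζ h χE hχ H hpH V _ _ _ σ
  exact (ec_U σ H χE hχ hp2 hpH h D hrec).2.2

end Fermat.Agent.CFT.EC
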