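import Fermat.Agent.CFT.EC.KumEq
import Fermat.Agent.CFT.D2.Count

/-!
# The equivariant ramification map
-/

set_option autoImplicit false
set_option linter.unusedSectionVars false

open NumberField IsDedekindDomain Module Pointwise
open Fermat.Agent.FrobExists Fermat.Agent.CFT.W ExtCitation

namespace Fermat.Agent.CFT.EC

open Fermat.Agent.CFT.LC Fermat.Agent.CFT.D2 Fermat.Agent.CFT.SUH

local notation "Qb" => AlgebraicClosure ℚ

section conj

variable {p : ℕ} [hp : Fact p.Prime] {S : Finset Nat.Primes}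
  {E : IntermediateField ℚ Qb} [FiniteDimensional ℚ E] [Normal ℚ E] {ζ : Qbˣ}

/-- Kummer generators of conjugate cochains -/
theorem isKum_conj (hζ : IsPrimitiveRoot ζ p) {β β' : E.fixingSubgroup → ZMod p} {α : Qbˣ}
    (h : IsKum S E.fixingSubgroup ζ β α) (u : GQ)
    (hβ : ∀ n n' : E.fixingSubgroup, (n' : GQ) = u⁻¹ * n * u →
      β' n = (cycloChar p u : ZMod p) * β n') :
    IsKum S E.fixingSubgroup ζ β' (u • α) := by
  obtain ⟨F, hF, h1⟩ := h
  have hnF := hF.nrm.normal_fixingSubgroup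
  let c : E.fixingSubgroup → E.fixingSubgroup := fun n => ⟨u⁻¹ * n * u, conj_mem_fixing u n.2⟩
  have hc : ∀ n, β' n = (cycloChar p u : ZMod p) * β (c n) := fun n => hβ n (c n) rfl
  have hcm : ∀ n m, c (n * m) = c n * c m := fun n m => Subtype.ext (by
    show u⁻¹ * (n * m : GQ) * u = (u⁻¹ * n * u) * (u⁻¹ * m * u)
    group)
  have hc1 : c 1 = 1 := Subtype.ext (by
    show u⁻¹ * (1 : GQ) * u = 1
    group)
  have hcF : ∀ n : E.fixingSubgroup, (n : GQ) ∈ F.fixingSubgroup → (c n : GQ) ∈ F.fixingSubgroup := by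
    intro n hn
    have := hnF.conj_mem _ hn u⁻¹
    rw [inv_inv] at this
    exact this
  refine ⟨F, ⟨hF.unr, hF.nrm, hF.le, fun g s hs => ?_, fun g s hs => ?_⟩, fun s hs => ?_⟩
  · rw [hc, hc, hc, hc, hcm, hc1, hF.right _ _ (hcF s hs)]
    ring
  · rw [hc, hc, hc, hc, hcm, hc1, hF.left _ _ (hcF s hs)]
    ring
  · have h2 := h1 (c s) (hcF s hs)
    have h3 : (s : GQ) • u • α = u • ((c s : GQ) • α) := by
      rw [smul_smul, smul_smul]
      congr 1
      show (s : GQ) * u = u * (u⁻¹ * s * u)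
      group
    rw [h3, h2, smul_mul', smul_ez' hζ, hc, hc, hc1, mul_sub]

/-- Galois action on the places -/
theorem placeL_smul_act {q : ℕ} (hq : q ≠ 0) {A : ValuationSubring Qb} (hA : A.LiesOverPrime q)
    (u : GQ) (hA' : (u • A).LiesOverPrime q) :
    placeL E (u • A) hq hA' = act (resE E u) (placeL E A hq hA) := by
  apply HeightOneSpectrum.ext
  ext x
  rw [mem_place]
  have h1 : x ∈ (act (resE E u) (placeL E A hq hA)).asIdeal ↔
      (act (resE E u) (placeL E A hq hA)).valuation E (x : E) < 1 := by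
    exact (HeightOneSpectrum.valuation_lt_one_iff_mem (K := E)
      (act (resE E u) (placeL E A hq hA)) x).symm
  have h2 : (resE E u) ((resE E u⁻¹) (x : E)) = (x : E) := by
    apply Subtype.ext
    rw [coe_resE_apply, coe_resE_apply]
    exact u.apply_symm_apply _
  have h3 := valuation_act (resE E u) (placeL E A hq hA) ((resE E u⁻¹) (x : E))
  rw [h2] at h3
  rw [h1, h3, valuation_lt_one_iff]
  have h4 : (algebraMap E Qb ((resE E u⁻¹) (x : E)) : Qb) = u⁻¹ ((x : E) : Qb) :=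
    coe_resE_apply E u⁻¹ (x : E)
  have h5 := Fermat.Agent.TWP.Place.apply_mem_nonunits_smul A u (x := u⁻¹ ((x : E) : Qb))
  have h6 : u (u⁻¹ ((x : E) : Qb)) = ((x : E) : Qb) := u.apply_symm_apply _
  rw [h6] at h5
  rw [h4, ← ValuationSubring.mem_nonunits_iff]
  exact h5

/-- The ramification value of a conjugate Kummer generator. -/
theorem dval_conj (h : Hyp p S E ζ) {β : E.fixingSubgroup → ZMod p} {α : Qbˣ}
    (hα : IsKum S E.fixingSubgroup ζ β α) {v : HeightOneSpectrum (𝓞 E)} (hv : v ∉ SL S E)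
    (u : GQ) : dval p v (u • α) = dval p (act (resE E u⁻¹) v) α := by
  have hq := qv_notMem hv
  have hA := Av_liesOver v
  have hA' := smul_liesOverPrime u⁻¹ (Av v) hA
  have h1 : IsInt (u⁻¹ • Av v) (qv v) ((α ^ p : Qbˣ) : Qb) :=
    isInt_of_mem_QS hq hA' (α ^ p).ne_zero (hα.pow_mem_QS h.prim)
  have h2 := (vv_smul (qv v).2 hA' u h1).2
  rw [smul_inv_smul] at h2
  have h3 := cast_vv_eq_dval h hα hq hA'
  have h4 : placeL E (u⁻¹ • Av v) (qv v).2.ne_zero hA' = act (resE E u⁻¹) v := by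
    rw [placeL_smul_act (qv v).2.ne_zero hA, placeL_Av]
  rw [h4] at h3
  have h5 : (((u • α) ^ p : Qbˣ) : Qb) = u ((α ^ p : Qbˣ) : Qb) := by
    rw [← smul_pow', coe_smul]
  rw [← h3, ← h2, dval, h5]

end conj

section resX

variable {k : Type} [Field k] {G : Type} [Group G] {V : Type} [AddCommGroup V] [Module k V]
  (ρ : Representation k G V) (L L' : Lvl G) {U N : Subgroup G} (hNU : N ≤ U)
  (hρ : ∀ n ∈ N, ρ n = 1)

/-- restriction to `N` and a functional, on `X1` -/
def resX : X1 (ρ.comp U.subtype) (L.restrict U) (L'.restrict U) →ₗ[k] Dual k V →ₗ[k]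
    X1 (Representation.trivial k N k) (L.restrict N) (L'.restrict N) :=
  LinearMap.mk₂ k (fun β φ => ⟨(funcMor ρ L' hNU hρ φ).c1 β.1,
      (funcMor ρ L' hNU hρ φ).isLC₁_c1 β.2.1, by
        have h1 := (funcMor ρ L hNU hρ φ).isLC₂_c2 β.2.2
        have h2 := (funcMor ρ L hNU hρ φ).c2_d1 β.1
        rw [h2] at h1
        exact h1⟩)
    (fun β β' φ => Subtype.ext (by
      ext n
      show φ (β.1 _ + β'.1 _) = φ (β.1 _) + φ (β'.1 _)
      rw [map_add]))
    (fun c β φ => Subtype.ext (by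
      ext n
      show φ (c • β.1 _) = c • φ (β.1 _)
      rw [map_smul]))
    (fun β φ φ' => Subtype.ext (by
      ext n
      rfl))
    (fun c β φ => Subtype.ext (by
      ext n
      rfl))

theorem resX_apply (β : X1 (ρ.comp U.subtype) (L.restrict U) (L'.restrict U)) (φ : Dual k V)
    (n : N) : (resX ρ L L' hNU hρ β φ).1 n = φ (β.1 ⟨n, hNU n.2⟩) := rfl

/-- `β` is `L`-constant iff all `φ ∘ β` are `L`-constant on `N`. -/
theorem isLC_iff_resX [FiniteDimensional k V] (hN : L.IsOpen N)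
    (β : X1 (ρ.comp U.subtype) (L.restrict U) (L'.restrict U)) :
    IsLC₁ (L.restrict U) β.1 ↔ ∀ φ : Dual k V,
      IsLC₁ (L.restrict N) (resX ρ L L' hNU hρ β φ).1 := by
  classical
  constructor
  · intro h φ
    exact (funcMor ρ L hNU hρ φ).isLC₁_c1 h
  · intro h
    -- a level on which all coordinates are constant
    let b := Module.finBasis k V
    choose M hM hM' using fun i => h (b.coord i)
    choose M' hM'1 hM'2 using hM
    obtain ⟨W1, hW1, hW1'⟩ := L.exists_level_le_finite M' hM'1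
    obtain ⟨_, ⟨W2, hW2, rfl⟩, hd⟩ := β.2.2
    obtain ⟨W3, hW3, hW3'⟩ := hN
    obtain ⟨W4, hW4, h41, h42⟩ := L.directed W1 hW1 W2 hW2
    obtain ⟨W, hW, h54, h53⟩ := L.directed W4 hW4 W3 hW3
    have hWN : W ≤ N := h53.trans hW3'
    have hWU : W ≤ U := hWN.trans hNU
    have h1 : ∀ m : U, (m : G) ∈ W → β.1 m = β.1 1 := by
      intro m hm
      apply b.ext_elem
      intro i
      have h2 := hM' i 1 ⟨m, hWN hm⟩ (by
        rw [hM'2 i]
        exact hW1' i (h41 (h54 hm)))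
      rw [one_mul] at h2
      exact h2
    refine ⟨_, ⟨W, hW, rfl⟩, fun u m hm => ?_⟩
    have h3 := hd u 1 1 (Subgroup.one_mem _) m (h42 (h54 hm))
    simp only [d1_apply, mul_one, one_mul] at h3
    rw [h1 m hm] at h3
    have h4 : β.1 (u * m) - β.1 u = 0 := by
      have h5 := sub_eq_zero.mpr h3
      rw [← neg_eq_zero, ← h5]
      abel
    exact sub_eq_zero.mp h4

include hρ in
/-- Conjugating a cochain with `L`-constant coboundary changes it by an `L`-constant cochain. -/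
theorem isLC_conj_sub (hn : ∀ u ∈ U, ∀ n ∈ N, u⁻¹ * n * u ∈ N)
    (β : X1 (ρ.comp U.subtype) (L.restrict U) (L'.restrict U)) (φ : Dual k V) {u : G}
    (hu : u ∈ U) :
    IsLC₁ (L.restrict N) (fun n : N => φ (ρ u⁻¹ (β.1 ⟨n, hNU n.2⟩)) -
      φ (β.1 ⟨u⁻¹ * n * u, hNU (hn u hu n n.2)⟩)) := by
  obtain ⟨_, ⟨W, hW, rfl⟩, hd⟩ := β.2.2
  have hnW := L.normal W hW
  let u' : U := ⟨u, hu⟩
  let i : N → U := fun n => ⟨n, hNU n.2⟩
  have key : ∀ n : N, φ (ρ u⁻¹ (β.1 ⟨n, hNU n.2⟩)) -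
      φ (β.1 ⟨u⁻¹ * n * u, hNU (hn u hu n n.2)⟩) =
      φ (ρ u⁻¹ (d1 (ρ.comp U.subtype) β.1 (i n, u') - β.1 u') - β.1 u'⁻¹ +
        d1 (ρ.comp U.subtype) β.1 (u'⁻¹, i n * u')) := by
    intro n
    have h1 : (⟨u⁻¹ * n * u, hNU (hn u hu n n.2)⟩ : U) = u'⁻¹ * (i n * u') :=
      Subtype.ext (mul_assoc _ _ _)
    have h2 : (ρ.comp U.subtype) (i n) (β.1 u') = β.1 u' := by
      show ρ (n : G) (β.1 u') = β.1 u'
      rw [hρ n n.2]
      rfl
    have h3 : (ρ.comp U.subtype) u'⁻¹ (β.1 (i n * u')) = ρ u⁻¹ (β.1 (i n * u')) := rfl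
    rw [h1, ← map_sub]
    congr 1
    rw [d1_apply, d1_apply]
    simp only
    rw [h2, h3, map_sub, map_add, map_sub]
    abel
  refine ⟨_, ⟨W, hW, rfl⟩, fun n s hs => ?_⟩
  have hs' : (s : G) ∈ W := hs
  refine (key (n * s)).trans (Eq.trans ?_ (key n).symm)
  have h4 := hd (i n) u' (i s) hs' 1 (Subgroup.one_mem _)
  have h5 := hd u'⁻¹ (i n * u') 1 (Subgroup.one_mem _) (u'⁻¹ * i s * u') (by
    show u⁻¹ * (s : G) * u ∈ W
    have := hnW.conj_mem _ hs' u⁻¹
    rwa [inv_inv] at this)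
  have h6 : i (n * s) = i n * i s := rfl
  have h7 : i n * u' * (u'⁻¹ * i s * u') = i n * i s * u' := by group
  rw [mul_one] at h4 h5
  rw [h7] at h5
  rw [h6, h4, h5]

end resX

section Dmap

variable {p : ℕ} [hp : Fact p.Prime] {S : Finset Nat.Primes}
  {E : IntermediateField ℚ Qb} [FiniteDimensional ℚ E] [Normal ℚ E] {ζ : Qbˣ}
  {V : Type} [AddCommGroup V] [Module (ZMod p) V]
  (σ : Representation (ZMod p) (E ≃ₐ[ℚ] E) V) (H : Subgroup (E ≃ₐ[ℚ] E))

theorem comp_resE_eq_one : ∀ n ∈ E.fixingSubgroup, (σ.comp (resE E)) n = 1 := by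
  intro n hn
  rw [← ker_resE] at hn
  rw [MonoidHom.comp_apply, MonoidHom.mem_ker.mp hn, map_one]

/-- The ramification map for `V`. -/
noncomputable def Dmap (h : Hyp p S E ζ) (T : Finset Nat.Primes) :
    X1 ((σ.comp (resE E)).comp (preim E H).subtype) ((unram S).restrict (preim E H))
      ((unram T).restrict (preim E H)) →ₗ[ZMod p] Dual (ZMod p) V →ₗ[ZMod p]
      (Jset S T E → ZMod p) :=
  (resX (σ.comp (resE E)) (unram S) (unram T) (fixingSubgroup_le_preim E H)
    (comp_resE_eq_one σ)).compr₂ (ramMap h T ∘ₗ inclX1 p S T E.fixingSubgroup)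

theorem Dmap_apply (h : Hyp p S E ζ) (T : Finset Nat.Primes)
    (β : X1 ((σ.comp (resE E)).comp (preim E H).subtype) ((unram S).restrict (preim E H))
      ((unram T).restrict (preim E H))) (φ : Dual (ZMod p) V) :
    Dmap σ H h T β φ = ramMap h T (inclX1 p S T E.fixingSubgroup
      (resX (σ.comp (resE E)) (unram S) (unram T) (fixingSubgroup_le_preim E H)
        (comp_resE_eq_one σ) β φ)) := rfl

theorem Dmap_eq_zero_iff [FiniteDimensional (ZMod p) V] (h : Hyp p S E ζ)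
    {T : Finset Nat.Primes} (hST : S ⊆ T)
    (β : X1 ((σ.comp (resE E)).comp (preim E H).subtype) ((unram S).restrict (preim E H))
      ((unram T).restrict (preim E H))) :
    Dmap σ H h T β = 0 ↔ IsLC₁ ((unram S).restrict (preim E H)) β.1 := by
  rw [isLC_iff_resX (σ.comp (resE E)) (unram S) (unram T) (fixingSubgroup_le_preim E H)
    (comp_resE_eq_one σ) h.isOpen β]
  constructor
  · intro h0 φ
    rw [← ramMap_eq_zero_iff h hST, ← Dmap_apply, h0, LinearMap.zero_apply]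
  · intro h0
    refine LinearMap.ext fun φ => ?_
    rw [Dmap_apply, LinearMap.zero_apply]
    exact (ramMap_eq_zero_iff h hST _).2 (h0 φ)

variable (χE : (E ≃ₐ[ℚ] E) →* (ZMod p)ˣ) (hχ : χE.comp (resE E) = cycloChar p)

include hχ in
/-- Equivariance of the ramification map. -/
theorem Dmap_pAct (h : Hyp p S E ζ) (T : Finset Nat.Primes)
    (β : X1 ((σ.comp (resE E)).comp (preim E H).subtype) ((unram S).restrict (preim E H))
      ((unram T).restrict (preim E H))) (φ : Dual (ZMod p) V) (g : H) (v v' : Jset S T E)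
    (hv : v'.1 = act ((g : E ≃ₐ[ℚ] E)⁻¹) v.1) :
    Dmap σ H h T β (pAct σ χE H g φ) v = Dmap σ H h T β φ v' := by
  obtain ⟨u, hu⟩ := resE_surjective E (g : E ≃ₐ[ℚ] E)
  have huU : u ∈ preim E H := by
    rw [Subgroup.mem_comap, hu]
    exact g.2
  have hχu : χE (g : E ≃ₐ[ℚ] E) = cycloChar p u := by
    rw [← hu, ← hχ]
    rfl
  set γ := resX (σ.comp (resE E)) (unram S) (unram T) (fixingSubgroup_le_preim E H)
        (comp_resE_eq_one σ) β φ with hγ
  set γ' := resX (σ.comp (resE E)) (unram S) (unram T) (fixingSubgroup_le_preim E H)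
        (comp_resE_eq_one σ) β (pAct σ χE H g φ) with hγ'
  obtain ⟨α, hα⟩ := h.exists_gen (inclX1 p S T E.fixingSubgroup γ)
  let δ : E.fixingSubgroup → ZMod p := fun n =>
    (cycloChar p u : ZMod p) * γ.1 ⟨u⁻¹ * n * u, conj_mem_fixing u n.2⟩
  have hδ : IsKum S E.fixingSubgroup ζ δ (u • α) := by
    refine isKum_conj h.prim hα u fun n n' hn => ?_
    have : n' = ⟨u⁻¹ * n * u, conj_mem_fixing u n.2⟩ := Subtype.ext hn
    rw [this]
    rfl
  have hLC : IsLC₁ (lS S E.fixingSubgroup) (γ'.1 - δ) := by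
    have h3 := (isLC_conj_sub (σ.comp (resE E)) (unram S) (unram T) (fixingSubgroup_le_preim E H)
      (comp_resE_eq_one σ) (fun u _ n hn => conj_mem_fixing u hn) β φ huU).comp
        (fun x => (cycloChar p u : ZMod p) * x)
    have h4 : (fun x => (cycloChar p u : ZMod p) * x) ∘ (fun n : E.fixingSubgroup =>
        φ ((σ.comp (resE E)) u⁻¹ (β.1 ⟨n, fixingSubgroup_le_preim E H n.2⟩)) -
        φ (β.1 ⟨u⁻¹ * n * u, fixingSubgroup_le_preim E H (conj_mem_fixing u n.2)⟩)) =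
        γ'.1 - δ := by
      funext n
      rw [Pi.sub_apply, hγ', resX_apply, pAct_apply, PT.dtw_apply_apply, hχu]
      show _ * (_ - _) = _ - (cycloChar p u : ZMod p) * γ.1 ⟨u⁻¹ * n * u, conj_mem_fixing u n.2⟩
      rw [hγ, resX_apply, mul_sub]
      congr 3
      rw [MonoidHom.comp_apply, map_inv, hu]
    rwa [h4] at h3
  have h1 : IsKum S E.fixingSubgroup ζ (γ'.1 - δ) 1 := IsKum.one_of_isLC h.isOpen hLC
  have h2 : IsKum S E.fixingSubgroup ζ γ'.1 (u • α) := by
    have h3 := hδ.mul h.prim h1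
    rwa [mul_one, add_sub_cancel] at h3
  rw [Dmap_apply, Dmap_apply, ramMap_apply h _ (α := u • α) h2, ramMap_apply h _ hα,
    dval_conj h hα v.2.2, hv, map_inv, hu]

end Dmap

end Fermat.Agent.CFT.EC
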